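import Fermat.Agent.LR.Core

/-!
# Lifting mod `3` modular symbols to characteristic zero (L9, part A')

If `U` (the element of order `3` of `PSL(2,ℤ)`) acts without fixed points on the cosets of `Γ`,
the reduction map `MS Γ ℤ → MS Γ (ZMod 3)` is surjective.
-/

set_option autoImplicit false
set_option linter.unusedSectionVars false

open CongruenceSubgroup
open scoped MatrixGroups OnePoint

namespace Fermat.Agent.L9

open Fermat.Agent.LR

section abstract_perm

variable {X : Type} [Finite X] {s u : X → X}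

/-- coinvariants of a transitive permutation module -/
theorem exists_coinv [Fintype X]
    (hs : Function.Injective s) (hu : Function.Injective u)
    (hconst : ∀ (A : Type) (φ : X → A), (∀ x, φ (s x) = φ x) → (∀ x, φ (u x) = φ x) →
      ∀ x y, φ x = φ y) (d : X → ℤ) (hd : ∑ x, d x = 0) :
    ∃ a b : X → ℤ, ∀ x, d x = (a x - a (s x)) + (b x - b (u x)) := by
  classical
  let Ls : (X → ℤ) →ₗ[ℤ] (X → ℤ) := LinearMap.id - LinearMap.funLeft ℤ ℤ s
  let Lu : (X → ℤ) →ₗ[ℤ] (X → ℤ) := LinearMap.id - LinearMap.funLeft ℤ ℤ u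
  let W : Submodule ℤ (X → ℤ) := LinearMap.range Ls ⊔ LinearMap.range Lu
  let φ : X → (X → ℤ) ⧸ W := fun x => W.mkQ (Pi.single x 1)
  have key : ∀ (t : X → X) (_ : Function.Injective t) (x y : X),
      (Pi.single (t x) (1 : ℤ) : X → ℤ) (t y) = (Pi.single x (1 : ℤ) : X → ℤ) y := by
    intro t ht x y
    rw [Pi.single_apply, Pi.single_apply]
    simp only [ht.eq_iff]
  have hφs : ∀ x, φ (s x) = φ x := by
    intro x
    rw [← sub_eq_zero, ← map_sub]
    refine (Submodule.Quotient.mk_eq_zero W).mpr (Submodule.mem_sup_left ⟨Pi.single (s x) 1, ?_⟩)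
    funext y
    show (Pi.single (s x) (1 : ℤ) : X → ℤ) y - (Pi.single (s x) (1 : ℤ) : X → ℤ) (s y) = _
    rw [key s hs]; rfl
  have hφu : ∀ x, φ (u x) = φ x := by
    intro x
    rw [← sub_eq_zero, ← map_sub]
    refine (Submodule.Quotient.mk_eq_zero W).mpr (Submodule.mem_sup_right ⟨Pi.single (u x) 1, ?_⟩)
    funext y
    show (Pi.single (u x) (1 : ℤ) : X → ℤ) y - (Pi.single (u x) (1 : ℤ) : X → ℤ) (u y) = _
    rw [key u hu]; rfl
  have hc := hconst _ φ hφs hφu
  have hd' : W.mkQ d = 0 := by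
    have h1 : d = ∑ x, d x • (Pi.single x (1 : ℤ) : X → ℤ) := by
      funext y
      rw [Finset.sum_apply]
      simp [Pi.single_apply]
    rw [h1, map_sum]
    rcases isEmpty_or_nonempty X with hX | ⟨⟨x₀⟩⟩
    · simp
    · have h2 : ∀ x, W.mkQ (d x • (Pi.single x (1 : ℤ) : X → ℤ)) = d x • φ x₀ := by
        intro x
        rw [map_smul]
        congr 1
        exact hc x x₀
      simp only [h2]
      rw [← Finset.sum_smul, hd, zero_smul]
  obtain ⟨y, ⟨a, ha⟩, z, ⟨b, hb⟩, hyz⟩ := Submodule.mem_sup.mp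
    ((Submodule.Quotient.mk_eq_zero W).mp hd')
  refine ⟨a, b, fun x => ?_⟩
  rw [← hyz, ← ha, ← hb]
  rfl

/-- norms for a free action of `ℤ/3` -/
theorem exists_norm_three (hu3 : ∀ x, u (u (u x)) = x) (hfree : ∀ x, u x ≠ x) (c : X → ℤ)
    (hc : ∀ x, c (u x) = c x) : ∃ d : X → ℤ, ∀ x, d x + d (u x) + d (u (u x)) = c x := by
  classical
  obtain ⟨n, ⟨e⟩⟩ := Finite.exists_equiv_fin X
  let f : X → ℕ := fun x => (e x : ℕ)
  have hf : Function.Injective f := fun x y h => e.injective (Fin.ext h)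
  refine ⟨fun x => if f x < f (u x) ∧ f x < f (u (u x)) then c x else 0, fun x => ?_⟩
  have h1 : f x ≠ f (u x) := fun h => hfree x (hf h).symm
  have h2 : f (u x) ≠ f (u (u x)) := fun h => hfree (u x) (hf h).symm
  have h3 : f x ≠ f (u (u x)) := fun h => hfree x (by
    have h4 := hf h
    conv_lhs => rw [h4]
    rw [hu3])
  simp only [hu3, hc]
  split_ifs with h5 h6 h7 h8 h9 h10 h11 <;> omega

/-- the abstract lifting lemma -/
theorem exists_lift_perm [Fintype X] (hs2 : ∀ x, s (s x) = x) (hu3 : ∀ x, u (u (u x)) = x)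
    (hfree : ∀ x, u x ≠ x)
    (hconst : ∀ (A : Type) (φ : X → A), (∀ x, φ (s x) = φ x) → (∀ x, φ (u x) = φ x) →
      ∀ x y, φ x = φ y) (m : X → ZMod 3) (hmS : ∀ x, m x + m (s x) = 0)
    (hmU : ∀ x, m x + m (u x) + m (u (u x)) = 0) :
    ∃ M : X → ℤ, (∀ x, M x + M (s x) = 0) ∧ (∀ x, M x + M (u x) + M (u (u x)) = 0) ∧
      ∀ x, (M x : ZMod 3) = m x := by
  have hs : Function.Injective s := fun x y h => by rw [← hs2 x, h, hs2]
  have hu : Function.Injective u := fun x y h => by rw [← hu3 x, h, hu3]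
  have hsb : Function.Bijective s := Finite.injective_iff_bijective.mp hs
  have hub : Function.Bijective u := Finite.injective_iff_bijective.mp hu
  -- an antisymmetric lift
  let a : X → ℤ := fun x => ((2 * m x : ZMod 3).val : ℤ)
  have ha : ∀ x, ((a x : ℤ) : ZMod 3) = 2 * m x := fun x => by
    show (((2 * m x : ZMod 3).val : ℤ) : ZMod 3) = 2 * m x
    rw [Int.cast_natCast, ZMod.natCast_zmod_val]
  let M₀ : X → ℤ := fun x => a x - a (s x)
  have hM₀ : ∀ x, ((M₀ x : ℤ) : ZMod 3) = m x := fun x => by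
    have h1 := hmS x
    simp only [M₀, Int.cast_sub, ha]
    have h3 : (3 : ZMod 3) = 0 := by decide
    linear_combination (-2) * h1 + m x * h3
  have hM₀s : ∀ x, M₀ x + M₀ (s x) = 0 := fun x => by simp only [M₀, hs2]; ring
  have hdvd : ∀ x, (3 : ℤ) ∣ M₀ x + M₀ (u x) + M₀ (u (u x)) := fun x => by
    have h1 := hmU x
    rw [← hM₀, ← hM₀, ← hM₀] at h1
    have h2 : ((M₀ x + M₀ (u x) + M₀ (u (u x)) : ℤ) : ZMod 3) = 0 := by push_cast; exact h1
    exact_mod_cast (ZMod.intCast_zmod_eq_zero_iff_dvd _ _).mp h2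
  choose c hc using hdvd
  have hcu : ∀ x, c (u x) = c x := fun x => by
    have h1 := hc x
    have h2 := hc (u x)
    rw [hu3] at h2
    linarith
  obtain ⟨d, hd⟩ := exists_norm_three hu3 hfree c hcu
  have hsumM : ∑ x, M₀ x = 0 := by
    simp only [M₀, Finset.sum_sub_distrib]
    rw [Function.Bijective.sum_comp hsb a, sub_self]
  have hsum : ∑ x, d x = 0 := by
    have h1 : ∑ x, c x = 3 * ∑ x, d x := by
      rw [Finset.sum_congr rfl fun x _ => (hd x).symm, Finset.sum_add_distrib,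
        Finset.sum_add_distrib, Function.Bijective.sum_comp hub d,
        Function.Bijective.sum_comp hub (fun x => d (u x)), Function.Bijective.sum_comp hub d]
      ring
    have h2 : 3 * ∑ x, c x = 3 * ∑ x, M₀ x := by
      rw [Finset.mul_sum, Finset.sum_congr rfl fun x _ => (hc x).symm, Finset.sum_add_distrib,
        Finset.sum_add_distrib, Function.Bijective.sum_comp hub M₀,
        Function.Bijective.sum_comp hub (fun x => M₀ (u x)), Function.Bijective.sum_comp hub M₀]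
      ring
    rw [hsumM, h1] at h2
    omega
  obtain ⟨a', b', hab⟩ := exists_coinv hs hu hconst d hsum
  refine ⟨fun x => M₀ x - 3 * (a' x - a' (s x)), fun x => ?_, fun x => ?_, fun x => ?_⟩
  · have := hM₀s x
    simp only [hs2]
    linarith
  · have h1 := hc x
    have h2 := hd x
    rw [hab, hab, hab, hu3] at h2
    simp only
    linarith
  · push_cast
    rw [hM₀]
    have h3 : (3 : ZMod 3) = 0 := by decide
    rw [h3, zero_mul, sub_zero]

end abstract_perm

local notation "S" => ModularGroup.S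

theorem const_of_S_U_coset {Γ : Subgroup SL(2, ℤ)} {A : Type*} (φ : SL(2, ℤ) ⧸ Γ → A)
    (hS : ∀ x, φ (S⁻¹ • x) = φ x) (hU : ∀ x, φ (U⁻¹ • x) = φ x) (x y : SL(2, ℤ) ⧸ Γ) :
    φ x = φ y := by
  have key : ∀ g : SL(2, ℤ), φ (g⁻¹ • ((1 : SL(2, ℤ)) : SL(2, ℤ) ⧸ Γ)) =
      φ ((1 : SL(2, ℤ))⁻¹ • ((1 : SL(2, ℤ)) : SL(2, ℤ) ⧸ Γ)) := fun g =>
    const_of_S_U (f := fun g : SL(2, ℤ) => φ (g⁻¹ • ((1 : SL(2, ℤ)) : SL(2, ℤ) ⧸ Γ)))
      (fun g => by
        show φ ((g * S)⁻¹ • _) = _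
        rw [mul_inv_rev, mul_smul, hS])
      (fun g => by
        show φ ((g * U)⁻¹ • _) = _
        rw [mul_inv_rev, mul_smul, hU]) g
  have key2 : ∀ x : SL(2, ℤ) ⧸ Γ, φ x =
      φ ((1 : SL(2, ℤ))⁻¹ • ((1 : SL(2, ℤ)) : SL(2, ℤ) ⧸ Γ)) := by
    intro x
    induction x using QuotientGroup.induction_on with
    | H g =>
      have h := key g⁻¹
      rw [inv_inv, MulAction.Quotient.smul_coe, smul_eq_mul, mul_one] at h
      exact h
  rw [key2 x, key2 y]

/-- **(A')** surjectivity of the reduction mod `3`. -/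
theorem exists_lift_mod_three {Γ : Subgroup SL(2, ℤ)} [Γ.FiniteIndex]
    (hneg : (-1 : SL(2, ℤ)) ∈ Γ) (hfree : ∀ c : SL(2, ℤ) ⧸ Γ, U⁻¹ • c ≠ c)
    {x : Pairs (ZMod 3)} (hx : x ∈ MS Γ (ZMod 3)) :
    ∃ y ∈ MS Γ ℤ, mapCoeff (Int.castRingHom (ZMod 3)) y = x := by
  have hfin : Finite (SL(2, ℤ) ⧸ Γ) := finite_quotient_of_index
  have : Fintype (SL(2, ℤ) ⧸ Γ) := Fintype.ofFinite _
  have hM := isManin_manin hx
  obtain ⟨M, hMS, hMU, hMm⟩ := exists_lift_perm (s := fun c : SL(2, ℤ) ⧸ Γ => S⁻¹ • c)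
    (u := fun c : SL(2, ℤ) ⧸ Γ => U⁻¹ • c) (S_inv_smul_two hneg) (U_inv_smul_three hneg) hfree
    (fun A φ h1 h2 => const_of_S_U_coset φ h1 h2) (manin Γ x) hM.rS hM.rU
  obtain ⟨y, hy, hyM⟩ := exists_of_isManin (F := M)
    ⟨fun c => by rw [neg_one_smul_coset hneg], hMS, hMU⟩
  refine ⟨y, hy, ?_⟩
  have h1 : (⟨mapCoeff (Int.castRingHom (ZMod 3)) y, mapCoeff_mem _ hy⟩ : MS Γ (ZMod 3)) =
      ⟨x, hx⟩ := by
    apply maninL_injective
    funext c
    rw [maninL_apply, maninL_apply]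
    show manin Γ (mapCoeff (Int.castRingHom (ZMod 3)) y) c = manin Γ x c
    rw [← hMm c, ← hyM]
    rfl
  exact congrArg Subtype.val h1

theorem U_inv_smul_ne {N r : ℕ} (hr : r.Prime) (hr3 : r % 3 = 2) (hrN : r ∣ N)
    (c : SL(2, ℤ) ⧸ Gamma0 N) : U⁻¹ • c ≠ c := by
  induction c using QuotientGroup.induction_on with
  | H g =>
    intro h
    have : Fact r.Prime := ⟨hr⟩
    rw [MulAction.Quotient.smul_coe, smul_eq_mul, QuotientGroup.eq] at h
    -- `h : (U⁻¹ g)⁻¹ g ∈ Γ₀(N)`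
    set k : SL(2, ℤ) := (U⁻¹ * g)⁻¹ * g with hk
    have htr : k 0 0 + k 1 1 = 1 := by
      have h1 : k = g⁻¹ * U * g := by rw [hk]; group
      have h2 : (k : Matrix (Fin 2) (Fin 2) ℤ).trace = 1 := by
        rw [h1, Matrix.SpecialLinearGroup.coe_mul, Matrix.SpecialLinearGroup.coe_mul,
          Matrix.trace_mul_comm, ← mul_assoc, ← Matrix.SpecialLinearGroup.coe_mul,
          mul_inv_cancel, Matrix.SpecialLinearGroup.coe_one, one_mul, coe_U,
          Matrix.trace_fin_two_of]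
        norm_num
      rwa [Matrix.trace_fin_two] at h2
    have hdet := det_eq' k
    rw [mem_Gamma0_iff] at h
    have hr0 : ((k 1 0 : ℤ) : ZMod r) = 0 := by
      rw [ZMod.intCast_zmod_eq_zero_iff_dvd]
      exact dvd_trans (by exact_mod_cast hrN) h
    have e1 : ((k 0 0 : ℤ) : ZMod r) + ((k 1 1 : ℤ) : ZMod r) = 1 := by
      have := congrArg (Int.cast : ℤ → ZMod r) htr
      push_cast at this
      exact this
    have e2 : ((k 0 0 : ℤ) : ZMod r) * ((k 1 1 : ℤ) : ZMod r) = 1 := by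
      have := congrArg (Int.cast : ℤ → ZMod r) hdet
      push_cast at this
      rw [hr0, mul_zero, sub_zero] at this
      exact this
    set a : ZMod r := ((k 0 0 : ℤ) : ZMod r) with ha
    have e3 : a ^ 2 - a + 1 = 0 := by linear_combination a * e1 - e2
    have e4 : (-a) ^ 3 = 1 := by linear_combination (-(a + 1)) * e3
    have ha0 : -a ≠ 0 := by
      intro h0
      rw [h0] at e4
      norm_num at e4
    have e5 : (-a) ^ (r - 1) = 1 := ZMod.pow_card_sub_one_eq_one ha0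
    have hord : orderOf (-a) ∣ 1 := by
      have h1 : orderOf (-a) ∣ 3 := orderOf_dvd_of_pow_eq_one e4
      have h2 : orderOf (-a) ∣ r - 1 := orderOf_dvd_of_pow_eq_one e5
      have h3 : Nat.Coprime 3 (r - 1) := by
        rw [Nat.Prime.coprime_iff_not_dvd Nat.prime_three]
        omega
      rw [← h3]
      exact Nat.dvd_gcd h1 h2
    have e6 : -a = 1 := by
      have := Nat.dvd_one.mp hord
      rwa [orderOf_eq_one_iff] at this
    have e7 : (3 : ZMod r) = 0 := by
      have : a = -1 := by rw [← e6, neg_neg]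
      rw [this] at e3
      linear_combination e3
    have e8 : ((3 : ℕ) : ZMod r) = 0 := by exact_mod_cast e7
    rw [ZMod.natCast_eq_zero_iff] at e8
    rw [Nat.prime_dvd_prime_iff_eq hr Nat.prime_three] at e8
    omega

end Fermat.Agent.L9
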