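import Fermat.Agent.L9.AshStevens
import Fermat.Agent.L9.Lift
import Fermat.Agent.LR.Assembly

/-!
# Lowering the level at `3` of a mod `3` eigenform up to twist by `ω` (L9, parts A and A')
-/

set_option autoImplicit false
set_option linter.unusedSectionVars false

noncomputable section

open CongruenceSubgroup TensorProduct
open scoped MatrixGroups OnePoint

namespace Fermat.Agent.L9

open Fermat.Agent.LR Fermat.Agent.LR.PS Fermat.Agent.LR.EigenLift Fermat.Agent.LR.Asm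
  Fermat.Agent.LR.Core

/-- From an eigenform to a modular symbol which is a mod `p` eigenvector. -/
theorem exists_mod_p_symbol {p N : ℕ} (hp : p.Prime) (hN : 0 < N)
    (f : CuspForm (Gamma0 N) 2) (𝔪 : Ideal (integralClosure ℤ ℂ))
    (hf : f.IsNormalizedEigenform) (hmax : 𝔪.IsMaximal) (hpm : (p : integralClosure ℤ ℂ) ∈ 𝔪)
    (a : ℕ → ℤ) (I : Set ℕ) (hI : ∀ ℓ ∈ I, ℓ.Prime ∧ ¬ ℓ ∣ N)
    (hcong : ∀ ℓ ∈ I, ∃ b : integralClosure ℤ ℂ, (b : ℂ) = ModularFormClass.qCoeff f ℓ ∧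
      b - ((a ℓ : ℤ) : integralClosure ℤ ℂ) ∈ 𝔪) :
    ∃ v ∈ MS (Gamma0 N) ℤ, (¬ ∃ w ∈ MS (Gamma0 N) ℤ, v = (p : ℤ) • w) ∧
      ∀ ℓ ∈ I, ∃ w ∈ MS (Gamma0 N) ℤ, heckeT ℓ v - a ℓ • v = (p : ℤ) • w := by
  have hN0 : NeZero N := ⟨hN.ne'⟩
  have hfi : (Gamma0 N).FiniteIndex := (Gamma0_is_congruence N).finiteIndex
  set H := MS (Gamma0 N) ℤ with hHdef
  have hH : ∀ ℓ : PrimeIdx, ∀ x ∈ H, hop ℤ N ℓ.1 x ∈ H := fun ℓ x hx => hop_mem ℓ.2 hx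
  set t := opFam N H hH with ht
  have hcomm := opFam_commute hH le_rfl
  obtain ⟨u, hu⟩ := exists_toPairs_eq (perSym_mem f)
  have hu0 : u ≠ 0 := by
    intro h
    rw [h, map_zero] at hu
    have h1 := perSym_injective (N := N) (hu.symm.trans (map_zero (perSym N)).symm)
    exact hf.ne_zero h1
  let lam : PrimeIdx → integralClosure ℤ ℂ := fun ℓ =>
    ⟨ModularFormClass.qCoeff f ℓ.1, EigenCharacter.isIntegral_qCoeff hf ℓ.2⟩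
  have heig : ∀ ℓ : PrimeIdx, (t ℓ).baseChange ℂ u = (lam ℓ : ℂ) • u := by
    intro ℓ
    apply toPairs_injective (Γ := Gamma0 N) (le_refl (MS (Gamma0 N) ℤ))
    rw [ht, toPairs_opFam, map_smul, hu, hop_complex, symOp_perSym_eigenform hf ℓ.2]
  obtain ⟨v, hv, key⟩ := exists_mod_p_vector t hcomm hp hu0 (fun i => ⟨_, heig i⟩) 𝔪 hmax hpm
  refine ⟨v.1, v.2, ?_, fun ℓ hℓ => ?_⟩
  · rintro ⟨w, hw, hvw⟩
    exact hv ⟨⟨w, hw⟩, Subtype.ext hvw⟩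
  · obtain ⟨b, hb, hb'⟩ := hcong ℓ hℓ
    set i : PrimeIdx := ⟨ℓ, (hI ℓ hℓ).1⟩ with hi
    have hlam : lam i = b := Subtype.ext hb.symm
    obtain ⟨w, hw⟩ := key (t i - algebraMap ℤ (Module.End ℤ H) (a ℓ))
      (sub_mem (Algebra.subset_adjoin (Set.mem_range_self i)) (Subalgebra.algebraMap_mem _ _))
      (lam i - ((a ℓ : ℤ) : integralClosure ℤ ℂ)) (by
        have h2 : (algebraMap ℤ (Module.End ℤ H) (a ℓ)).baseChange ℂ =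
            algebraMap ℤ (Module.End ℂ (ℂ ⊗[ℤ] H)) (a ℓ) :=
          (Module.End.baseChangeHom ℤ ℂ H).commutes (a ℓ)
        rw [LinearMap.baseChange_sub, LinearMap.sub_apply, h2, heig, eq_intCast,
          Module.End.intCast_apply]
        change _ = ((lam i : ℂ) - (((a ℓ : ℤ) : integralClosure ℤ ℂ) : ℂ)) • u
        push_cast
        rw [sub_smul, Int.cast_smul_eq_zsmul]) (by rw [hlam]; exact hb')
    refine ⟨w.1, w.2, ?_⟩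
    have h2 := congrArg Subtype.val hw
    have h3 : (((t i - algebraMap ℤ (Module.End ℤ H) (a ℓ)) v : H) : Pairs ℤ) =
      hop ℤ N ℓ v.1 - a ℓ • v.1 := by
      rw [eq_intCast, LinearMap.sub_apply, Module.End.intCast_apply]
      rfl
    rw [hop_of_not_dvd (hI ℓ hℓ).2] at h3
    rw [← h3]
    exact h2

/-- From a mod `p` eigenvector to an eigenform. -/
theorem exists_eigenform_of_mod_p_symbol {p M : ℕ} (hp : p.Prime) (hM : 0 < M)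
    (hES : LinearMap.range (ModularCurve.periodHomPair M) =
      ModularCurve.Period.parabolicHoms ℂ (Gamma0 M) ℂ)
    (b : ℕ → ℤ) (L : Set ℕ) (hL : ∀ ℓ ∈ L, ℓ.Prime ∧ ¬ ℓ ∣ M)
    (hneis : ∀ D : ℕ, 0 < D → ∃ ℓ ∈ L, ℓ ≡ 1 [MOD D] ∧ ¬ (p : ℤ) ∣ b ℓ - 2)
    {y : Pairs ℤ} (hy : y ∈ MS (Gamma0 M) ℤ) (hynot : ¬ ∃ w ∈ MS (Gamma0 M) ℤ, y = (p : ℤ) • w)
    (hyL : ∀ ℓ ∈ L, ∃ w ∈ MS (Gamma0 M) ℤ, heckeT ℓ y - b ℓ • y = (p : ℤ) • w) :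
    ∃ (g : CuspForm (Gamma0 M) 2) (𝔪' : Ideal (integralClosure ℤ ℂ)),
      g.IsNormalizedEigenform ∧ 𝔪'.IsMaximal ∧ (p : integralClosure ℤ ℂ) ∈ 𝔪' ∧
      ∀ ℓ ∈ L, ∃ c : integralClosure ℤ ℂ, (c : ℂ) = ModularFormClass.qCoeff g ℓ ∧
          c - ((b ℓ : ℤ) : integralClosure ℤ ℂ) ∈ 𝔪' := by
  have hM0 : NeZero M := ⟨hM.ne'⟩
  have hfi' : (Gamma0 M).FiniteIndex := (Gamma0_is_congruence M).finiteIndex
  set H' := MS (Gamma0 M) ℤ with hH'def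
  have hH' : ∀ ℓ : PrimeIdx, ∀ x ∈ H', hop ℤ M ℓ.1 x ∈ H' := fun ℓ x hx => hop_mem ℓ.2 hx
  set t' := opFam M H' hH' with ht'
  have hcomm' := opFam_commute hH' le_rfl
  obtain ⟨mu, 𝔪', u', h𝔪', hp𝔪', hu'0, hu', hmu⟩ := exists_char_zero_eigenvector t' hcomm'
    (p := p) {ℓ : PrimeIdx | ℓ.1 ∈ L} (fun ℓ => b ℓ.1) ⟨y, hy⟩
    (by
      rintro ⟨w, hw⟩
      exact hynot ⟨w.1, w.2, congrArg Subtype.val hw⟩)
    (by
      intro ℓ hℓ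
      obtain ⟨w, hw, hyw⟩ := hyL ℓ.1 hℓ
      refine ⟨⟨w, hw⟩, Subtype.ext ?_⟩
      have h3 : ((t' ℓ ⟨y, hy⟩ - b ℓ.1 • (⟨y, hy⟩ : H') : H') : Pairs ℤ) =
        hop ℤ M ℓ.1 y - b ℓ.1 • y := rfl
      rw [h3, hop_of_not_dvd (hL ℓ.1 hℓ).2, hyw]
      rfl)
  set x := toPairs H' u' with hx
  have hx0 : x ≠ 0 := by
    intro h
    apply hu'0
    apply toPairs_injective (Γ := Gamma0 M) (le_refl H')
    rw [← hx, h, map_zero]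
  have hxmem : x ∈ MS (Gamma0 M) ℂ :=
    toPairs_mem (MS (Gamma0 M) ℂ) (fun y hy => mapCoeff_mem _ hy) u'
  have hxeig : ∀ ℓ : PrimeIdx, hop ℂ M ℓ.1 x = (mu ℓ : ℂ) • x := by
    intro ℓ
    rw [hx, ← toPairs_opFam hH' ℓ u', ← ht', hu' ℓ, map_smul]
  have hnb : ¬ IsBoundary (Gamma0 M) x := by
    obtain ⟨ℓ₀, hℓ₀L, hℓ₀D, hℓ₀a⟩ := hneis (M * p) (Nat.mul_pos hM hp.pos)
    obtain ⟨hℓ₀, hℓ₀M⟩ := hL ℓ₀ hℓ₀L
    have h1 : (ℓ₀ : ZMod M) = 1 := by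
      have h3 := (ZMod.natCast_eq_natCast_iff _ _ _).mpr (hℓ₀D.of_mul_right p)
      rw [h3, Nat.cast_one]
    have h1p : (ℓ₀ : ZMod p) = 1 := by
      have h3 := (ZMod.natCast_eq_natCast_iff _ _ _).mpr (hℓ₀D.of_mul_left M)
      rw [h3, Nat.cast_one]
    have h4 := hxeig ⟨ℓ₀, hℓ₀⟩
    rw [hop_of_not_dvd hℓ₀M] at h4
    refine not_isBoundary_of_eigenvalue hℓ₀ h1 hx0 h4 ?_
    intro h5
    apply hℓ₀a
    have h6 := hmu ⟨ℓ₀, hℓ₀⟩ hℓ₀L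
    have h7 : mu ⟨ℓ₀, hℓ₀⟩ = ((ℓ₀ + 1 : ℤ) : integralClosure ℤ ℂ) := by
      apply Subtype.ext
      rw [h5]
      push_cast
      rfl
    rw [h7, ← Int.cast_sub] at h6
    have h8 : (p : ℤ) ∣ ((ℓ₀ : ℤ) + 1 - b ℓ₀) := by
      by_contra hnd
      have hcop : IsCoprime (p : ℤ) ((ℓ₀ : ℤ) + 1 - b ℓ₀) :=
        (Nat.prime_iff_prime_int.mp hp).irreducible.coprime_iff_not_dvd.mpr hnd
      obtain ⟨r, s, hrs⟩ := hcop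
      apply h𝔪'.ne_top
      rw [Ideal.eq_top_iff_one]
      have h9 : (1 : integralClosure ℤ ℂ) = (r : integralClosure ℤ ℂ) * (p : integralClosure ℤ ℂ) +
          (s : integralClosure ℤ ℂ) * (((ℓ₀ : ℤ) + 1 - b ℓ₀ : ℤ) : integralClosure ℤ ℂ) := by
        have := congrArg (Int.cast : ℤ → integralClosure ℤ ℂ) hrs
        push_cast at this ⊢
        exact this.symm
      rw [h9]
      exact 𝔪'.add_mem (𝔪'.mul_mem_left _ hp𝔪') (𝔪'.mul_mem_left _ h6)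
    have h9 : (p : ℤ) ∣ (ℓ₀ : ℤ) - 1 := by
      rw [← ZMod.intCast_zmod_eq_zero_iff_dvd]
      push_cast
      rw [h1p, sub_self]
    have h10 : b ℓ₀ - 2 = ((ℓ₀ : ℤ) - 1) - ((ℓ₀ : ℤ) + 1 - b ℓ₀) := by ring
    rw [h10]
    exact dvd_sub h9 h8
  let lam' : ℕ → ℂ := fun ℓ => open Classical in if h : ℓ.Prime then (mu ⟨ℓ, h⟩ : ℂ) else 0
  have hlam' : ∀ ℓ (h : ℓ.Prime), lam' ℓ = (mu ⟨ℓ, h⟩ : ℂ) := fun ℓ h => dif_pos h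
  obtain ⟨g, hg, hgℓ⟩ := exists_eigenform_of_eigensymbol hES hxmem hnb lam'
    (fun ℓ hℓ hℓN => by
      rw [hlam' ℓ hℓ, ← hxeig ⟨ℓ, hℓ⟩, hop_of_not_dvd hℓN])
    (fun ℓ hℓ hℓN => by
      rw [hlam' ℓ hℓ, ← hxeig ⟨ℓ, hℓ⟩, hop_of_dvd hℓN])
  exact ⟨g, 𝔪', hg, h𝔪', hp𝔪', fun ℓ hℓ => ⟨mu ⟨ℓ, (hL ℓ hℓ).1⟩, by
    rw [hgℓ ℓ (hL ℓ hℓ).1, hlam' ℓ (hL ℓ hℓ).1], hmu ⟨ℓ, (hL ℓ hℓ).1⟩ hℓ⟩⟩

theorem three_eq_zero_zmod : (3 : ZMod 3) = 0 := by decide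

/-- **(A) + (A')** on mod `3` symbols: from level `3 ^ (k + 1) * m` to level `3 * m'`
(where `m'` has a prime factor `≡ 2 (mod 3)`), up to twist by `ω`. -/
theorem exists_descend_int {m m' r : ℕ} (hm' : 0 < m') (hmm' : m ∣ m')
    (hr : r.Prime) (hr3 : r % 3 = 2) (hrm : r ∣ m') (k : ℕ)
    (L : Set ℕ) (hL : ∀ ℓ ∈ L, ℓ.Prime ∧ ¬ ℓ ∣ 3 * m') (a : ℕ → ℤ)
    {v : Pairs ℤ} (hv : v ∈ MS (Gamma0 (3 ^ (k + 1) * m)) ℤ)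
    (hvnot : ¬ ∃ w ∈ MS (Gamma0 (3 ^ (k + 1) * m)) ℤ, v = ((3 : ℕ) : ℤ) • w)
    (hvL : ∀ ℓ ∈ L, ∃ w ∈ MS (Gamma0 (3 ^ (k + 1) * m)) ℤ,
      heckeT ℓ v - a ℓ • v = ((3 : ℕ) : ℤ) • w) :
    ∃ i : ℕ, i ≤ 1 ∧ ∃ y ∈ MS (Gamma0 (3 * m')) ℤ,
      (¬ ∃ w ∈ MS (Gamma0 (3 * m')) ℤ, y = ((3 : ℕ) : ℤ) • w) ∧
      ∀ ℓ ∈ L, ∃ w ∈ MS (Gamma0 (3 * m')) ℤ,
        heckeT ℓ y - ((ℓ : ℤ) ^ i * a ℓ) • y = ((3 : ℕ) : ℤ) • w := by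
  have h3F : Fact (Nat.Prime 3) := ⟨Nat.prime_three⟩
  set φ := Int.castRingHom (ZMod 3) with hφ
  have hR : (3 : ZMod 3) = 0 := three_eq_zero_zmod
  have hx0 : mapCoeff φ v ≠ 0 := fun h => hvnot (exists_div_of_mapCoeff hv h)
  have hxm : mapCoeff φ v ∈ MS (Gamma0 (3 ^ (k + 1) * m')) (ZMod 3) :=
    MS_mono (Gamma0_mono (Nat.mul_dvd_mul_left _ hmm')) (mapCoeff_mem φ hv)
  have hzero : ∀ w : Pairs ℤ, mapCoeff φ (((3 : ℕ) : ℤ) • w) = 0 := fun w => by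
    funext c d
    simp only [mapCoeff_apply, Pi.smul_apply, smul_eq_mul, map_mul, Pi.zero_apply]
    rw [map_natCast]
    rw [show ((3 : ℕ) : ZMod 3) = 0 from hR, zero_mul]
  have hsm : ∀ (c : ℤ) (w : Pairs ℤ), mapCoeff φ (c • w) = (c : ZMod 3) • mapCoeff φ w :=
    fun c w => by
      funext d e
      simp only [mapCoeff_apply, Pi.smul_apply, smul_eq_mul, map_mul]
      rfl
  obtain ⟨i, hi, y, hy, hy0, hyT⟩ := exists_descend (R := ZMod 3) hm' hR k hxm hx0 L hL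
    (fun ℓ => ((a ℓ : ℤ) : ZMod 3)) (fun ℓ hℓ => by
      obtain ⟨w, -, hw⟩ := hvL ℓ hℓ
      have h1 := congrArg (mapCoeff φ) hw
      rw [hzero, map_sub, mapCoeff_heckeT, hsm] at h1
      exact sub_eq_zero.mp h1)
  have hfi : (Gamma0 (3 * m')).FiniteIndex := by
    have : NeZero (3 * m') := ⟨by positivity⟩
    exact (Gamma0_is_congruence (3 * m')).finiteIndex
  obtain ⟨z, hz, hzy⟩ := exists_lift_mod_three (Γ := Gamma0 (3 * m')) (neg_one_mem _)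
    (U_inv_smul_ne hr hr3 (dvd_mul_of_dvd_right hrm 3)) hy
  refine ⟨i, hi, z, hz, ?_, fun ℓ hℓ => ?_⟩
  · rintro ⟨w, -, hw⟩
    apply hy0
    rw [← hzy, hw, hzero]
  · refine exists_div_of_mapCoeff (sub_mem (heckeT_mem_MS (hL ℓ hℓ).1 (hL ℓ hℓ).2 hz)
      ((MS (Gamma0 (3 * m')) ℤ).smul_mem _ hz)) ?_
    rw [map_sub, mapCoeff_heckeT, hsm, ← hφ, hzy, hyT ℓ hℓ]
    push_cast
    rw [sub_self]

/-- A large auxiliary prime `r ≡ 2 (mod 3)`. -/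
theorem exists_aux_prime (n : ℕ) : ∃ r : ℕ, n < r ∧ r.Prime ∧ r % 3 = 2 := by
  obtain ⟨r, hr, hrp, hr3⟩ := Nat.forall_exists_prime_gt_and_modEq n (q := 3) (a := 2)
    (by norm_num) (by norm_num)
  exact ⟨r, hr, hrp, hr3⟩

open WeierstrassCurve WeierstrassCurve.Affine WeierstrassCurve.Affine.Point in
/-- **(A) + (A')**: if `W[3]` is irreducible and `W` is residually modular of level `3^(k+1) m`
(`3 ∤ m`) then for every large prime `r ≡ 2 (mod 3)` there is an eigenform of level `3 (m r)`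
whose eigenvalues are congruent to `a_ℓ(W)` or to `ℓ a_ℓ(W)`. -/
theorem exists_eigenform_twist (hES : ∀ (M : ℕ) [NeZero M],
      LinearMap.range (ModularCurve.periodHomPair M) =
        ModularCurve.Period.parabolicHoms ℂ (Gamma0 M) ℂ)
    {W : WeierstrassCurve ℤ} (hΔ : W.Δ ≠ 0) (hirr : W.ModRepIsIrreducible 3) {m k : ℕ}
    (hm : 0 < m) (hmod : W.IsResiduallyModularOfLevel 3 (3 ^ (k + 1) * m))
    {r : ℕ} (hr : r.Prime) (hr3 : r % 3 = 2) :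
    ∃ i : ℕ, i ≤ 1 ∧ ∃ (g : CuspForm (Gamma0 (3 * (m * r))) 2)
      (𝔪' : Ideal (integralClosure ℤ ℂ)),
      g.IsNormalizedEigenform ∧ 𝔪'.IsMaximal ∧ ((3 : ℕ) : integralClosure ℤ ℂ) ∈ 𝔪' ∧
      ∀ ℓ : ℕ, ℓ.Prime → W.IsGoodPrimeFor ℓ → ¬ ℓ ∣ 3 * (m * r) →
        ∃ c : integralClosure ℤ ℂ, (c : ℂ) = ModularFormClass.qCoeff g ℓ ∧
          c - (((ℓ : ℤ) ^ i * W.apOfModel ℓ : ℤ) : integralClosure ℤ ℂ) ∈ 𝔪' := by
  obtain ⟨f, 𝔪, hf, hmax, h3m, hcong⟩ := hmod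
  set L : Set ℕ := {ℓ | ℓ.Prime ∧ W.IsGoodPrimeFor ℓ ∧ ¬ ℓ ∣ 3 * (m * r)} with hLdef
  have hL3 : ∀ ℓ ∈ L, ¬ ℓ ∣ 3 ^ (k + 1) * m ∧ ℓ ≠ 3 := by
    rintro ℓ ⟨hℓ, -, hn⟩
    refine ⟨fun hd => hn ?_, ?_⟩
    · rcases (hℓ.dvd_mul).mp hd with hd | hd
      · exact dvd_mul_of_dvd_left (hℓ.dvd_of_dvd_pow hd) _
      · exact dvd_mul_of_dvd_right (dvd_mul_of_dvd_left hd r) 3
    · rintro rfl
      exact hn (dvd_mul_right 3 _)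
  obtain ⟨v, hv, hvnot, hvL⟩ := exists_mod_p_symbol Nat.prime_three (N := 3 ^ (k + 1) * m)
    (by positivity) f 𝔪 hf hmax h3m W.apOfModel L (fun ℓ hℓ => ⟨hℓ.1, (hL3 ℓ hℓ).1⟩)
    (fun ℓ hℓ => hcong ℓ hℓ.1 hℓ.2.1 (hL3 ℓ hℓ).1 (hL3 ℓ hℓ).2)
  have hmr : 0 < m * r := Nat.mul_pos hm hr.pos
  obtain ⟨i, hi, y, hy, hynot, hyL⟩ := exists_descend_int hmr (dvd_mul_right m r) hr hr3
    (dvd_mul_left r m) k L (fun ℓ hℓ => ⟨hℓ.1, hℓ.2.2⟩) W.apOfModel hv hvnot hvL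
  have : NeZero (3 * (m * r)) := ⟨by positivity⟩
  obtain ⟨g, 𝔪', hg, h𝔪', h3𝔪', hcong'⟩ := exists_eigenform_of_mod_p_symbol Nat.prime_three
    (M := 3 * (m * r)) (by positivity) (hES _) (fun ℓ => (ℓ : ℤ) ^ i * W.apOfModel ℓ) L
    (fun ℓ hℓ => ⟨hℓ.1, hℓ.2.2⟩) (by
      intro D hD
      obtain ⟨ℓ, hℓ, hℓS, hℓD, hgood, -, ha⟩ := GaloisInput.exists_prime_of_modRepIsIrreducible
        hΔ Nat.prime_three (by norm_num) (GaloisInput.frobTraceInput W Nat.prime_three) hirr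
        Nat.prime_two (D * 3) (by positivity) (3 * (m * r)).primeFactors
      refine ⟨ℓ, ⟨hℓ, hgood, fun h => hℓS (Nat.mem_primeFactors.mpr ⟨hℓ, h, this.out⟩)⟩,
        hℓD.of_mul_right 3, fun h => ha ?_⟩
      have h1 : ((3 : ℕ) : ℤ) ∣ (ℓ : ℤ) - 1 := by
        have h2 := (hℓD.of_mul_left D)
        rw [← ZMod.intCast_zmod_eq_zero_iff_dvd]
        have h3 := (ZMod.natCast_eq_natCast_iff _ _ _).mpr h2
        push_cast at h3 ⊢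
        rw [h3, sub_self]
      have h2 : ((3 : ℕ) : ℤ) ∣ (ℓ : ℤ) ^ i - 1 := by
        have := sub_dvd_pow_sub_pow (ℓ : ℤ) 1 i
        rw [one_pow] at this
        exact dvd_trans h1 this
      have h3 : W.apOfModel ℓ - 2 = ((ℓ : ℤ) ^ i * W.apOfModel ℓ - 2) -
        ((ℓ : ℤ) ^ i - 1) * W.apOfModel ℓ := by ring
      rw [h3]
      exact dvd_sub h (dvd_mul_of_dvd_left h2 _)) hy hynot hyL
  exact ⟨i, hi, g, 𝔪', hg, h𝔪', h3𝔪', fun ℓ hℓ hgood hn => hcong' ℓ ⟨hℓ, hgood, hn⟩⟩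

end Fermat.Agent.L9
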