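import Fermat.Agent.L9.MainOf
import Fermat.Agent.FlatOrd.S33Final

/-!
# Level lowering at `3` for mod `3` forms (L9), unconditionally
-/

set_option autoImplicit false

namespace Fermat.Agent.L9

theorem newOrd_three : Contra.NewOrd 3 :=
  fun N _ S hNS 𝒪 _ _ _ _ _ _ hp π ρ hcp hirr M _ hNM hpM hMS t ht hπt =>
    FlatOrd.S33.newOrd Nat.prime_three (by norm_num) N S hNS 𝒪 hp π ρ hcp hirr M hNM hpM hMS t ht hπt

/-- **L9**. -/
theorem l9 : S60Wiring.L9Stmt := l9_of_newOrd newOrd_three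

end Fermat.Agent.L9
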