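import Fermat.Agent.LR.HeckeInv
import Fermat.Agent.LR.Level

/-!
# Lowering the power of `3` in the level of a mod `3` modular symbol (L9, part A)

`Γ₀(3 N₁)` is normal in `Γ₀(N₁)` (`3 ∣ N₁`), with cyclic quotient of order `3` generated by
`L = !![1, 0; N₁, 1]`.
-/

set_option autoImplicit false

open CongruenceSubgroup
open scoped MatrixGroups OnePoint

namespace Fermat.Agent.L9

open Fermat.Agent.LR

variable {R : Type*} [CommRing R]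

/-- `!![1, 0; c, 1]` -/
def lowT (c : ℤ) : SL(2, ℤ) := mkSL 1 0 c 1 (by ring)

theorem lowT_00 (c : ℤ) : lowT c 0 0 = 1 := by simp [lowT]
theorem lowT_01 (c : ℤ) : lowT c 0 1 = 0 := by simp [lowT]
theorem lowT_10 (c : ℤ) : lowT c 1 0 = c := by simp [lowT]
theorem lowT_11 (c : ℤ) : lowT c 1 1 = 1 := by simp [lowT]

theorem sl_ext {g h : SL(2, ℤ)} (h00 : g 0 0 = h 0 0) (h01 : g 0 1 = h 0 1)
    (h10 : g 1 0 = h 1 0) (h11 : g 1 1 = h 1 1) : g = h := by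
  ext i j
  fin_cases i <;> fin_cases j <;> assumption

theorem mul_00 (g h : SL(2, ℤ)) : (g * h) 0 0 = g 0 0 * h 0 0 + g 0 1 * h 1 0 := by
  rw [Matrix.SpecialLinearGroup.coe_mul, Matrix.mul_apply, Fin.sum_univ_two]

theorem mul_01 (g h : SL(2, ℤ)) : (g * h) 0 1 = g 0 0 * h 0 1 + g 0 1 * h 1 1 := by
  rw [Matrix.SpecialLinearGroup.coe_mul, Matrix.mul_apply, Fin.sum_univ_two]

theorem mul_10 (g h : SL(2, ℤ)) : (g * h) 1 0 = g 1 0 * h 0 0 + g 1 1 * h 1 0 := by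
  rw [Matrix.SpecialLinearGroup.coe_mul, Matrix.mul_apply, Fin.sum_univ_two]

theorem mul_11 (g h : SL(2, ℤ)) : (g * h) 1 1 = g 1 0 * h 0 1 + g 1 1 * h 1 1 := by
  rw [Matrix.SpecialLinearGroup.coe_mul, Matrix.mul_apply, Fin.sum_univ_two]

theorem lowT_add (c d : ℤ) : lowT (c + d) = lowT c * lowT d := by
  apply sl_ext
  · rw [mul_00]; simp [lowT]
  · rw [mul_01]; simp [lowT]
  · rw [mul_10]; simp [lowT]
  · rw [mul_11]; simp [lowT]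

theorem lowT_zero : lowT 0 = 1 := by
  apply sl_ext <;> simp [lowT]

theorem lowT_neg_mul (c : ℤ) : lowT (-c) * lowT c = 1 := by
  rw [← lowT_add, neg_add_cancel, lowT_zero]

theorem lowT_mul_neg (c : ℤ) : lowT c * lowT (-c) = 1 := by
  rw [← lowT_add, add_neg_cancel, lowT_zero]

theorem lowT_mem {N : ℕ} {c : ℤ} (h : (N : ℤ) ∣ c) : lowT c ∈ Gamma0 N := by
  rw [mem_Gamma0_iff, lowT_10]; exact h

theorem toQ_one' : toQ (1 : SL(2, ℤ)) = 1 := map_one _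

theorem toQ_inv' (g : SL(2, ℤ)) : toQ g⁻¹ = (toQ g)⁻¹ := map_inv _ _

/-- the slash action of `!![1, 0; c, 1]` -/
noncomputable def lowS (c : ℤ) : Pairs R →ₗ[R] Pairs R := slash (toQ (lowT c))

theorem lowS_apply (c : ℤ) (x : Pairs R) : lowS c x = slash (toQ (lowT c)) x := rfl

theorem lowS_lowS (c d : ℤ) (x : Pairs R) : lowS d (lowS c x) = lowS (c + d) x := by
  rw [lowS_apply, lowS_apply, lowS_apply, ← slash_mul, ← toQ_mul, ← lowT_add]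

theorem three_dvd_sub {a b c d : ℤ} (h : a * d - b * c = 1) (hc : (3 : ℤ) ∣ c) : (3 : ℤ) ∣ a - d := by
  obtain ⟨k, rfl⟩ := hc
  have h1 : a * d % 3 = 1 := by
    have : a * d = 3 * (b * k) + 1 := by linear_combination h
    omega
  have ha : a % 3 = 0 ∨ a % 3 = 1 ∨ a % 3 = 2 := by omega
  have hd : d % 3 = 0 ∨ d % 3 = 1 ∨ d % 3 = 2 := by omega
  rw [Int.mul_emod] at h1
  rcases ha with ha | ha | ha <;> rcases hd with hd | hd | hd <;> rw [ha, hd] at h1 <;>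
    norm_num at h1 <;> omega

theorem conj_mem {N₁ : ℕ} (h3 : 3 ∣ N₁) {γ : SL(2, ℤ)} (hγ : γ ∈ Gamma0 (3 * N₁)) :
    lowT N₁ * γ * lowT (-N₁) ∈ Gamma0 (3 * N₁) := by
  rw [mem_Gamma0_iff] at hγ ⊢
  have hdet := det_eq' γ
  obtain ⟨k, hk⟩ := hγ
  obtain ⟨n, hn⟩ := h3
  have h3' : (3 : ℤ) ∣ γ 0 0 - γ 1 1 := by
    refine three_dvd_sub hdet ?_
    rw [hk, hn]; push_cast
    exact ⟨3 * n * k, by ring⟩
  obtain ⟨e, he⟩ := h3'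
  rw [mul_10, mul_10, mul_11, lowT_00, lowT_10, lowT_10, lowT_11, hk]
  refine ⟨e + k - n * γ 0 1, ?_⟩
  have hn' : (N₁ : ℤ) = 3 * n := by exact_mod_cast hn
  push_cast
  linear_combination (N₁ : ℤ) * he - (N₁ : ℤ) * (γ 0 1) * hn'

theorem lowS_mem {N₁ : ℕ} (h3 : 3 ∣ N₁) {x : Pairs R} (hx : x ∈ MS (Gamma0 (3 * N₁)) R) :
    lowS N₁ x ∈ MS (Gamma0 (3 * N₁)) R := by
  refine ⟨fun a b c => hx.1 _ _ _, fun γ hγ => ?_⟩
  rw [lowS_apply, ← slash_mul, ← toQ_mul]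
  have h1 : lowT (N₁ : ℤ) * γ = (lowT N₁ * γ * lowT (-N₁)) * lowT N₁ := by
    rw [mul_assoc, lowT_neg_mul, mul_one]
  rw [h1, toQ_mul, slash_mul, hx.2 _ (conj_mem h3 hγ)]

theorem sq_mod_three {a b c d : ℤ} (h : a * d - b * c = 1) (hc : (3 : ℤ) ∣ c) :
    (3 : ℤ) ∣ d * d - 1 := by
  obtain ⟨e, he⟩ := three_dvd_sub h hc
  obtain ⟨k, rfl⟩ := hc
  exact ⟨b * k - e * d, by linear_combination h + (-d) * he⟩

theorem lowS_int_of_fix {N₁ : ℕ} {x : Pairs R} (hx : lowS N₁ x = x) (t : ℤ) :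
    lowS (N₁ * t) x = x := by
  have h0 : lowS (-(N₁ : ℤ)) x = x := by
    conv_lhs => rw [← hx]
    rw [lowS_lowS, add_neg_cancel, lowS_apply, lowT_zero, toQ_one', slash_one]
  induction t using Int.induction_on with
  | zero => rw [mul_zero, lowS_apply, lowT_zero, toQ_one', slash_one]
  | succ n ih => rw [mul_add, mul_one, ← lowS_lowS, ih, hx]
  | pred n ih => rw [mul_sub, mul_one, sub_eq_add_neg, ← lowS_lowS, ih, h0]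

theorem mem_of_lowS_eq {N₁ : ℕ} (h3 : 3 ∣ N₁) {x : Pairs R} (hx : x ∈ MS (Gamma0 (3 * N₁)) R)
    (hfix : lowS N₁ x = x) : x ∈ MS (Gamma0 N₁) R := by
  refine ⟨hx.1, fun γ hγ => ?_⟩
  rw [mem_Gamma0_iff] at hγ
  have hdet := det_eq' γ
  obtain ⟨k, hk⟩ := hγ
  obtain ⟨n, hn⟩ := h3
  have hn' : (N₁ : ℤ) = 3 * n := by exact_mod_cast hn
  have hd : (3 : ℤ) ∣ γ 1 1 * γ 1 1 - 1 := by
    refine sq_mod_three hdet ?_
    rw [hk, hn']; exact ⟨n * k, by ring⟩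
  obtain ⟨e, he⟩ := hd
  set t : ℤ := k * γ 1 1 with ht
  have hmem : γ * lowT (-(N₁ * t)) ∈ Gamma0 (3 * N₁) := by
    rw [mem_Gamma0_iff, mul_10, lowT_00, lowT_10, hk]
    refine ⟨-(k * e), ?_⟩
    push_cast
    linear_combination (-(N₁ : ℤ) * k) * he
  have h1 : γ = (γ * lowT (-(N₁ * t))) * lowT (N₁ * t) := by
    rw [mul_assoc, lowT_neg_mul, mul_one]
  rw [h1, toQ_mul, slash_mul, hx.2 _ hmem]
  exact lowS_int_of_fix hfix t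

theorem lowS_three {N₁ : ℕ} {x : Pairs R} (hx : x ∈ MS (Gamma0 (3 * N₁)) R) :
    lowS (3 * N₁) x = x :=
  hx.2 _ (lowT_mem ⟨1, by push_cast; ring⟩)

/-! ### Commutation with the Hecke operators -/

open Fermat.Agent.LR.PS in
theorem repQ_eq_triMat {ℓ : ℕ} (_hℓ : ℓ ≠ 0) (i : OnePoint (ZMod ℓ)) :
    ∃ a b d : ℤ, a * d = ℓ ∧ repQ ℓ i = triMat a b d := by
  induction i using OnePoint.rec with
  | infty => exact ⟨ℓ, 0, 1, by ring, rfl⟩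
  | coe j => exact ⟨1, j.val, ℓ, by ring, rfl⟩

open Fermat.Agent.LR.PS in
theorem heckeT_eq_sum_repQ (ℓ : ℕ) [NeZero ℓ] (x : Pairs R) :
    heckeT ℓ x = ∑ i : OnePoint (ZMod ℓ), slash (repQ ℓ i) x := by
  rw [heckeT_apply, heckeU_apply, add_comm]
  have h1 := P2MW.S_ModularForm_heckeT_slash_eq_self_of_mem_Gamma0.ModularForm.HeckeSlashInvariance.sum_range_eq_sum_zmod
    (p := ℓ) (fun j => slash (heckeMat ℓ (j : ℤ)) x)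
  rw [h1]
  exact (Fintype.sum_option (fun i : OnePoint (ZMod ℓ) ↦ slash (repQ ℓ i) x)).symm

open Fermat.Agent.LR.PS in
/-- `T_ℓ(x|L) = (T_ℓ x)|L^t` with `t ≡ ℓ (mod 3)`. -/
theorem heckeT_lowS {N₁ ℓ : ℕ} (h3 : 3 ∣ N₁) (h0 : 0 < N₁) (hℓ : ℓ.Prime) (hℓN : ¬ ℓ ∣ N₁) {t : ℤ}
    (ht : (3 : ℤ) ∣ ℓ - t) {x : Pairs R} (hx : x ∈ MS (Gamma0 (3 * N₁)) R) :
    heckeT ℓ (lowS N₁ x) = lowS (N₁ * t) (heckeT ℓ x) := by
  have : Fact ℓ.Prime := ⟨hℓ⟩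
  have : NeZero ℓ := ⟨hℓ.ne_zero⟩
  set γ : SL(2, ℤ) := lowT (-(N₁ * t)) with hγ
  have hγm : γ ∈ Gamma0 N₁ := lowT_mem ⟨-t, by ring⟩
  rw [heckeT_eq_sum_repQ, heckeT_eq_sum_repQ, map_sum,
    ← Equiv.sum_comp (MulAction.toPerm (P2MW.S_ModularForm_heckeT_slash_eq_self_of_mem_Gamma0.ModularForm.HeckeSlashInvariance.redMatrix ℓ γ))
    (fun i => lowS (N₁ * t) (slash (repQ ℓ i) x))]
  refine Finset.sum_congr rfl fun i _ => ?_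
  obtain ⟨γ', hγ', h⟩ := exists_perm_heckeT hℓN hγm i
  show slash (repQ ℓ i) (lowS N₁ x) = lowS (N₁ * t) (slash (repQ ℓ
    (P2MW.S_ModularForm_heckeT_slash_eq_self_of_mem_Gamma0.ModularForm.HeckeSlashInvariance.redMatrix ℓ γ • i)) x)
  set k := P2MW.S_ModularForm_heckeT_slash_eq_self_of_mem_Gamma0.ModularForm.HeckeSlashInvariance.redMatrix ℓ γ • i with hk
  have hℓ3 : ¬ (3 : ℤ) ∣ ℓ := by
    intro h
    have h' : 3 ∣ ℓ := by exact_mod_cast h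
    rw [Nat.prime_dvd_prime_iff_eq Nat.prime_three hℓ] at h'
    exact hℓN (h' ▸ h3)
  -- the key congruence
  have hmem : lowT N₁ * γ' ∈ Gamma0 (3 * N₁) := by
    obtain ⟨a, b, d, had, hi⟩ := repQ_eq_triMat hℓ.ne_zero i
    obtain ⟨a', b', d', had', hk'⟩ := repQ_eq_triMat hℓ.ne_zero k
    rw [mem_Gamma0_iff] at hγ'
    obtain ⟨r, hr⟩ := hγ'
    have hℓ0 : (ℓ : ℤ) ≠ 0 := by exact_mod_cast hℓ.ne_zero
    have h' := congrArg (fun M : GL (Fin 2) ℚ => (M : Matrix (Fin 2) (Fin 2) ℚ)) h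
    simp only [hi, hk', val_mul', val_toQ, val_triMat _ (had ▸ hℓ0), val_triMat _ (had' ▸ hℓ0),
      Matrix.mul_fin_two] at h'
    have e00 := congrFun (congrFun h' 0) 0
    have e10 := congrFun (congrFun h' 1) 0
    simp only [hγ, lowT_00, lowT_10, Matrix.of_apply, Matrix.cons_val', Matrix.cons_val_zero,
      Matrix.cons_val_one, Matrix.cons_val_fin_one] at e00 e10
    have e00' : a * 1 + b * (-(N₁ * t)) = γ' 0 0 * a' := by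
      have : ((a * 1 + b * (-(N₁ * t)) : ℤ) : ℚ) = ((γ' 0 0 * a' : ℤ) : ℚ) := by
        push_cast at e00 ⊢
        linear_combination e00
      exact_mod_cast this
    have e10' : d * (-(N₁ * t)) = (N₁ * r) * a' := by
      have : ((d * (-(N₁ * t)) : ℤ) : ℚ) = (((N₁ * r) * a' : ℤ) : ℚ) := by
        rw [← hr]
        push_cast at e10 ⊢
        linear_combination e10
      exact_mod_cast this
    have hN0 : (N₁ : ℤ) ≠ 0 := by exact_mod_cast h0.ne'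
    have e10'' : -(d * t) = r * a' := by
      apply mul_left_cancel₀ hN0
      linear_combination e10'
    obtain ⟨n, hn⟩ := h3
    have hn' : (N₁ : ℤ) = 3 * n := by exact_mod_cast hn
    obtain ⟨e, he⟩ := ht
    -- `d ^ 2 ≡ 1`
    have hd3 : ¬ (3 : ℤ) ∣ d := fun h => hℓ3 (had ▸ dvd_mul_of_dvd_right h a)
    have ha3 : ¬ (3 : ℤ) ∣ a' := fun h => hℓ3 (had' ▸ dvd_mul_of_dvd_left h d')
    have hdd : (3 : ℤ) ∣ d * d - 1 := by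
      have hd' : d % 3 = 1 ∨ d % 3 = 2 := by omega
      have : d * d % 3 = 1 := by
        rw [Int.mul_emod]
        rcases hd' with h | h <;> rw [h] <;> norm_num
      omega
    obtain ⟨f, hf⟩ := hdd
    have hmul : (3 : ℤ) ∣ (γ' 0 0 + r) * a' := by
      refine ⟨-(a * f) + d * e - b * n * t, ?_⟩
      linear_combination -e00' - e10'' + (-b * t) * hn' + d * he - a * hf + d * had
    have h3p : Prime (3 : ℤ) := Int.prime_three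
    have hsum : (3 : ℤ) ∣ γ' 0 0 + r := (h3p.dvd_or_dvd hmul).resolve_right ha3
    obtain ⟨w, hw⟩ := hsum
    rw [mem_Gamma0_iff, mul_10, lowT_10, lowT_11, hr]
    refine ⟨w, ?_⟩
    push_cast
    linear_combination (N₁ : ℤ) * hw
  have hinv : slash (toQ γ'⁻¹) x = lowS N₁ x := by
    have h1 : (lowT N₁ : SL(2, ℤ)) = (lowT N₁ * γ') * γ'⁻¹ := by group
    rw [lowS_apply, h1, toQ_mul, slash_mul, hx.2 _ hmem]
  rw [lowS_apply (N₁ * t), ← slash_mul, ← hinv, ← slash_mul]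
  have h2 : toQ (lowT (N₁ * t)) = (toQ γ)⁻¹ := by
    rw [← toQ_inv']
    congr 1
    rw [eq_inv_iff_mul_eq_one, hγ, lowT_mul_neg]
  have h4 : (toQ γ')⁻¹ * repQ ℓ i = repQ ℓ k * (toQ γ)⁻¹ := by
    rw [inv_mul_eq_iff_eq_mul, ← mul_assoc, eq_mul_inv_iff_mul_eq]
    exact h
  rw [h2, toQ_inv', h4]

/-! ### The step `3 N₁ → N₁` -/

/-- `D = L - 1`. -/
noncomputable def dOp (N₁ : ℕ) : Pairs R →ₗ[R] Pairs R := lowS N₁ - LinearMap.id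

theorem dOp_apply (N₁ : ℕ) (x : Pairs R) : dOp N₁ x = lowS N₁ x - x := rfl

theorem dOp_mem {N₁ : ℕ} (h3 : 3 ∣ N₁) {x : Pairs R} (hx : x ∈ MS (Gamma0 (3 * N₁)) R) :
    dOp N₁ x ∈ MS (Gamma0 (3 * N₁)) R :=
  sub_mem (lowS_mem h3 hx) hx

theorem dOp_three {N₁ : ℕ} (hR : (3 : R) = 0) {x : Pairs R}
    (hx : x ∈ MS (Gamma0 (3 * N₁)) R) : dOp N₁ (dOp N₁ (dOp N₁ x)) = 0 := by
  simp only [dOp_apply, map_sub, lowS_lowS]
  have h1 : lowS (R := R) (N₁ + N₁ + N₁) x = x := by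
    rw [show (N₁ + N₁ + N₁ : ℤ) = 3 * N₁ by ring]; exact lowS_three hx
  rw [h1]
  have h2 : ∀ y : Pairs R, (3 : R) • y = 0 := fun y => by rw [hR, zero_smul]
  have h3 := h2 (lowS (N₁ + N₁) x)
  have h4 := h2 (lowS N₁ x)
  have : x - lowS (N₁ + N₁) x - (lowS (N₁ + N₁) x - lowS N₁ x)
      - (lowS (N₁ + N₁) x - lowS N₁ x - (lowS N₁ x - x)) =
      - ((3 : R) • lowS (N₁ + N₁) x) + (3 : R) • lowS N₁ x := by module
  rw [this, h3, h4, neg_zero, add_zero]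

theorem dOp_zero_mem {N₁ : ℕ} (h3 : 3 ∣ N₁) {x : Pairs R} (hx : x ∈ MS (Gamma0 (3 * N₁)) R)
    (h : dOp N₁ x = 0) : x ∈ MS (Gamma0 N₁) R :=
  mem_of_lowS_eq h3 hx (sub_eq_zero.mp h)

/-- `T_ℓ D = D T_ℓ` for `ℓ ≡ 1 (mod 3)`. -/
theorem heckeT_dOp_one {N₁ ℓ : ℕ} (h3 : 3 ∣ N₁) (h0 : 0 < N₁) (hℓ : ℓ.Prime) (hℓN : ¬ ℓ ∣ N₁)
    (hℓ1 : ℓ % 3 = 1) {x : Pairs R} (hx : x ∈ MS (Gamma0 (3 * N₁)) R) :
    heckeT ℓ (dOp N₁ x) = dOp N₁ (heckeT ℓ x) := by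
  rw [dOp_apply, map_sub, heckeT_lowS h3 h0 hℓ hℓN (t := 1) (by omega) hx, mul_one, dOp_apply]

/-- `T_ℓ D = (D² - D) T_ℓ` for `ℓ ≡ 2 (mod 3)` (in characteristic `3`). -/
theorem heckeT_dOp_two {N₁ ℓ : ℕ} (h3 : 3 ∣ N₁) (h0 : 0 < N₁) (hℓ : ℓ.Prime) (hℓN : ¬ ℓ ∣ N₁)
    (hR : (3 : R) = 0) (hℓ2 : ℓ % 3 = 2) {x : Pairs R} (hx : x ∈ MS (Gamma0 (3 * N₁)) R) :
    heckeT ℓ (dOp N₁ x) = dOp N₁ (dOp N₁ (heckeT ℓ x)) - dOp N₁ (heckeT ℓ x) := by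
  rw [dOp_apply, map_sub, heckeT_lowS h3 h0 hℓ hℓN (t := 2) (by omega) hx]
  simp only [dOp_apply, map_sub, lowS_lowS]
  rw [show (N₁ * 2 : ℤ) = N₁ + N₁ by ring]
  have h2 : ∀ y : Pairs R, (3 : R) • y = 0 := fun y => by rw [hR, zero_smul]
  have h3' := h2 (lowS N₁ (heckeT ℓ x))
  have h4 := h2 (heckeT ℓ x)
  have : lowS (N₁ + N₁) (heckeT ℓ x) - lowS N₁ (heckeT ℓ x)
      - (lowS N₁ (heckeT ℓ x) - heckeT ℓ x) - (lowS N₁ (heckeT ℓ x) - heckeT ℓ x) =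
      (lowS (N₁ + N₁) (heckeT ℓ x) - heckeT ℓ x) - (3 : R) • lowS N₁ (heckeT ℓ x)
        + (3 : R) • heckeT ℓ x := by module
  rw [this, h3', h4, add_zero, sub_zero]

theorem natCast_of_mod_one {ℓ : ℕ} (hR : (3 : R) = 0) (h : ℓ % 3 = 1) : (ℓ : R) = 1 := by
  have : ℓ = 3 * (ℓ / 3) + 1 := by omega
  rw [this]; push_cast; rw [hR]; ring

theorem natCast_of_mod_two {ℓ : ℕ} (hR : (3 : R) = 0) (h : ℓ % 3 = 2) : (ℓ : R) = -1 := by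
  have : ℓ = 3 * (ℓ / 3) + 2 := by omega
  rw [this]; push_cast; rw [hR]
  linear_combination hR

theorem mod_three_of_prime {N₁ ℓ : ℕ} (h3 : 3 ∣ N₁) (hℓ : ℓ.Prime) (hℓN : ¬ ℓ ∣ N₁) :
    ℓ % 3 = 1 ∨ ℓ % 3 = 2 := by
  have h : ¬ 3 ∣ ℓ := fun h => by
    rw [Nat.prime_dvd_prime_iff_eq Nat.prime_three hℓ] at h
    exact hℓN (h ▸ h3)
  omega

/-- **(A), one step.** -/
theorem exists_step {N₁ : ℕ} (h3 : 3 ∣ N₁) (h0 : 0 < N₁) (hR : (3 : R) = 0) {x : Pairs R}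
    (hx : x ∈ MS (Gamma0 (3 * N₁)) R) (hx0 : x ≠ 0) (S : Set ℕ)
    (hS : ∀ ℓ ∈ S, ℓ.Prime ∧ ¬ ℓ ∣ N₁) (lam : ℕ → R)
    (h : ∀ ℓ ∈ S, heckeT ℓ x = lam ℓ • x) :
    ∃ i : ℕ, i ≤ 1 ∧ ∃ y ∈ MS (Gamma0 N₁) R, y ≠ 0 ∧
      ∀ ℓ ∈ S, heckeT ℓ y = ((ℓ : R) ^ i * lam ℓ) • y := by
  by_cases h1 : dOp N₁ x = 0
  · refine ⟨0, zero_le_one, x, dOp_zero_mem h3 hx h1, hx0, fun ℓ hℓ => ?_⟩
    rw [pow_zero, one_mul, h ℓ hℓ]
  have hx1 := dOp_mem h3 hx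
  by_cases h2 : dOp N₁ (dOp N₁ x) = 0
  · refine ⟨1, le_rfl, dOp N₁ x, dOp_zero_mem h3 hx1 h2, h1, fun ℓ hℓ => ?_⟩
    rw [pow_one]
    rcases mod_three_of_prime h3 (hS ℓ hℓ).1 (hS ℓ hℓ).2 with hm | hm
    · rw [heckeT_dOp_one h3 h0 (hS ℓ hℓ).1 (hS ℓ hℓ).2 hm hx, h ℓ hℓ, map_smul,
        natCast_of_mod_one hR hm, one_mul]
    · rw [heckeT_dOp_two h3 h0 (hS ℓ hℓ).1 (hS ℓ hℓ).2 hR hm hx, h ℓ hℓ, map_smul, map_smul, h2,
        natCast_of_mod_two hR hm, smul_zero, zero_sub, neg_one_mul, neg_smul]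
  · have hx2 := dOp_mem h3 hx1
    have h3' : dOp N₁ (dOp N₁ (dOp N₁ x)) = 0 := dOp_three hR hx
    refine ⟨0, zero_le_one, dOp N₁ (dOp N₁ x), dOp_zero_mem h3 hx2 h3', h2, fun ℓ hℓ => ?_⟩
    rw [pow_zero, one_mul]
    rcases mod_three_of_prime h3 (hS ℓ hℓ).1 (hS ℓ hℓ).2 with hm | hm
    · rw [heckeT_dOp_one h3 h0 (hS ℓ hℓ).1 (hS ℓ hℓ).2 hm hx1,
        heckeT_dOp_one h3 h0 (hS ℓ hℓ).1 (hS ℓ hℓ).2 hm hx, h ℓ hℓ, map_smul, map_smul]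
    · rw [heckeT_dOp_two h3 h0 (hS ℓ hℓ).1 (hS ℓ hℓ).2 hR hm hx1,
        heckeT_dOp_two h3 h0 (hS ℓ hℓ).1 (hS ℓ hℓ).2 hR hm hx, h ℓ hℓ]
      simp only [map_smul, map_sub, map_neg, h3', smul_zero, zero_sub, neg_zero, sub_neg_eq_add,
        zero_add]

/-- **(A).** From level `3 ^ (k + 1) * m` to level `3 * m`. -/
theorem exists_descend {m : ℕ} (hm : 0 < m) (hR : (3 : R) = 0) (k : ℕ) {x : Pairs R}
    (hx : x ∈ MS (Gamma0 (3 ^ (k + 1) * m)) R) (hx0 : x ≠ 0) (S : Set ℕ)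
    (hS : ∀ ℓ ∈ S, ℓ.Prime ∧ ¬ ℓ ∣ 3 * m) (lam : ℕ → R)
    (h : ∀ ℓ ∈ S, heckeT ℓ x = lam ℓ • x) :
    ∃ i : ℕ, i ≤ 1 ∧ ∃ y ∈ MS (Gamma0 (3 * m)) R, y ≠ 0 ∧
      ∀ ℓ ∈ S, heckeT ℓ y = ((ℓ : R) ^ i * lam ℓ) • y := by
  induction k generalizing x lam with
  | zero =>
    refine ⟨0, zero_le_one, x, by simpa using hx, hx0, fun ℓ hℓ => ?_⟩
    rw [pow_zero, one_mul, h ℓ hℓ]
  | succ k ih =>
    have e : 3 ^ (k + 1 + 1) * m = 3 * (3 ^ (k + 1) * m) := by ring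
    rw [e] at hx
    have hS' : ∀ ℓ ∈ S, ℓ.Prime ∧ ¬ ℓ ∣ 3 ^ (k + 1) * m := fun ℓ hℓ => by
      refine ⟨(hS ℓ hℓ).1, fun hd => (hS ℓ hℓ).2 ?_⟩
      rcases ((hS ℓ hℓ).1.dvd_mul).mp hd with hd | hd
      · exact dvd_mul_of_dvd_left ((hS ℓ hℓ).1.dvd_of_dvd_pow hd) m
      · exact dvd_mul_of_dvd_right hd 3
    obtain ⟨i, hi, y, hy, hy0, hyT⟩ := exists_step (N₁ := 3 ^ (k + 1) * m)
      (dvd_mul_of_dvd_left (dvd_pow_self 3 (Nat.succ_ne_zero k)) m) (by positivity) hR hx hx0 S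
      hS' lam h
    obtain ⟨j, hj, z, hz, hz0, hzT⟩ := ih hy hy0 (fun ℓ => (ℓ : R) ^ i * lam ℓ) hyT
    refine ⟨(i + j) % 2, by omega, z, hz, hz0, fun ℓ hℓ => ?_⟩
    rw [hzT ℓ hℓ]
    congr 1
    have hsq : (ℓ : R) ^ 2 = 1 := by
      rcases mod_three_of_prime (N₁ := 3 * m) (dvd_mul_right 3 m) (hS ℓ hℓ).1 (hS ℓ hℓ).2 with
        hm | hm
      · rw [natCast_of_mod_one hR hm]; ring
      · rw [natCast_of_mod_two hR hm]; ring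
    have hpow : (ℓ : R) ^ ((i + j) % 2) = (ℓ : R) ^ (i + j) := by
      conv_rhs => rw [← Nat.div_add_mod (i + j) 2, pow_add, pow_mul, hsq, one_pow, one_mul]
    rw [hpow]; ring

end Fermat.Agent.L9
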