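import Fermat.Agent.L9.Glue
import Fermat.Agent.CMP.Newness

/-!
# The twisted case is impossible when `W[3]` has no invariants under inertia at `3` (L9)
-/

set_option autoImplicit false
set_option linter.unusedSectionVars false

open Polynomial TensorProduct IsLocalRing CongruenceSubgroup

namespace Fermat.Agent.L9.Contra

open Fermat.Agent.L9.Omega Fermat.Agent.L9.Twist Fermat.Agent.L9.Glue Fermat.Agent.S30Wiring

local notation "Qbar" => AlgebraicClosure ℚ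
local notation "GQ" => (AlgebraicClosure ℚ ≃ₐ[ℚ] AlgebraicClosure ℚ)

/-- `p`-new points are ordinary at `p` -/
def NewOrd (p : ℕ) : Prop :=
  ∀ (N : ℕ) [NeZero N] (S : Finset ℕ)
    (hNS : ∀ q : ℕ, q.Prime → q ∣ N → q ∈ S)
    (𝒪 : Type) [CommRing 𝒪] [IsDomain 𝒪] [IsDiscreteValuationRing 𝒪]
    [IsAdicComplete (maximalIdeal 𝒪) 𝒪] [Finite (ResidueField 𝒪)] [CharZero 𝒪]
    (_ : (p : 𝒪) ∈ maximalIdeal 𝒪)
    (π : CuspForm.heckeAlgebra N 2 (↑S : Set ℕ) →+* 𝒪) (ρ : GaloisRepAdic 𝒪)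
    (_ : ∀ (ℓ : ℕ) (hℓ : ℓ.Prime) (hℓN : ¬ ℓ ∣ N) (hℓS : ℓ ∉ (↑S : Set ℕ)),
      ∀ A : ValuationSubring (AlgebraicClosure ℚ), A.LiesOverPrime ℓ →
        ∀ σ : AlgebraicClosure ℚ ≃ₐ[ℚ] AlgebraicClosure ℚ, A.IsFrobeniusAt σ ℓ →
          LinearMap.charpoly (ρ.ρ σ) = Polynomial.X ^ 2 -
            Polynomial.C (π (CuspForm.heckeAlgebra.T hℓ hℓN hℓS)) * Polynomial.X +
            Polynomial.C ((ℓ : 𝒪)))
    (_ : ρ.residual.IsAbsolutelyIrreducible) (M : ℕ) [NeZero M] (_ : N = M * p)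
    (_ : ¬ p ∣ M) (hMS : ∀ q : ℕ, q.Prime → q ∣ M → q ∈ S)
    (t : S30Wiring.AnemicAlg S) (_ : S30Wiring.anemicEval (N := M) hMS t = 0)
    (_ : π (S30Wiring.anemicEval (N := N) hNS t) ≠ 0), ρ.IsOrdinaryAt p

variable {W : WeierstrassCurve ℤ} {O : Type} [CommRing O] [IsDomain O]
  [IsDiscreteValuationRing O] [IsAdicComplete (maximalIdeal O) O] [Finite (ResidueField O)]
  [CharZero O]

/-- A character of the Hecke algebra of level `N` either factors through level `M`, or is new. -/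
theorem new_or_old {N M : ℕ} [NeZero N] [NeZero M] {S : Finset ℕ}
    (hNS : ∀ q : ℕ, q.Prime → q ∣ N → q ∈ S) (hMS : ∀ q : ℕ, q.Prime → q ∣ M → q ∈ S)
    (χ : CuspForm.heckeAlgebra N 2 (↑S : Set ℕ) →+* O) :
    (∃ t : AnemicAlg S, anemicEval (N := M) hMS t = 0 ∧ χ (anemicEval (N := N) hNS t) ≠ 0) ∨
    ∃ χ' : CuspForm.heckeAlgebra M 2 (↑S : Set ℕ) →+* O,
      ∀ (ℓ : ℕ) (hℓ : ℓ.Prime) (hℓN : ¬ ℓ ∣ N) (hℓM : ¬ ℓ ∣ M) (hℓS : ℓ ∉ (↑S : Set ℕ)),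
        χ' (CuspForm.heckeAlgebra.T hℓ hℓM hℓS) = χ (CuspForm.heckeAlgebra.T hℓ hℓN hℓS) := by
  classical
  by_cases hcon : ∃ t : AnemicAlg S, anemicEval (N := M) hMS t = 0 ∧
      χ (anemicEval (N := N) hNS t) ≠ 0
  · exact Or.inl hcon
  · right
    push Not at hcon
    let ev : AnemicAlg S →+* CuspForm.heckeAlgebra M 2 (↑S : Set ℕ) :=
      (anemicEval (N := M) hMS).toRingHom
    have hsurj : Function.Surjective ev := CMP.Newness.anemicEval_surjective hMS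
    let ψ : AnemicAlg S →+* O := χ.comp (anemicEval (N := N) hNS).toRingHom
    let χ' : CuspForm.heckeAlgebra M 2 (↑S : Set ℕ) →+* O :=
      ev.liftOfSurjective hsurj ⟨ψ, fun t ht => hcon t ht⟩
    have hχ' : ∀ t : AnemicAlg S, χ' (anemicEval (N := M) hMS t) = ψ t := fun t =>
      RingHom.liftOfRightInverse_comp_apply ev _ (Function.rightInverse_surjInv hsurj) ⟨ψ, _⟩ t
    refine ⟨χ', fun ℓ hℓ hℓN hℓM hℓS => ?_⟩
    have hℓS' : ℓ ∉ S := fun h => hℓS (Finset.mem_coe.mpr h)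
    rw [← CMP.Newness.anemicEval_X hMS ⟨⟨ℓ, hℓ⟩, hℓS'⟩ hℓM hℓS, hχ']
    change χ (anemicEval (N := N) hNS _) = _
    rw [CMP.Newness.anemicEval_X hNS ⟨⟨ℓ, hℓ⟩, hℓS'⟩ hℓN hℓS]

/-- **The contradiction for the twisted eigensystem.** -/
theorem exists_fixed_of_point (hno : NewOrd 3) (hΔ : W.Δ ≠ 0) (hss : W.IsSemistableModel)
    (hirr : W.ModRepIsIrreducible 3) {M : ℕ} [NeZero M] (h3M : ¬ 3 ∣ M) {N : ℕ} [NeZero N]
    (hN : N = M * 3)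
    {S : Finset ℕ} (h3S : 3 ∈ S) (hNS : ∀ q : ℕ, q.Prime → q ∣ N → q ∈ S)
    (h3O : ((3 : ℕ) : O) ∈ maximalIdeal O)
    (χ : CuspForm.heckeAlgebra N 2 (↑S : Set ℕ) →+* O) (hχ : TwistCongr W χ)
    {P : ValuationSubring Qbar} (hP : P.LiesOverPrime 3) :
    ∃ x : M3 W, x ≠ 0 ∧ ∀ σ ∈ P.inertiaSubgroupIn ℚ, σ • x = x := by
  have hMS : ∀ q : ℕ, q.Prime → q ∣ M → q ∈ S := fun q hq hqM =>
    hNS q hq (hN ▸ dvd_mul_of_dvd_left hqM 3)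
  rcases new_or_old hNS hMS χ with ⟨t, ht, hπt⟩ | ⟨χ', hχ'⟩
  · obtain ⟨ρ, hcp, habs, j, hj, hspan, hjσ⟩ := exists_rep hΔ hirr h3S hNS h3O χ hχ
    have hord : ρ.IsOrdinaryAt 3 :=
      hno N S hNS O h3O χ ρ hcp habs M hN h3M hMS t ht hπt
    exact exists_fixed_of_ordinary hΔ ρ hord j hspan hjσ hP
  · refine exists_fixed_of_flat hΔ hss hirr h3M h3S hMS h3O χ' ?_ hP
    intro ℓ hℓ hℓM hℓS
    have hℓN : ¬ ℓ ∣ N := fun h => hℓS (Finset.mem_coe.mpr (hNS ℓ hℓ h))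
    rw [hχ' ℓ hℓ hℓN hℓM hℓS]
    exact hχ ℓ hℓ hℓN hℓS

/-- The twisted eigenform produces inertia invariants. -/
theorem exists_fixed_of_eigenform (hno : NewOrd 3) (hΔ : W.Δ ≠ 0) (hss : W.IsSemistableModel)
    (hirr : W.ModRepIsIrreducible 3) {M : ℕ} (hM : 0 < M) (h3M : ¬ 3 ∣ M)
    {g : CuspForm (Gamma0 (3 * M)) 2} (hg : g.IsNormalizedEigenform)
    (𝔪 : Ideal (integralClosure ℤ ℂ)) (h𝔪 : 𝔪.IsMaximal)
    (h3𝔪 : ((3 : ℕ) : integralClosure ℤ ℂ) ∈ 𝔪)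
    (hcong : ∀ ℓ : ℕ, ℓ.Prime → W.IsGoodPrimeFor ℓ → ¬ ℓ ∣ 3 * M →
        ∃ c : integralClosure ℤ ℂ, (c : ℂ) = ModularFormClass.qCoeff g ℓ ∧
          c - (((ℓ : ℤ) * W.apOfModel ℓ : ℤ) : integralClosure ℤ ℂ) ∈ 𝔪)
    {P : ValuationSubring Qbar} (hP : P.LiesOverPrime 3) :
    ∃ x : M3 W, x ≠ 0 ∧ ∀ σ ∈ P.inertiaSubgroupIn ℚ, σ • x = x := by
  have : NeZero M := ⟨hM.ne'⟩
  have : NeZero (3 * M) := ⟨by omega⟩
  have : Fact (Nat.Prime 3) := ⟨Nat.prime_three⟩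
  let S : Finset ℕ := {3} ∪ (3 * M).primeFactors ∪ W.Δ.natAbs.primeFactors
  have h3S : 3 ∈ S := by simp [S]
  have hNS : ∀ q : ℕ, q.Prime → q ∣ 3 * M → q ∈ S := fun q hq hqM => by
    have : q ∈ (3 * M).primeFactors := Nat.mem_primeFactors.mpr ⟨hq, hqM, by omega⟩
    simp only [S, Finset.mem_union]
    exact Or.inl (Or.inr this)
  obtain ⟨O, iO, i1, i2, i3, i4, i5, h3O, χ, hχ⟩ := exists_point S hg 3 𝔪 h𝔪 h3𝔪
  refine exists_fixed_of_point hno hΔ hss hirr h3M (mul_comm 3 M) h3S hNS h3O χ ?_ hP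
  intro ℓ hℓ hℓN hℓS
  have hgood : W.IsGoodPrimeFor ℓ := by
    intro h
    apply hℓS
    have : ℓ ∈ W.Δ.natAbs.primeFactors :=
      Nat.mem_primeFactors.mpr ⟨hℓ, Int.natCast_dvd.mp h, fun h0 => hΔ (Int.natAbs_eq_zero.mp h0)⟩
    rw [Finset.mem_coe]
    simp only [S, Finset.mem_union]
    exact Or.inr this
  obtain ⟨c, hc, hca⟩ := hcong ℓ hℓ hgood hℓN
  exact hχ ℓ hℓ hℓN hℓS c _ hc hca

end Fermat.Agent.L9.Contra
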