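import Fermat.Agent.L9.Descend

/-!
# New or old at `q` (L9, part C)

A normalised eigenform of level `N q` (`q ∤ N`) has `a_q² = 1`, or its eigenvalues away from `q`
occur in level `N`.
-/

set_option autoImplicit false
set_option linter.unusedSectionVars false

noncomputable section

open CongruenceSubgroup TensorProduct
open scoped MatrixGroups OnePoint

namespace Fermat.Agent.L9

open Fermat.Agent.LR Fermat.Agent.LR.PS Fermat.Agent.LR.EigenLift Fermat.Agent.LR.Asm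
  Fermat.Agent.LR.Core

/-- the simultaneous eigenspace away from `q` in the symbols of level `N` -/
def eigSub (N q : ℕ) (lam : ℕ → ℂ) : Submodule ℂ (MS (Gamma0 N) ℂ) where
  carrier := {y | ∀ ℓ : ℕ, ℓ.Prime → ℓ ≠ q → hop ℂ N ℓ y.1 = lam ℓ • y.1}
  zero_mem' := fun ℓ _ _ => by simp
  add_mem' := by
    intro x y hx hy ℓ hℓ hℓq
    show hop ℂ N ℓ (x.1 + y.1) = lam ℓ • (x.1 + y.1)
    rw [map_add, hx ℓ hℓ hℓq, hy ℓ hℓ hℓq, smul_add]
  smul_mem' := by
    intro c x hx ℓ hℓ hℓq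
    show hop ℂ N ℓ (c • x.1) = lam ℓ • (c • x.1)
    rw [map_smul, hx ℓ hℓ hℓq, smul_comm]

theorem mem_eigSub {N q : ℕ} {lam : ℕ → ℂ} {y : MS (Gamma0 N) ℂ} :
    y ∈ eigSub N q lam ↔ ∀ ℓ : ℕ, ℓ.Prime → ℓ ≠ q → hop ℂ N ℓ y.1 = lam ℓ • y.1 := Iff.rfl

/-- the operator at `q` on the eigenspace -/
def eigOp (N : ℕ) {q : ℕ} (hq : q.Prime) (lam : ℕ → ℂ) : Module.End ℂ (eigSub N q lam) where
  toFun y := ⟨⟨hop ℂ N q y.1.1, hop_mem hq y.1.2⟩, fun ℓ hℓ hℓq => by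
    show hop ℂ N ℓ (hop ℂ N q y.1.1) = lam ℓ • hop ℂ N q y.1.1
    rw [hop_comm hℓ hq y.1.2, y.2 ℓ hℓ hℓq, map_smul]⟩
  map_add' x y := by
    apply Subtype.ext; apply Subtype.ext
    exact map_add _ _ _
  map_smul' c x := by
    apply Subtype.ext; apply Subtype.ext
    exact map_smul _ _ _

/-- **(C)** -/
theorem isNewAt_or_exists_lower {N q : ℕ} (hN : 0 < N) (hq : q.Prime) (hqN : ¬ q ∣ N)
    (hES : LinearMap.range (ModularCurve.periodHomPair N) =
      ModularCurve.Period.parabolicHoms ℂ (Gamma0 N) ℂ)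
    {g : CuspForm (Gamma0 (N * q)) 2} (hg : g.IsNormalizedEigenform)
    (hne : ∃ ℓ : ℕ, ℓ.Prime ∧ ¬ ℓ ∣ N * q ∧ ℓ ≡ 1 [MOD N] ∧
      ModularFormClass.qCoeff g ℓ ≠ (ℓ : ℂ) + 1) :
    g.IsNewAt q ∨ ∃ h : CuspForm (Gamma0 N) 2, h.IsNormalizedEigenform ∧
      ∀ ℓ : ℕ, ℓ.Prime → ℓ ≠ q → ModularFormClass.qCoeff h ℓ = ModularFormClass.qCoeff g ℓ := by
  have hN0 : NeZero N := ⟨hN.ne'⟩
  have hNq0 : NeZero (N * q) := ⟨mul_ne_zero hN.ne' hq.ne_zero⟩
  have hfi : (Gamma0 N).FiniteIndex := (Gamma0_is_congruence N).finiteIndex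
  set x := perSym (N * q) g with hx
  have hxm : x ∈ MS (Gamma0 (N * q)) ℂ := perSym_mem g
  have hx0 : x ≠ 0 := by
    intro h
    exact hg.ne_zero (perSym_injective (N := N * q) (h.trans (map_zero (perSym (N * q))).symm))
  set lam : ℕ → ℂ := fun ℓ => ModularFormClass.qCoeff g ℓ with hlam
  have hxT : ∀ ℓ, ℓ.Prime → hop ℂ (N * q) ℓ x = lam ℓ • x := fun ℓ hℓ => by
    rw [hop_complex, symOp_perSym_eigenform hg hℓ]
  -- it suffices to find a nonzero symbol of level `N` with the right eigenvalues away from `q`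
  have key : ∀ y : Pairs ℂ, y ∈ MS (Gamma0 N) ℂ → y ≠ 0 →
      (∀ ℓ, ℓ.Prime → ℓ ≠ q → hop ℂ N ℓ y = lam ℓ • y) →
      ∃ h : CuspForm (Gamma0 N) 2, h.IsNormalizedEigenform ∧
      ∀ ℓ : ℕ, ℓ.Prime → ℓ ≠ q → ModularFormClass.qCoeff h ℓ = ModularFormClass.qCoeff g ℓ := by
    intro y hy hy0 hyT
    have hnt : Nontrivial (eigSub N q lam) := by
      refine ⟨⟨⟨⟨y, hy⟩, hyT⟩, 0, fun h => hy0 ?_⟩⟩
      exact congrArg (fun z : eigSub N q lam => z.1.1) h
    have hfd : FiniteDimensional ℂ (MS (Gamma0 N) ℂ) := finite_MS ℂ (Gamma0 N)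
    obtain ⟨c, hc⟩ := Module.End.exists_eigenvalue (K := ℂ) (V := eigSub N q lam) (eigOp N hq lam)
    obtain ⟨z, hz⟩ := hc.exists_hasEigenvector
    have hz0 : z.1.1 ≠ 0 := fun h => hz.2 (by
      apply Subtype.ext; apply Subtype.ext
      exact h)
    have hzq : hop ℂ N q z.1.1 = c • z.1.1 := by
      have := hz.apply_eq_smul
      exact congrArg (fun z : eigSub N q lam => z.1.1) this
    let lam' : ℕ → ℂ := fun ℓ => if ℓ = q then c else lam ℓ
    have hall : ∀ ℓ, ℓ.Prime → hop ℂ N ℓ z.1.1 = lam' ℓ • z.1.1 := by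
      intro ℓ hℓ
      by_cases h : ℓ = q
      · subst h
        simp only [lam', if_true]
        exact hzq
      · simp only [lam', if_neg h]
        exact z.2 ℓ hℓ h
    have hnb : ¬ IsBoundary (Gamma0 N) z.1.1 := by
      obtain ⟨ℓ, hℓ, hℓN, hℓ1, hℓne⟩ := hne
      have h1 : (ℓ : ZMod N) = 1 := by
        have h3 := (ZMod.natCast_eq_natCast_iff _ _ _).mpr hℓ1
        rw [h3, Nat.cast_one]
      have hℓq : ℓ ≠ q := by
        rintro rfl
        exact hℓN (dvd_mul_left ℓ N)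
      have hℓN' : ¬ ℓ ∣ N := fun h => hℓN (Dvd.dvd.mul_right h q)
      refine not_isBoundary_of_eigenvalue hℓ h1 hz0 (c := lam ℓ) ?_ hℓne
      rw [← z.2 ℓ hℓ hℓq, hop_of_not_dvd hℓN']
    obtain ⟨h, hh, hhℓ⟩ := exists_eigenform_of_eigensymbol hES z.1.2 hnb lam'
      (fun ℓ hℓ hd => by rw [← hall ℓ hℓ, hop_of_not_dvd hd])
      (fun ℓ hℓ hd => by rw [← hall ℓ hℓ, hop_of_dvd hd])
    refine ⟨h, hh, fun ℓ hℓ hℓq => ?_⟩
    rw [hhℓ ℓ hℓ]
    simp only [lam', if_neg hℓq]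
    rfl
  by_cases h1 : tr1 N q x = 0
  · by_cases h2 : tr2 N q x = 0
    · left
      have hnew : x ∈ newMS N q ℂ := mem_newMS.mpr ⟨hxm, h1, h2⟩
      have h3 := heckeU_heckeU_of_new hq hqN hnew
      have h4 := hxT q hq
      rw [hop_of_dvd (dvd_mul_left q N)] at h4
      rw [h4, map_smul, h4, smul_smul] at h3
      have h5 : (lam q * lam q - 1) • x = 0 := by rw [sub_smul, h3, one_smul, sub_self]
      have h6 := (smul_eq_zero.mp h5).resolve_right hx0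
      show ModularFormClass.qCoeff g q ^ 2 = 1
      rw [sq]
      exact sub_eq_zero.mp h6
    · right
      refine key _ (tr2_mem hq hqN hxm) h2 fun ℓ hℓ hℓq => ?_
      have h3 := hxT ℓ hℓ
      by_cases hd : ℓ ∣ N
      · rw [hop_of_dvd (Dvd.dvd.mul_right hd q)] at h3
        rw [hop_of_dvd hd, heckeU_tr2 hq hqN hℓ hd hxm, h3, map_smul]
      · have hd' : ¬ ℓ ∣ N * q := fun h => by
          rcases (hℓ.dvd_mul).mp h with h | h
          · exact hd h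
          · exact hℓq ((Nat.prime_dvd_prime_iff_eq hℓ hq).mp h)
        rw [hop_of_not_dvd hd'] at h3
        rw [hop_of_not_dvd hd, heckeT_tr2 hq hqN hℓ hd hℓq hxm, h3, map_smul]
  · right
    refine key _ (tr1_mem hq hqN hxm) h1 fun ℓ hℓ hℓq => ?_
    have h3 := hxT ℓ hℓ
    by_cases hd : ℓ ∣ N
    · rw [hop_of_dvd (Dvd.dvd.mul_right hd q)] at h3
      rw [hop_of_dvd hd, heckeU_tr1 hq hqN hℓ hd hxm, h3, map_smul]
    · have hd' : ¬ ℓ ∣ N * q := fun h => by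
        rcases (hℓ.dvd_mul).mp h with h | h
        · exact hd h
        · exact hℓq ((Nat.prime_dvd_prime_iff_eq hℓ hq).mp h)
      rw [hop_of_not_dvd hd'] at h3
      rw [hop_of_not_dvd hd, heckeT_tr1 hq hqN hℓ hd hℓq hxm, h3, map_smul]

end Fermat.Agent.L9
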