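import Fermat.Agent.FlatOrd.Model
import Fermat.Agent.LOC.Multiplicative

/-!
# Tame inertia on connected flat group schemes of order `9` over `ℤ_(3)` (L9, part B)

`F : FlatModel 3 M act`, `#M = 9`, `3 M = 0`, everything in the kernel of reduction, `M` irreducible
for the inertia group at a place `P` above `3`. Then an inertia element `σ₀` with
`σ₀ (3^{1/8}) = ξ 3^{1/8}`, `ξ` a primitive eighth root of unity, has trace `ξ + ξ³` (mod `P`)
if its determinant is `-1`.
-/

set_option autoImplicit false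
set_option linter.unusedSectionVars false

open Pointwise TensorProduct
open Fermat.Agent.FrobExists

namespace Fermat.Agent.L9.FlatTame

open Fermat.Agent.FlatOrd Fermat.Agent.FlatOrd.Model

local notation "Qbar" => AlgebraicClosure ℚ
local notation "GQ" => (AlgebraicClosure ℚ ≃ₐ[ℚ] AlgebraicClosure ℚ)

section place

variable (P : ValuationSubring Qbar)

theorem mem_nonunits_iff' {x : Qbar} : x ∈ P.nonunits ↔ P.valuation x < 1 := by
  rw [ValuationSubring.mem_nonunits_iff]

theorem valuation_lt_one_of_liesOver {ℓ : ℕ} (hP : P.LiesOverPrime ℓ) :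
    P.valuation (ℓ : Qbar) < 1 := (mem_nonunits_iff' P).mp hP

/-- The valuation of an element fixed by inertia is a power of that of `ℓ`. -/
theorem valuation_fixed {ℓ : ℕ} (hℓ : ℓ.Prime) (hP : P.LiesOverPrime ℓ) {t : Qbar} (ht0 : t ≠ 0)
    (ht : ∀ σ ∈ P.inertiaSubgroupIn ℚ, σ t = t) :
    ∃ k : ℤ, P.valuation t = P.valuation (ℓ : Qbar) ^ k := by
  have hℓ0 : (ℓ : Qbar) ≠ 0 := by exact_mod_cast hℓ.ne_zero
  have key : ∀ t : Qbar, t ≠ 0 → t ∈ P → (∀ σ ∈ P.inertiaSubgroupIn ℚ, σ t = t) →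
      ∃ k : ℤ, P.valuation t = P.valuation (ℓ : Qbar) ^ k := by
    intro t ht0 htP ht
    classical
    have hex := Unramified.exists_div_pow_notMem P hℓ hP t ht0
    obtain ⟨n, hn⟩ : ∃ n, Nat.find hex = n + 1 := by
      refine ⟨Nat.find hex - 1, ?_⟩
      have : Nat.find hex ≠ 0 := by
        intro h
        have h1 := Nat.find_spec hex
        rw [h, pow_zero, div_one] at h1
        exact h1 htP
      omega
    have h1 : t / (ℓ : Qbar) ^ n ∈ P := by
      by_contra h
      have := Nat.find_min' hex h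
      omega
    have h2 : t / (ℓ : Qbar) ^ (n + 1) ∉ P := by
      rw [← hn]
      exact Nat.find_spec hex
    have h3 : ∀ σ ∈ P.inertiaSubgroupIn ℚ, σ (t / (ℓ : Qbar) ^ n) = t / (ℓ : Qbar) ^ n :=
      fun σ hσ => by rw [map_div₀, map_pow, map_natCast, ht σ hσ]
    have h4 : t / (ℓ : Qbar) ^ n ∉ P.nonunits := by
      intro h
      obtain ⟨s, hs, hxs⟩ := Unramified.exists_eq_mul_of_fixed P hℓ hP _ h3 h
      apply h2
      have : t / (ℓ : Qbar) ^ (n + 1) = s := by
        rw [pow_succ, ← div_div, hxs]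
        field_simp
      rwa [this]
    rw [mem_nonunits_iff', not_lt] at h4
    have h5 := le_antisymm ((P.valuation_le_one_iff _).mpr h1) h4
    refine ⟨n, ?_⟩
    rw [map_div₀, map_pow, div_eq_one_iff_eq (pow_ne_zero _ ((Valuation.ne_zero_iff _).mpr hℓ0))]
      at h5
    rw [h5, zpow_natCast]
  rcases P.mem_or_inv_mem t with h | h
  · exact key t ht0 h ht
  · obtain ⟨k, hk⟩ := key t⁻¹ (inv_ne_zero ht0) h (fun σ hσ => by rw [map_inv₀, ht σ hσ])
    refine ⟨-k, ?_⟩
    rw [zpow_neg, ← hk, map_inv₀, inv_inv]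

/-- Inertia acts trivially on units, modulo the maximal ideal. -/
theorem valuation_sub_lt {σ : GQ} (hσ : σ ∈ P.inertiaSubgroupIn ℚ) {w : Qbar} (hw : w ∈ P) :
    P.valuation (σ w - w) < 1 :=
  (mem_nonunits_iff' P).mp (InertiaLift.sub_mem_nonunits_of_mem_inertia P hσ hw)

theorem valuation_inertia {σ : GQ} (hσ : σ ∈ P.inertiaSubgroupIn ℚ) (w : Qbar) :
    P.valuation (σ w) = P.valuation w :=
  LOC.decomposition_valuation P (LOC.mem_decomposition_of_inertia P hσ) w

theorem valuation_inertia_div {σ : GQ} (hσ : σ ∈ P.inertiaSubgroupIn ℚ) {w : Qbar} (hw : w ≠ 0) :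
    P.valuation (σ w / w) = 1 := by
  rw [map_div₀, valuation_inertia P hσ, div_self ((Valuation.ne_zero_iff _).mpr hw)]

end place

section model

variable {p : ℕ} {M : Type} [AddCommGroup M] {act : GQ →* AddMonoid.End M}
  (F : FlatModel p M act) (P : ValuationSubring Qbar)

/-- the function `x ↦ h(x) - h(0)`. -/
noncomputable def dl (x : M) (h : F.H) : Qbar := F.pt x h - F.pt 0 h

theorem dl_zero (h : F.H) : dl F 0 h = 0 := sub_self _

theorem dl_act (σ : GQ) (x : M) (h : F.H) : dl F (act σ x) h = σ (dl F x h) := by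
  have h0 : F.pt 0 h = σ (F.pt 0 h) := by
    conv_lhs => rw [← map_zero (act σ), F.pt_act]
  rw [dl, dl, map_sub, F.pt_act, ← h0]

theorem dl_mem (hP : P.LiesOverPrime p) (x : M) (h : F.H) : dl F x h ∈ P :=
  sub_mem (F.pt_mem P hP x h) (F.pt_mem P hP 0 h)

/-- the bilinear expression `Σ (a(x) - a(0)) (b(y) - b(0))`. -/
noncomputable def dd (x y : M) :
    F.H ⊗[GaloisRep.ratLocalizedAt p] F.H →ₗ[GaloisRep.ratLocalizedAt p] Qbar :=
  (Algebra.TensorProduct.lift (F.pt x) (F.pt y) (fun _ _ ↦ .all ..)).toLinearMap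
  - (Algebra.TensorProduct.lift (F.pt x) (F.pt 0) (fun _ _ ↦ .all ..)).toLinearMap
  - (Algebra.TensorProduct.lift (F.pt 0) (F.pt y) (fun _ _ ↦ .all ..)).toLinearMap
  + (Algebra.TensorProduct.lift (F.pt 0) (F.pt 0) (fun _ _ ↦ .all ..)).toLinearMap

theorem dd_tmul (x y : M) (a b : F.H) : dd F x y (a ⊗ₜ b) = dl F x a * dl F y b := by
  simp only [dd, LinearMap.add_apply, LinearMap.sub_apply, AlgHom.toLinearMap_apply,
    Algebra.TensorProduct.lift_tmul, dl]
  ring

theorem dd_comul (x y : M) (h : F.H) :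
    dd F x y (Coalgebra.comul (R := GaloisRep.ratLocalizedAt p) h) =
      dl F (x + y) h - dl F x h - dl F y h := by
  simp only [dd, LinearMap.add_apply, LinearMap.sub_apply, AlgHom.toLinearMap_apply]
  rw [← F.pt_add, ← F.pt_add, ← F.pt_add, ← F.pt_add, add_zero, zero_add, add_zero]
  simp only [dl]
  ring

variable {F P}

/-- bounds for the second differences -/
theorem dd_le {c : P.ValueGroup}
    (hc : ∀ x h, P.valuation (dl F x h) ≤ c) (x y : M)
    (t : F.H ⊗[GaloisRep.ratLocalizedAt p] F.H) : P.valuation (dd F x y t) ≤ c ^ 2 := by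
  induction t using TensorProduct.induction_on with
  | zero => rw [map_zero, map_zero]; exact zero_le
  | tmul a b =>
    rw [dd_tmul, map_mul, pow_two]
    exact mul_le_mul' (hc x a) (hc y b)
  | add s t hs ht =>
    rw [map_add]
    exact P.valuation.map_add_le hs ht

/-- bounds for the third differences -/
theorem ddd_le {c : P.ValueGroup}
    (hc : ∀ x h, P.valuation (dl F x h) ≤ c) (x x' y : M)
    (t : F.H ⊗[GaloisRep.ratLocalizedAt p] F.H) :
    P.valuation (dd F (x + x') y t - dd F x y t - dd F x' y t) ≤ c ^ 3 := by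
  induction t using TensorProduct.induction_on with
  | zero => simp only [map_zero, sub_zero]; exact zero_le
  | tmul a b =>
    rw [dd_tmul, dd_tmul, dd_tmul, ← sub_mul, ← sub_mul, map_mul, pow_succ, ← dd_comul]
    exact mul_le_mul' (dd_le hc x x' _) (hc y b)
  | add s t hs ht =>
    have e : dd F (x + x') y (s + t) - dd F x y (s + t) - dd F x' y (s + t) =
      (dd F (x + x') y s - dd F x y s - dd F x' y s) +
        (dd F (x + x') y t - dd F x y t - dd F x' y t) := by
      simp only [map_add]; ring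
    rw [e]
    exact P.valuation.map_add_le hs ht

variable (F P) in
/-- the largest value -/
theorem exists_max [Finite M] (hP : P.LiesOverPrime p) :
    ∃ (x₀ : M) (h₀ : F.H), ∀ x h, P.valuation (dl F x h) ≤ P.valuation (dl F x₀ h₀) := by
  classical
  obtain ⟨T, hT⟩ := Module.finite_def.mp F.instFinite
  let T' : Finset F.H := insert 0 T
  have hne : Nonempty (M × T') := ⟨(0, ⟨0, Finset.mem_insert_self _ _⟩)⟩
  obtain ⟨⟨x₀, h₀⟩, hmax⟩ := Finite.exists_max
    (fun z : M × T' => P.valuation (dl F z.1 (z.2 : F.H)))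
  refine ⟨x₀, h₀, fun x h => ?_⟩
  have hh : h ∈ Submodule.span (GaloisRep.ratLocalizedAt p) (T : Set F.H) :=
    hT ▸ Submodule.mem_top
  induction hh using Submodule.span_induction with
  | mem h hh => exact hmax (x, ⟨h, Finset.mem_insert_of_mem hh⟩)
  | zero => exact hmax (x, ⟨0, Finset.mem_insert_self _ _⟩)
  | add a b _ _ ha hb =>
    have : dl F x (a + b) = dl F x a + dl F x b := by simp only [dl, map_add]; ring
    rw [this]
    exact P.valuation.map_add_le ha hb
  | smul r h _ ih =>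
    have : dl F x (r • h) = ((r : ℚ) : Qbar) * dl F x h := by
      rw [dl, dl, map_smul, map_smul, Algebra.smul_def, Algebra.smul_def,
        FlatModel.algebraMap_eq]
      ring
    rw [this, map_mul]
    exact (mul_le_of_le_one_left' ((P.valuation_le_one_iff _).mpr (ratCast_mem P hP r))).trans ih

theorem dl_neg_bound {c : P.ValueGroup} (hc : ∀ x h, P.valuation (dl F x h) ≤ c) (x y : M)
    (h : F.H) : P.valuation (dl F (x + y) h - dl F x h - dl F y h) ≤ c ^ 2 := by
  rw [← dd_comul]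
  exact dd_le hc x y _

/-- If `3 x = 0` then `|3| |h(x)| ≤ max (|3| c², c³)`. -/
theorem three_mul_le {c : P.ValueGroup} (hc : ∀ x h, P.valuation (dl F x h) ≤ c) {x : M}
    (hx : (3 : ℕ) • x = 0) (h : F.H) :
    P.valuation (3 * dl F x h) ≤ max (P.valuation (3 : Qbar) * c ^ 2) (c ^ 3) := by
  set δ := dl F x h with hδ
  set δ2 := dl F (x + x) h with hδ2
  have h3 : dl F (x + x + x) h = 0 := by
    have : x + x + x = 0 := by rw [← hx]; abel
    rw [this, dl_zero]
  have e1 : P.valuation (δ2 - δ - δ) ≤ c ^ 2 := dl_neg_bound hc x x h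
  have e2 : P.valuation (dl F (x + x + x) h - δ2 - δ - (δ2 - δ - δ) - (δ2 - δ - δ)) ≤ c ^ 3 := by
    have := ddd_le hc x x x (Coalgebra.comul (R := GaloisRep.ratLocalizedAt p) h)
    rwa [dd_comul, dd_comul] at this
  have e : 3 * δ = -(3 * (δ2 - δ - δ)) - (dl F (x + x + x) h - δ2 - δ - (δ2 - δ - δ) -
      (δ2 - δ - δ)) := by
    rw [h3]; ring
  rw [e]
  refine (P.valuation.map_sub _ _).trans (max_le_max ?_ e2)
  rw [Valuation.map_neg, map_mul]
  exact mul_le_mul_right e1 _

/-- Lower bound: `|3| ≤ c²`. -/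
theorem three_le_sq {x₀ : M} {h₀ : F.H}
    (hmax : ∀ x h, P.valuation (dl F x h) ≤ P.valuation (dl F x₀ h₀))
    (hlt : P.valuation (dl F x₀ h₀) < 1) (hne : dl F x₀ h₀ ≠ 0) (hx : (3 : ℕ) • x₀ = 0) :
    P.valuation (3 : Qbar) ≤ P.valuation (dl F x₀ h₀) ^ 2 := by
  set c := P.valuation (dl F x₀ h₀) with hc
  have hc0 : 0 < c := (Valuation.pos_iff _).mpr hne
  have h3 : (0 : P.ValueGroup) < P.valuation (3 : Qbar) := (Valuation.pos_iff _).mpr (by norm_num)
  have h1 := three_mul_le hmax hx h₀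
  rw [map_mul, ← hc] at h1
  have h2 : P.valuation (3 : Qbar) * c ^ 2 < P.valuation (3 : Qbar) * c := by
    refine mul_lt_mul_of_pos_left ?_ h3
    rw [pow_two]
    exact mul_lt_of_lt_one_left hc0 hlt
  have h4 : P.valuation (3 : Qbar) * c ≤ c ^ 3 := by
    rcases le_max_iff.mp h1 with h | h
    · exact absurd h2 (not_lt.mpr h)
    · exact h
  have h5 : P.valuation (3 : Qbar) * c ≤ c ^ 2 * c := by rwa [← pow_succ]
  exact le_of_mul_le_mul_right h5 hc0

end model

section residue

variable (P : ValuationSubring Qbar)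

/-- reduction modulo the maximal ideal of `P` (junk value `0` outside of `P`) -/
noncomputable def rd (t : Qbar) : IsLocalRing.ResidueField P :=
  open Classical in if h : t ∈ P then IsLocalRing.residue P ⟨t, h⟩ else 0

theorem rd_of_mem {t : Qbar} (h : t ∈ P) : rd P t = IsLocalRing.residue P ⟨t, h⟩ := dif_pos h

theorem rd_add {s t : Qbar} (hs : s ∈ P) (ht : t ∈ P) : rd P (s + t) = rd P s + rd P t := by
  rw [rd_of_mem P hs, rd_of_mem P ht, rd_of_mem P (add_mem hs ht), ← map_add]
  rfl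

theorem rd_sub {s t : Qbar} (hs : s ∈ P) (ht : t ∈ P) : rd P (s - t) = rd P s - rd P t := by
  rw [rd_of_mem P hs, rd_of_mem P ht, rd_of_mem P (sub_mem hs ht), ← map_sub]
  rfl

theorem rd_mul {s t : Qbar} (hs : s ∈ P) (ht : t ∈ P) : rd P (s * t) = rd P s * rd P t := by
  rw [rd_of_mem P hs, rd_of_mem P ht, rd_of_mem P (mul_mem hs ht), ← map_mul]
  rfl

theorem rd_one : rd P 1 = 1 := by
  rw [rd_of_mem P (one_mem P), ← map_one (IsLocalRing.residue P)]
  rfl

theorem rd_pow {s : Qbar} (hs : s ∈ P) (n : ℕ) : rd P (s ^ n) = rd P s ^ n := by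
  induction n with
  | zero => rw [pow_zero, pow_zero, rd_one]
  | succ n ih => rw [pow_succ, pow_succ, rd_mul P (pow_mem hs n) hs, ih]

theorem rd_eq_zero_iff {s : Qbar} (hs : s ∈ P) : rd P s = 0 ↔ P.valuation s < 1 := by
  rw [rd_of_mem P hs, IsLocalRing.residue_eq_zero_iff, ← mem_nonunits_iff',
    ← ValuationSubring.coe_mem_nonunits_iff]

theorem rd_eq_of_sub {s t : Qbar} (hs : s ∈ P) (ht : t ∈ P) (h : P.valuation (s - t) < 1) :
    rd P s = rd P t := by
  rw [← sub_eq_zero, ← rd_sub P hs ht, rd_eq_zero_iff P (sub_mem hs ht)]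
  exact h

theorem rd_inertia {σ : GQ} (hσ : σ ∈ P.inertiaSubgroupIn ℚ) {w : Qbar} (hw : w ∈ P) :
    rd P (σ w) = rd P w := by
  refine rd_eq_of_sub P ?_ hw (valuation_sub_lt P hσ hw)
  rw [← P.valuation_le_one_iff, valuation_inertia P hσ, P.valuation_le_one_iff]
  exact hw

/-- a unit has `rd (σ w / w) = 1`. -/
theorem rd_inertia_div_unit {σ : GQ} (hσ : σ ∈ P.inertiaSubgroupIn ℚ) {w : Qbar}
    (hw : P.valuation w = 1) : rd P (σ w / w) = 1 := by
  have hw0 : w ≠ 0 := by
    rintro rfl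
    rw [map_zero] at hw
    exact zero_ne_one hw
  have hm : σ w / w ∈ P := by
    rw [← P.valuation_le_one_iff, valuation_inertia_div P hσ hw0]
  rw [← rd_one]
  refine rd_eq_of_sub P hm (one_mem P) ?_
  have : σ w / w - 1 = (σ w - w) / w := by field_simp
  rw [this, map_div₀, hw, div_one]
  exact valuation_sub_lt P hσ ((P.valuation_le_one_iff _).mp hw.le)

theorem rd_natCast (n : ℕ) : rd P (n : Qbar) = n := by
  rw [rd_of_mem P (natCast_mem P n), ← map_natCast (IsLocalRing.residue P)]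
  rfl

theorem rd_intCast (n : ℤ) : rd P (n : Qbar) = n := by
  rw [rd_of_mem P (intCast_mem P n), ← map_intCast (IsLocalRing.residue P)]
  rfl

theorem natCast_eq_zero {ℓ : ℕ} (hP : P.LiesOverPrime ℓ) : (ℓ : IsLocalRing.ResidueField P) = 0 := by
  rw [← rd_natCast, rd_eq_zero_iff P (natCast_mem P ℓ)]
  exact valuation_lt_one_of_liesOver P hP

end residue

section leading

variable {p : ℕ} {M : Type} [AddCommGroup M] {act : GQ →* AddMonoid.End M}
  (F : FlatModel p M act) (P : ValuationSubring Qbar)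

/-- The leading coefficient map `M → κ(P)`. -/
noncomputable def lead (x₀ : M) (h₀ : F.H)
    (hmax : ∀ x h, P.valuation (dl F x h) ≤ P.valuation (dl F x₀ h₀))
    (hlt : P.valuation (dl F x₀ h₀) < 1) (hne : dl F x₀ h₀ ≠ 0) :
    M →+ IsLocalRing.ResidueField P :=
  AddMonoidHom.mk' (fun x => rd P (dl F x h₀ / dl F x₀ h₀)) (by
    intro x y
    have hm : ∀ x, dl F x h₀ / dl F x₀ h₀ ∈ P := fun x => by
      rw [← P.valuation_le_one_iff, map_div₀]
      exact div_le_one_of_le₀ (hmax x h₀) zero_le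
    rw [← rd_add P (hm x) (hm y)]
    refine rd_eq_of_sub P (hm _) (add_mem (hm x) (hm y)) ?_
    have e : dl F (x + y) h₀ / dl F x₀ h₀ - (dl F x h₀ / dl F x₀ h₀ + dl F y h₀ / dl F x₀ h₀) =
      (dl F (x + y) h₀ - dl F x h₀ - dl F y h₀) / dl F x₀ h₀ := by ring
    rw [e, map_div₀]
    have hc0 : 0 < P.valuation (dl F x₀ h₀) := (Valuation.pos_iff _).mpr hne
    rw [div_lt_one₀ hc0]
    refine (dl_neg_bound hmax x y h₀).trans_lt ?_
    rw [pow_two]
    exact mul_lt_of_lt_one_left hc0 hlt)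

variable {F P} {x₀ : M} {h₀ : F.H}
    {hmax : ∀ x h, P.valuation (dl F x h) ≤ P.valuation (dl F x₀ h₀)}
    {hlt : P.valuation (dl F x₀ h₀) < 1} {hne : dl F x₀ h₀ ≠ 0}

theorem lead_apply (x : M) :
    lead F P x₀ h₀ hmax hlt hne x = rd P (dl F x h₀ / dl F x₀ h₀) := rfl

theorem div_mem (hmax : ∀ x h, P.valuation (dl F x h) ≤ P.valuation (dl F x₀ h₀)) (x : M) :
    dl F x h₀ / dl F x₀ h₀ ∈ P := by
  rw [← P.valuation_le_one_iff, map_div₀]
  exact div_le_one_of_le₀ (hmax x h₀) zero_le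

theorem lead_self : lead F P x₀ h₀ hmax hlt hne x₀ = 1 := by
  rw [lead_apply, div_self hne, rd_one]

theorem lead_act {σ : GQ} (hσ : σ ∈ P.inertiaSubgroupIn ℚ) (x : M) :
    lead F P x₀ h₀ hmax hlt hne (act σ x) =
      rd P (σ (dl F x₀ h₀) / dl F x₀ h₀) * lead F P x₀ h₀ hmax hlt hne x := by
  have hσne : σ (dl F x₀ h₀) ≠ 0 := (map_ne_zero σ).mpr hne
  have hθ : σ (dl F x₀ h₀) / dl F x₀ h₀ ∈ P := by
    rw [← P.valuation_le_one_iff, valuation_inertia_div P hσ hne]
  have hm := div_mem hmax x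
  rw [lead_apply, lead_apply, dl_act, ← rd_inertia P hσ hm, ← rd_mul P hθ ?_]
  · congr 1
    rw [map_div₀]
    field_simp
  · rw [← P.valuation_le_one_iff, valuation_inertia P hσ, P.valuation_le_one_iff]
    exact hm

theorem valuation_of_lead_ne_zero {x : M} (h : lead F P x₀ h₀ hmax hlt hne x ≠ 0) :
    P.valuation (dl F x h₀) = P.valuation (dl F x₀ h₀) := by
  refine le_antisymm (hmax x h₀) ?_
  rw [lead_apply, Ne, rd_eq_zero_iff P (div_mem hmax x), not_lt, map_div₀] at h
  rwa [one_le_div₀ ((Valuation.pos_iff _).mpr hne)] at h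

/-- the action of a group element as a permutation -/
noncomputable def actEquiv (act : GQ →* AddMonoid.End M) (σ : GQ) : M ≃ M where
  toFun := act σ
  invFun := act σ⁻¹
  left_inv x := by
    show (act σ⁻¹ * act σ) x = x
    rw [← map_mul, inv_mul_cancel, map_one]; rfl
  right_inv x := by
    show (act σ * act σ⁻¹) x = x
    rw [← map_mul, mul_inv_cancel, map_one]; rfl

theorem actEquiv_apply (σ : GQ) (x : M) : actEquiv act σ x = act σ x := rfl

theorem act_eq_zero_iff (σ : GQ) (x : M) : act σ x = 0 ↔ x = 0 := by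
  refine ⟨fun h => (actEquiv act σ).injective ?_, fun h => by rw [h, map_zero]⟩
  rw [actEquiv_apply, actEquiv_apply, h, map_zero]

/-- if the leading coefficient map is injective, `|z₀|^(#M - 1)` is a power of `|p|` -/
theorem exists_zpow_of_injective [Finite M] (hp : p.Prime) (hP : P.LiesOverPrime p)
    (hinj : Function.Injective (lead F P x₀ h₀ hmax hlt hne)) :
    ∃ j : ℤ, P.valuation (dl F x₀ h₀) ^ (Nat.card M - 1) = P.valuation (p : Qbar) ^ j := by
  classical
  have : Fintype M := Fintype.ofFinite M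
  let f : M → Qbar := fun x => if x = 0 then 1 else dl F x h₀
  have hval : ∀ x, x ≠ 0 → P.valuation (dl F x h₀) = P.valuation (dl F x₀ h₀) := fun x hx =>
    valuation_of_lead_ne_zero (hmax := hmax) (hlt := hlt) (hne := hne) (fun h => hx (hinj (by
      rw [h, map_zero])))
  have hne' : ∀ x, x ≠ 0 → dl F x h₀ ≠ 0 := fun x hx h => by
    have := hval x hx
    rw [h, map_zero] at this
    exact hne ((map_eq_zero P.valuation).mp this.symm)
  obtain ⟨j, hj⟩ := valuation_fixed P hp hP (t := ∏ x, f x) (by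
    refine Finset.prod_ne_zero_iff.mpr fun x _ => ?_
    by_cases hx : x = 0
    · simp only [f, if_pos hx]; exact one_ne_zero
    · simp only [f, if_neg hx]; exact hne' x hx) (by
    intro σ hσ
    rw [map_prod, ← Equiv.prod_comp (actEquiv act σ) f]
    refine Finset.prod_congr rfl fun x _ => ?_
    by_cases hx : x = 0
    · subst hx
      have : actEquiv act σ 0 = 0 := map_zero (act σ)
      simp only [f, this, if_true, map_one]
    · have : ¬ actEquiv act σ x = 0 := fun h => hx ((act_eq_zero_iff σ x).mp h)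
      simp only [f, if_neg hx, if_neg this]
      rw [actEquiv_apply, dl_act])
  refine ⟨j, ?_⟩
  rw [← hj, map_prod]
  have h1 : ∀ x, P.valuation (f x) = if x = 0 then 1 else P.valuation (dl F x₀ h₀) := by
    intro x
    by_cases hx : x = 0
    · simp only [f, if_pos hx, map_one]
    · simp only [f, if_neg hx]; exact hval x hx
  rw [Finset.prod_congr rfl fun x _ => h1 x, Finset.prod_ite, Finset.prod_const_one, one_mul,
    Finset.prod_const]
  congr 1
  rw [Finset.filter_not, Finset.filter_eq' Finset.univ (0 : M), if_pos (Finset.mem_univ _),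
    ← Finset.erase_eq, Finset.card_erase_of_mem (Finset.mem_univ _), Finset.card_univ,
    Nat.card_eq_fintype_card]

end leading

section main

variable {M : Type} [AddCommGroup M] {act : GQ →* AddMonoid.End M}

/-- **Lemma F.** -/
theorem trace_eq [Finite M] (F : FlatModel 3 M act) (P : ValuationSubring Qbar)
    (hP : P.LiesOverPrime 3) (hcard : Nat.card M = 9) (h3 : ∀ x : M, (3 : ℕ) • x = 0)
    (hker : F.kerRed P hP = ⊤)
    (hirr : ∀ N : AddSubgroup M, (∀ σ ∈ P.inertiaSubgroupIn ℚ, ∀ x ∈ N, act σ x ∈ N) →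
      N = ⊥ ∨ N = ⊤)
    {π ξ : Qbar} (hπ : π ^ 8 = 3) (hξ4 : ξ ^ 4 = -1) {σ₀ : GQ} (hσ₀ : σ₀ ∈ P.inertiaSubgroupIn ℚ)
    (hσπ : σ₀ π = ξ * π) (t : ℤ) (hCH : ∀ x : M, act σ₀ (act σ₀ x) = t • act σ₀ x + x)
    (hneg : ∃ x : M, act σ₀ x ≠ -x) :
    (t : IsLocalRing.ResidueField P) = rd P ξ + rd P ξ ^ 3 := by
  have hp := Nat.prime_three
  obtain ⟨x₀, h₀, hmax⟩ := exists_max F P hP
  set z₀ := dl F x₀ h₀ with hz₀
  have hne : z₀ ≠ 0 := by
    intro h0
    have hall : ∀ x h, dl F x h = 0 := fun x h => by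
      have := hmax x h
      rw [h0, map_zero] at this
      exact (map_eq_zero P.valuation).mp (le_antisymm this zero_le)
    have hsub : ∀ x : M, x = 0 := fun x => F.pt_injective (by
      ext h
      exact sub_eq_zero.mp (hall x h))
    obtain ⟨x, hx⟩ := hneg
    apply hx
    rw [hsub (act σ₀ x), hsub (-x)]
  have hlt : P.valuation z₀ < 1 := by
    have h1 : x₀ ∈ F.kerRed P hP := hker ▸ AddSubgroup.mem_top x₀
    exact (mem_nonunits_iff' P).mp (h1 h₀)
  set L := lead F P x₀ h₀ hmax hlt hne with hL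
  have hinj : Function.Injective L := by
    rw [injective_iff_map_eq_zero]
    rcases hirr L.ker (fun σ hσ x hx => by
      rw [AddMonoidHom.mem_ker] at hx ⊢
      rw [hL, lead_act hσ, ← hL, hx, mul_zero]) with h | h
    · intro x hx
      have : x ∈ L.ker := hx
      rwa [h, AddSubgroup.mem_bot] at this
    · exfalso
      have : x₀ ∈ L.ker := h ▸ AddSubgroup.mem_top x₀
      rw [AddMonoidHom.mem_ker, hL, lead_self] at this
      exact one_ne_zero this
  obtain ⟨j, hj⟩ := exists_zpow_of_injective hp hP hinj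
  rw [hcard] at hj
  -- `1 ≤ j ≤ 4`
  have h3lt : P.valuation ((3 : ℕ) : Qbar) < 1 := valuation_lt_one_of_liesOver P hP
  have h3pos : (0 : P.ValueGroup) < P.valuation ((3 : ℕ) : Qbar) :=
    (Valuation.pos_iff _).mpr (by norm_num)
  have hj1 : 0 < j := by
    by_contra hcon
    have h1 : (1 : P.ValueGroup) ≤ P.valuation ((3 : ℕ) : Qbar) ^ j :=
      one_le_zpow_of_nonpos₀ h3pos h3lt.le (not_lt.mp hcon)
    rw [← hj] at h1
    have h2 : P.valuation z₀ ^ (9 - 1) < 1 := pow_lt_one₀ zero_le hlt (by norm_num)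
    exact absurd h1 (not_le.mpr h2)
  have hj4 : j ≤ 4 := by
    have h1 := three_le_sq hmax hlt hne (h3 x₀)
    have h2 : P.valuation ((3 : ℕ) : Qbar) ^ (4 : ℤ) ≤ P.valuation ((3 : ℕ) : Qbar) ^ j := by
      rw [← hj]
      have h5 : P.valuation ((3 : ℕ) : Qbar) ^ (4 : ℤ) = P.valuation (3 : Qbar) ^ 4 := by
        norm_cast
      rw [h5]
      calc P.valuation (3 : Qbar) ^ 4 ≤ (P.valuation z₀ ^ 2) ^ 4 := pow_le_pow_left₀ zero_le h1 4
        _ = P.valuation z₀ ^ (9 - 1) := by rw [← pow_mul]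
    exact (zpow_le_zpow_iff_right_of_lt_one₀ h3pos h3lt).mp h2
  obtain ⟨n, rfl⟩ : ∃ n : ℕ, j = n := ⟨j.toNat, (Int.toNat_of_nonneg hj1.le).symm⟩
  have hn1 : 1 ≤ n := by omega
  have hn4 : n ≤ 4 := by omega
  -- `z₀ = π ^ n * w`
  have hπ0 : π ≠ 0 := by
    rintro rfl
    norm_num at hπ
  set w := z₀ / π ^ n with hw
  have hz₀w : z₀ = π ^ n * w := by rw [hw]; field_simp
  have hw1 : P.valuation w = 1 := by
    have h1 : P.valuation w ^ 8 = 1 := by
      rw [hw, map_div₀, map_pow, div_pow, ← pow_mul, mul_comm n 8, pow_mul, ← map_pow P.valuation π,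
        hπ]
      have h5 : P.valuation (3 : Qbar) ^ n = P.valuation ((3 : ℕ) : Qbar) ^ (n : ℤ) := by
        norm_cast
      rw [h5, ← hj]
      have h6 : P.valuation z₀ ^ (9 - 1) ≠ 0 := pow_ne_zero _ ((Valuation.ne_zero_iff _).mpr hne)
      exact div_self h6
    rcases lt_trichotomy (P.valuation w) 1 with h | h | h
    · exact absurd h1 (pow_lt_one₀ zero_le h (by norm_num)).ne
    · exact h
    · exact absurd h1 (one_lt_pow₀ h (by norm_num)).ne'
  have hw0 : w ≠ 0 := by
    intro h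
    rw [h, map_zero] at hw1
    exact zero_ne_one hw1
  have hξP : ξ ∈ P := by
    rw [← P.valuation_le_one_iff]
    by_contra hcon
    have h1 : 1 < P.valuation ξ ^ 4 := one_lt_pow₀ (not_le.mp hcon) (by norm_num)
    rw [← map_pow, hξ4, Valuation.map_neg, map_one] at h1
    exact lt_irrefl _ h1
  set ζ := rd P ξ with hζ
  have hζ4 : ζ ^ 4 = -1 := by
    rw [hζ, ← rd_pow P hξP, hξ4, ← rd_one P, eq_neg_iff_add_eq_zero, ← rd_add P
      (neg_mem (one_mem P)) (one_mem P), neg_add_cancel, rd_eq_zero_iff P (zero_mem P), map_zero]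
    exact zero_lt_one
  have h30 : (3 : IsLocalRing.ResidueField P) = 0 := by
    have := natCast_eq_zero P hP
    exact_mod_cast this
  have hζ0 : ζ ≠ 0 := by
    intro h
    rw [h] at hζ4
    norm_num at hζ4
  -- the eigenvalue
  have hθ : rd P (σ₀ z₀ / z₀) = ζ ^ n := by
    have h1 : σ₀ z₀ / z₀ = ξ ^ n * (σ₀ w / w) := by
      rw [hz₀w, map_mul, map_pow, hσπ, mul_pow]
      field_simp
    have hm : σ₀ w / w ∈ P := by
      rw [← P.valuation_le_one_iff, valuation_inertia_div P hσ₀ hw0]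
    rw [h1, rd_mul P (pow_mem hξP n) hm, rd_pow P hξP, rd_inertia_div_unit P hσ₀ hw1, mul_one]
  have hLact : ∀ x, L (act σ₀ x) = ζ ^ n * L x := fun x => by
    rw [hL, lead_act hσ₀, ← hz₀, hθ]
  have hL0 : L x₀ = 1 := lead_self
  have hquad : (ζ ^ n) ^ 2 = t * ζ ^ n + 1 := by
    have h1 := congrArg L (hCH x₀)
    rw [map_add, map_zsmul, hLact, hLact, hL0, zsmul_eq_mul] at h1
    linear_combination h1
  have hcases : n = 1 ∨ n = 2 ∨ n = 3 ∨ n = 4 := by omega
  rcases hcases with rfl | rfl | rfl | rfl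
  · apply mul_right_cancel₀ hζ0
    linear_combination -hquad - hζ4
  · exfalso
    -- `t² = -1`
    have h1 : (t : IsLocalRing.ResidueField P) ^ 2 = -1 := by
      have h2 : (t : IsLocalRing.ResidueField P) * ζ ^ 2 = 1 := by
        linear_combination -hquad + hζ4 - h30
      have h3 : ((t : IsLocalRing.ResidueField P) * ζ ^ 2) ^ 2 = 1 := by rw [h2, one_pow]
      linear_combination -h3 + (t : IsLocalRing.ResidueField P) ^ 2 * hζ4
    have h2 : t % 3 = 0 ∨ t % 3 = 1 ∨ t % 3 = 2 := by omega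
    have h3 : (t : IsLocalRing.ResidueField P) = ((t % 3 : ℤ) : IsLocalRing.ResidueField P) := by
      conv_lhs => rw [← Int.emod_add_mul_ediv t 3]
      push_cast
      rw [h30]; ring
    have h4 : (1 : IsLocalRing.ResidueField P) ≠ 0 := one_ne_zero
    rcases h2 with h | h | h <;> rw [h3, h] at h1 <;> push_cast at h1 <;> apply h4
    · linear_combination h1
    · linear_combination h30 - h1
    · linear_combination 2 * h30 - h1
  · apply mul_right_cancel₀ (pow_ne_zero 3 hζ0)
    linear_combination -hquad - hζ4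
  · exfalso
    obtain ⟨x, hx⟩ := hneg
    apply hx
    apply hinj
    rw [hLact, hζ4, map_neg, neg_one_mul]

end main

end Fermat.Agent.L9.FlatTame
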