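import Fermat.Agent.L9.Twist
import Fermat.Agent.CMP.OrderDVR
import Fermat.Agent.CMP.EigenCharOn
import Fermat.Agent.S32Wiring
import Fermat.Agent.DR.AllInputs
import Fermat.Agent.S19

/-!
# Glueing: characters of the Hecke algebra congruent to `ℓ a_ℓ(W)` (L9)
-/

set_option autoImplicit false
set_option linter.unusedSectionVars false

open Polynomial TensorProduct IsLocalRing CongruenceSubgroup

namespace Fermat.Agent.L9.Glue

open Fermat.Agent.L9.Omega Fermat.Agent.L9.Twist Fermat.Agent.Cyclotomic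

local notation "Qbar" => AlgebraicClosure ℚ
local notation "GQ" => (AlgebraicClosure ℚ ≃ₐ[ℚ] AlgebraicClosure ℚ)

/-- An eigenform with a maximal ideal of `ℤ̄` over `p` gives a point of the Hecke algebra with
values in a complete discrete valuation ring. -/
theorem exists_point {N : ℕ} [NeZero N] (S : Finset ℕ) {g : CuspForm (Gamma0 N) 2}
    (hg : g.IsNormalizedEigenform) (p : ℕ) [Fact p.Prime] (𝔪 : Ideal (integralClosure ℤ ℂ))
    (h𝔪 : 𝔪.IsMaximal) (hp𝔪 : ((p : ℕ) : integralClosure ℤ ℂ) ∈ 𝔪) :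
    ∃ (O : Type) (_ : CommRing O) (_ : IsDomain O) (_ : IsDiscreteValuationRing O)
      (_ : IsAdicComplete (maximalIdeal O) O) (_ : Finite (ResidueField O)) (_ : CharZero O),
      (p : O) ∈ maximalIdeal O ∧
      ∃ χ : CuspForm.heckeAlgebra N 2 (↑S : Set ℕ) →+* O,
        ∀ (ℓ : ℕ) (hℓ : ℓ.Prime) (hℓN : ¬ ℓ ∣ N) (hℓS : ℓ ∉ (↑S : Set ℕ))
          (c : integralClosure ℤ ℂ) (a : ℤ), (c : ℂ) = ModularFormClass.qCoeff g ℓ →
          c - (a : integralClosure ℤ ℂ) ∈ 𝔪 →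
          χ (CuspForm.heckeAlgebra.T hℓ hℓN hℓS) - (a : O) ∈ maximalIdeal O := by
  classical
  let R := (CMP.EigenCharOn.eigenCharOn (↑S : Set ℕ) hg).range
  have hfin : Module.Finite ℤ R := CMP.EigenCharOn.finite_range (↑S : Set ℕ) hg
  have hint : Algebra.IsIntegral ℤ R := Algebra.IsIntegral.of_finite ℤ R
  let ι : R →+* integralClosure ℤ ℂ :=
    { toFun := fun r => ⟨(r : ℂ), (hint.isIntegral r).map (R.subtype.toIntAlgHom)⟩
      map_one' := rfl
      map_mul' := fun _ _ => rfl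
      map_zero' := rfl
      map_add' := fun _ _ => rfl }
  have hι : ι.IsIntegral := by
    have h1 : (ι.comp (algebraMap ℤ R)).IsIntegral := by
      have h2 : ι.comp (algebraMap ℤ R) = algebraMap ℤ (integralClosure ℤ ℂ) := RingHom.ext_int _ _
      rw [h2]
      exact algebraMap_isIntegral_iff.mpr inferInstance
    exact RingHom.IsIntegral.tower_top _ _ h1
  let 𝔪R : Ideal R := 𝔪.comap ι
  have h𝔪R : 𝔪R.IsMaximal := Ideal.isMaximal_comap_of_isIntegral_of_isMaximal' ι hι 𝔪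
  have hp𝔪R : (p : R) ∈ 𝔪R := by
    rw [Ideal.mem_comap, map_natCast]
    exact hp𝔪
  have htf : Module.IsTorsionFree ℤ R := inferInstance
  obtain ⟨O, iO, i1, i2, i3, i4, i5, i6, i7, i8, -, hpO, f, hf, -⟩ :=
    CMP.OrderDVR.exists_dvr_of_order p R 𝔪R hp𝔪R
  refine ⟨O, iO, i1, i2, i3, i4, i5, hpO,
    f.comp (CMP.EigenCharOn.eigenCharOn (↑S : Set ℕ) hg).rangeRestrict, ?_⟩
  intro ℓ hℓ hℓN hℓS c a hc hca
  have h1 : (CMP.EigenCharOn.eigenCharOn (↑S : Set ℕ) hg).rangeRestrict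
      (CuspForm.heckeAlgebra.T hℓ hℓN hℓS) - (a : R) ∈ 𝔪R := by
    rw [Ideal.mem_comap]
    have h2 : ι ((CMP.EigenCharOn.eigenCharOn (↑S : Set ℕ) hg).rangeRestrict
      (CuspForm.heckeAlgebra.T hℓ hℓN hℓS) - (a : R)) = c - (a : integralClosure ℤ ℂ) := by
      rw [map_sub, map_intCast]
      congr 1
      refine Subtype.ext ?_
      rw [hc]
      exact CMP.EigenCharOn.eigenCharOn_T (↑S : Set ℕ) hg hℓ hℓN hℓS
    rw [h2]
    exact hca
  rw [← hf, Ideal.mem_comap, map_sub, map_intCast] at h1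
  exact h1

/-- reduction of the charpoly -/
theorem residual_charpoly {O : Type} [CommRing O] [IsLocalRing O] (ρ : GaloisRepAdic O) (σ : GQ)
    {t d : O} (h : LinearMap.charpoly (ρ.ρ σ) = X ^ 2 - C t * X + C d) :
    LinearMap.charpoly (ρ.residual.ρ σ) =
      X ^ 2 - C (residue O t) * X + C (residue O d) := by
  have h1 : LinearMap.charpoly (ρ.residual.ρ σ) = (LinearMap.charpoly (ρ.ρ σ)).map (residue O) :=
    LinearMap.charpoly_baseChange (ρ.ρ σ) (ResidueField O)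
  rw [h1, h]
  simp

section

variable {W : WeierstrassCurve ℤ} {O : Type} [CommRing O] [IsDomain O]
  [IsDiscreteValuationRing O] [IsAdicComplete (maximalIdeal O) O] [Finite (ResidueField O)]
  [CharZero O]

/-- The condition that a character of the Hecke algebra is congruent to `ℓ a_ℓ(W)`. -/
def TwistCongr (W : WeierstrassCurve ℤ) {N : ℕ} [NeZero N] {S : Finset ℕ}
    (χ : CuspForm.heckeAlgebra N 2 (↑S : Set ℕ) →+* O) : Prop :=
  ∀ (ℓ : ℕ) (hℓ : ℓ.Prime) (hℓN : ¬ ℓ ∣ N) (hℓS : ℓ ∉ (↑S : Set ℕ)),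
    χ (CuspForm.heckeAlgebra.T hℓ hℓN hℓS) - (((ℓ : ℤ) * W.apOfModel ℓ : ℤ) : O) ∈ maximalIdeal O

theorem charP_residueField {O : Type} [CommRing O] [IsLocalRing O] {p : ℕ} (hp : p.Prime)
    (h : (p : O) ∈ maximalIdeal O) : CharP (ResidueField O) p := by
  have h0 : ((p : ℕ) : ResidueField O) = 0 := by
    rw [← map_natCast (residue O), residue_eq_zero_iff]
    exact h
  have : Fact p.Prime := ⟨hp⟩
  exact (CharP.charP_iff_prime_eq_zero hp).mpr h0

/-- The representation attached to a point congruent to `ℓ a_ℓ(W)`, with its comparison with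
`W[3] ⊗ ω`. -/
theorem exists_rep (hΔ : W.Δ ≠ 0) (hirr : W.ModRepIsIrreducible 3) {N : ℕ} [NeZero N]
    {S : Finset ℕ} (h3S : 3 ∈ S) (hNS : ∀ q : ℕ, q.Prime → q ∣ N → q ∈ S)
    (h3O : ((3 : ℕ) : O) ∈ maximalIdeal O)
    (χ : CuspForm.heckeAlgebra N 2 (↑S : Set ℕ) →+* O) (hχ : TwistCongr W χ) :
    ∃ ρ : GaloisRepAdic O,
      (∀ (ℓ : ℕ) (hℓ : ℓ.Prime) (hℓN : ¬ ℓ ∣ N) (hℓS : ℓ ∉ (↑S : Set ℕ)),
        ∀ A : ValuationSubring (AlgebraicClosure ℚ), A.LiesOverPrime ℓ →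
          ∀ σ : AlgebraicClosure ℚ ≃ₐ[ℚ] AlgebraicClosure ℚ, A.IsFrobeniusAt σ ℓ →
            LinearMap.charpoly (ρ.ρ σ) =
              X ^ 2 - C (χ (CuspForm.heckeAlgebra.T hℓ hℓN hℓS)) * X + C ((ℓ : O))) ∧
      ρ.residual.IsAbsolutelyIrreducible ∧ ∃ j : M3 W →+ ρ.residual.V, Function.Injective j ∧
        Submodule.span (ResidueField O) (Set.range j) = ⊤ ∧
        ∀ (σ : GQ) (x : M3 W), j (twAct om (act3 W) σ x) = ρ.residual.ρ σ (j x) := by
  have : Fact (Nat.Prime 3) := ⟨Nat.prime_three⟩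
  obtain ⟨ρ, hρ, -⟩ := S30Wiring.exists_galoisRepAdic_of_point h3S hNS
    (GAL.Final.s30_inputs DR.allInputs 3 N S) O h3O χ
  have hchar := charP_residueField Nat.prime_three h3O
  refine ⟨ρ, hρ, exists_embedding hΔ hirr ρ.residual S ?_⟩
  intro ℓ hℓ hℓS A hA σ hσ
  have hℓN : ¬ ℓ ∣ N := fun h => hℓS (hNS ℓ hℓ h)
  have hℓS' : ℓ ∉ (↑S : Set ℕ) := fun h => hℓS (Finset.mem_coe.mp h)
  rw [residual_charpoly ρ σ (hρ ℓ hℓ hℓN hℓS' A hA σ hσ)]
  have h1 := hχ ℓ hℓ hℓN hℓS'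
  rw [← residue_eq_zero_iff, map_sub, map_intCast, sub_eq_zero] at h1
  rw [h1, map_natCast]

end

end Fermat.Agent.L9.Glue

namespace Fermat.Agent.L9.Glue

open Fermat.Agent.L9.Omega Fermat.Agent.L9.Twist Fermat.Agent.Cyclotomic Fermat.FlatModel

local notation "Qbar" => AlgebraicClosure ℚ
local notation "GQ" => (AlgebraicClosure ℚ ≃ₐ[ℚ] AlgebraicClosure ℚ)

section

variable {W : WeierstrassCurve ℤ} {O : Type} [CommRing O] [IsDomain O]
  [IsDiscreteValuationRing O] [IsAdicComplete (maximalIdeal O) O] [Finite (ResidueField O)]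
  [CharZero O]

/-- the residual representation is `V / 𝔪 V`. -/
theorem exists_residual_equiv {A : Type} [CommRing A] [IsLocalRing A] (ρ : GaloisRepAdic A) :
    ∃ e : ρ.residual.V ≃+ (ρ.V ⧸ (maximalIdeal A • (⊤ : Submodule A ρ.V))),
      ∀ (σ : GQ) (x : ρ.residual.V), e (ρ.residual.ρ σ x) = levelAct ρ (maximalIdeal A) σ (e x) := by
  let e0 : ((A ⧸ maximalIdeal A) ⊗[A] ρ.V) ≃ₗ[A] (ρ.V ⧸ (maximalIdeal A • (⊤ : Submodule A ρ.V))) :=
    TensorProduct.quotTensorEquivQuotSMul ρ.V (maximalIdeal A)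
  refine ⟨e0.toAddEquiv, fun σ x => ?_⟩
  change (A ⧸ maximalIdeal A) ⊗[A] ρ.V at x
  change e0 ((ρ.ρ σ).baseChange (A ⧸ maximalIdeal A) x) = ρ.levelAction (maximalIdeal A) σ (e0 x)
  induction x using TensorProduct.induction_on with
  | zero => rw [map_zero, map_zero, map_zero]
  | tmul c v =>
    obtain ⟨a, rfl⟩ := Ideal.Quotient.mk_surjective c
    rw [LinearMap.baseChange_tmul, TensorProduct.quotTensorEquivQuotSMul_mk_tmul,
      TensorProduct.quotTensorEquivQuotSMul_mk_tmul, levelAction_mk, map_smul]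
  | add x y hx hy => rw [map_add, map_add, map_add, hx, hy, map_add]

theorem hasFlatModel_twist (hΔ : W.Δ ≠ 0) (hirr : W.ModRepIsIrreducible 3) {N : ℕ} [NeZero N]
    (h3N : ¬ 3 ∣ N)
    {S : Finset ℕ} (h3S : 3 ∈ S) (hNS : ∀ q : ℕ, q.Prime → q ∣ N → q ∈ S)
    (h3O : ((3 : ℕ) : O) ∈ maximalIdeal O)
    (χ : CuspForm.heckeAlgebra N 2 (↑S : Set ℕ) →+* O) (hχ : TwistCongr W χ) :
    HasFlatModel 3 (twAct om (act3 W)) := by
  have : Fact (Nat.Prime 3) := ⟨Nat.prime_three⟩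
  obtain ⟨ρ, hcp, habs, j, hj, -, hjσ⟩ := exists_rep hΔ hirr h3S hNS h3O χ hχ
  have hflat : ρ.IsFlatAt 3 := by
    refine S32Wiring.isFlatAt_core_of_inputs (𝒪 := O) (p := 3) inferInstance Nat.prime_three
      (by norm_num) h3O h3S hNS χ ρ hcp habs (GAL.Final.s30_inputs DR.allInputs 3 N S) ?_
    intro k
    exact S19.result N 3 h3N k
  obtain ⟨-, hfl⟩ := (isFlatAt_iff ρ 3).mp hflat
  have hfinq : Finite (O ⧸ maximalIdeal O) := ‹Finite (ResidueField O)›
  have h1 := hfl (maximalIdeal O) hfinq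
  obtain ⟨e, he⟩ := exists_residual_equiv ρ
  have hfinV : Finite (ρ.V ⧸ (maximalIdeal O • (⊤ : Submodule O ρ.V))) := by
    have h2 : Module.Finite (O ⧸ maximalIdeal O) (ρ.V ⧸ (maximalIdeal O • (⊤ : Submodule O ρ.V))) :=
      Module.Finite.of_restrictScalars_finite O _ _
    exact Module.finite_of_finite (O ⧸ maximalIdeal O)
  refine h1.of_injective (e.toAddMonoidHom.comp j) (fun x y hxy => hj (e.injective hxy)) ?_
  intro σ x
  change e (j (twAct om (act3 W) σ x)) = _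
  rw [hjσ, he]
  rfl

/-- **(D1)** the flat case. -/
theorem exists_fixed_of_flat (hΔ : W.Δ ≠ 0) (hss : W.IsSemistableModel)
    (hirr : W.ModRepIsIrreducible 3) {N : ℕ} [NeZero N] (h3N : ¬ 3 ∣ N)
    {S : Finset ℕ} (h3S : 3 ∈ S) (hNS : ∀ q : ℕ, q.Prime → q ∣ N → q ∈ S)
    (h3O : ((3 : ℕ) : O) ∈ maximalIdeal O)
    (χ : CuspForm.heckeAlgebra N 2 (↑S : Set ℕ) →+* O) (hχ : TwistCongr W χ)
    {P : ValuationSubring Qbar} (hP : P.LiesOverPrime 3) :
    ∃ x : M3 W, x ≠ 0 ∧ ∀ σ ∈ P.inertiaSubgroupIn ℚ, σ • x = x :=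
  exists_fixed_of_flat_twist hΔ hss hP (hasFlatModel_twist hΔ hirr h3N h3S hNS h3O χ hχ)

theorem baseChange_sub_mem {O V : Type} [CommRing O] [IsLocalRing O] [AddCommGroup V] [Module O V]
    (f : Module.End O V) (b : V) (h : ∀ v, f v - v ∈ Submodule.span O {b})
    (z : ResidueField O ⊗[O] V) :
    f.baseChange (ResidueField O) z - z ∈
      Submodule.span (ResidueField O) {((1 : ResidueField O) ⊗ₜ[O] b : ResidueField O ⊗[O] V)} := by
  induction z using TensorProduct.induction_on with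
  | zero => rw [map_zero, sub_zero]; exact zero_mem _
  | tmul c v =>
    have h1 := h v
    rw [Submodule.mem_span_singleton] at h1
    obtain ⟨a, ha⟩ := h1
    rw [LinearMap.baseChange_tmul, ← TensorProduct.tmul_sub, ← ha]
    have h2 : (c ⊗ₜ[O] (a • b) : ResidueField O ⊗[O] V) =
        (c * residue O a) • ((1 : ResidueField O) ⊗ₜ[O] b) := by
      rw [TensorProduct.tmul_smul, TensorProduct.smul_tmul', TensorProduct.smul_tmul', smul_eq_mul,
        mul_one, Algebra.smul_def, mul_comm]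
      rfl
    rw [h2]
    exact Submodule.smul_mem _ _ (Submodule.mem_span_singleton_self _)
  | add x y hx hy =>
    rw [map_add, add_sub_add_comm]
    exact add_mem hx hy

/-- **(D2)** the ordinary case. -/
theorem exists_fixed_of_ordinary (hΔ : W.Δ ≠ 0) (ρ : GaloisRepAdic O) (hord : ρ.IsOrdinaryAt 3)
    (j : M3 W →+ ρ.residual.V) (hspan : Submodule.span (ResidueField O) (Set.range j) = ⊤)
    (hjσ : ∀ (σ : GQ) (x : M3 W), j (twAct om (act3 W) σ x) = ρ.residual.ρ σ (j x))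
    {P : ValuationSubring Qbar} (hP : P.LiesOverPrime 3) :
    ∃ x : M3 W, x ≠ 0 ∧ ∀ σ ∈ P.inertiaSubgroupIn ℚ, σ • x = x := by
  obtain ⟨L, ⟨b, hb⟩, -, hI⟩ := hord P hP
  have hfin := finite_M3 hΔ
  -- the reduction of the line
  let u : ρ.residual.V := (1 : ResidueField O) ⊗ₜ[O] (b 0)
  let Lb : Submodule (ResidueField O) ρ.residual.V := Submodule.span (ResidueField O) {u}
  have hLb : Lb ≠ ⊤ := by
    intro h
    have h1 : Module.finrank (ResidueField O) Lb ≤ 1 := finrank_span_le_card {u} |>.trans (by simp)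
    rw [h, finrank_top, ρ.residual.finrank_eq] at h1
    omega
  have hquot : ∀ σ ∈ P.inertiaSubgroupIn ℚ, ∀ z : ρ.residual.V, ρ.residual.ρ σ z - z ∈ Lb := by
    exact fun σ hσ => baseChange_sub_mem (ρ.ρ σ) (b 0) fun v => by
      have h1 := hI σ hσ v
      rwa [hb] at h1
  let N : AddSubgroup (M3 W) := Lb.toAddSubgroup.comap j
  have hqN : ∀ σ ∈ P.inertiaSubgroupIn ℚ, ∀ x : M3 W, twAct om (act3 W) σ x - x ∈ N := by
    intro σ hσ x
    change j (twAct om (act3 W) σ x - x) ∈ Lb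
    rw [map_sub, hjσ]
    exact hquot σ hσ (j x)
  have hN2 : N ≠ ⊤ := by
    intro h
    apply hLb
    rw [eq_top_iff, ← hspan, Submodule.span_le]
    rintro _ ⟨x, rfl⟩
    have : x ∈ N := h ▸ AddSubgroup.mem_top x
    exact this
  have hstN : ∀ σ ∈ P.inertiaSubgroupIn ℚ, ∀ x ∈ N, twAct om (act3 W) σ x ∈ N := by
    intro σ hσ x hx
    have h1 := add_mem (hqN σ hσ x) hx
    rwa [sub_add_cancel] at h1
  by_cases hN1 : N = ⊥
  · -- inertia acts trivially
    have htriv : ∀ σ ∈ P.inertiaSubgroupIn ℚ, ∀ x : M3 W, twAct om (act3 W) σ x = x := by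
      intro σ hσ x
      have h1 := hqN σ hσ x
      rw [hN1, AddSubgroup.mem_bot, sub_eq_zero] at h1
      exact h1
    have hcard := card_M3 hΔ
    have hnt : Nontrivial (M3 W) := Finite.one_lt_card_iff_nontrivial.mp (by rw [hcard]; norm_num)
    obtain ⟨x, hx⟩ := exists_ne (0 : M3 W)
    have hx3 : addOrderOf x ∣ 3 := addOrderOf_dvd_of_nsmul_eq_zero (three_nsmul_M3 x)
    refine exists_fixed_of_ord_twist hΔ (I := P.inertiaSubgroupIn ℚ)
      (N := AddSubgroup.zmultiples x) ?_ ?_ ?_ ?_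
    · intro h
      rw [AddSubgroup.zmultiples_eq_bot] at h
      exact hx h
    · intro h
      have h1 : Nat.card (AddSubgroup.zmultiples x) = Nat.card (M3 W) := by
        rw [h]; exact AddSubgroup.card_top
      rw [Nat.card_zmultiples, hcard] at h1
      rw [h1] at hx3
      norm_num at hx3
    · intro σ hσ y hy
      rw [htriv σ hσ y]; exact hy
    · intro σ hσ y
      rw [htriv σ hσ y, sub_self]; exact zero_mem _
  · exact exists_fixed_of_ord_twist hΔ hN1 hN2 hstN hqN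

end

end Fermat.Agent.L9.Glue
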