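import Fermat.Agent.L9.Omega

/-!
# `M` and `M ⊗ ω` are not both semistable at `3` without inertia invariants: abstract form (L9, B)
-/

set_option autoImplicit false
set_option linter.unusedSectionVars false

open Pointwise TensorProduct
open Fermat.Agent.FrobExists

namespace Fermat.Agent.L9.LocalAbs

open Fermat.Agent.FlatOrd Fermat.Agent.FlatOrd.Model Fermat.Agent.L9.FlatTame
  Fermat.Agent.L9.Omega

local notation "Qbar" => AlgebraicClosure ℚ
local notation "GQ" => (AlgebraicClosure ℚ ≃ₐ[ℚ] AlgebraicClosure ℚ)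

variable {M : Type} [AddCommGroup M]

theorem ne_neg_of_three {x : M} (h3 : (3 : ℕ) • x = 0) (hx : x ≠ 0) : x ≠ -x := by
  intro h
  apply hx
  have h1 : (2 : ℕ) • x = 0 := by
    rw [two_nsmul]
    nth_rewrite 2 [h]
    exact add_neg_cancel x
  have : x = (3 : ℕ) • x - (2 : ℕ) • x := by
    rw [show (3 : ℕ) = 2 + 1 from rfl, add_nsmul, one_nsmul]
    abel
  rw [this, h3, h1, sub_zero]

/-- a subgroup of order `3` of a group of exponent `3` is `{0, x, -x}`. -/
theorem eq_or_eq_neg_of_card_three [Finite M] (h3 : ∀ x : M, (3 : ℕ) • x = 0) {N : AddSubgroup M}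
    (hN : Nat.card N = 3) {x : M} (hx : x ∈ N) (hx0 : x ≠ 0) {y : M} (hy : y ∈ N) (hy0 : y ≠ 0) :
    y = x ∨ y = -x := by
  by_contra hcon
  push Not at hcon
  classical
  have : Fintype N := Fintype.ofFinite N
  have hcard : ({⟨0, N.zero_mem⟩, ⟨x, hx⟩, ⟨-x, N.neg_mem hx⟩, ⟨y, hy⟩} : Finset N).card = 4 := by
    rw [Finset.card_insert_of_notMem, Finset.card_insert_of_notMem, Finset.card_insert_of_notMem,
      Finset.card_singleton]
    · rw [Finset.mem_singleton, Subtype.mk.injEq]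
      exact fun h => hcon.2 h.symm
    · rw [Finset.mem_insert, Finset.mem_singleton, Subtype.mk.injEq, Subtype.mk.injEq, not_or]
      exact ⟨ne_neg_of_three (h3 x) hx0, fun h => hcon.1 h.symm⟩
    · rw [Finset.mem_insert, Finset.mem_insert, Finset.mem_singleton, Subtype.mk.injEq,
        Subtype.mk.injEq, Subtype.mk.injEq, not_or, not_or]
      exact ⟨fun h => hx0 h.symm, fun h => hx0 (neg_eq_zero.mp h.symm), fun h => hy0 h.symm⟩
  have hle := Finset.card_le_univ
    ({⟨0, N.zero_mem⟩, ⟨x, hx⟩, ⟨-x, N.neg_mem hx⟩, ⟨y, hy⟩} : Finset N)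
  rw [hcard, ← Nat.card_eq_fintype_card, hN] at hle
  omega

theorem card_of_proper [Finite M] (hcard : Nat.card M = 9) {N : AddSubgroup M} (h1 : N ≠ ⊥)
    (h2 : N ≠ ⊤) : Nat.card N = 3 := by
  have h : Nat.card N ∣ 3 ^ 2 := by
    have := AddSubgroup.card_addSubgroup_dvd_card N
    rw [hcard] at this
    exact this
  rw [Nat.dvd_prime_pow Nat.prime_three] at h
  obtain ⟨k, hk, hNk⟩ := h
  have hk0 : k ≠ 0 := by
    rintro rfl
    rw [pow_zero] at hNk
    exact h1 (AddSubgroup.eq_bot_of_card_eq N hNk)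
  have hk2 : k ≠ 2 := by
    rintro rfl
    exact h2 (AddSubgroup.eq_top_of_card_eq N (by rw [hNk, hcard]; norm_num))
  have : k = 1 := by omega
  rw [hNk, this, pow_one]

variable {act : GQ →* AddMonoid.End M}

theorem act_ne_zero {σ : GQ} {x : M} (hx : x ≠ 0) : act σ x ≠ 0 := fun h =>
  hx ((act_eq_zero_iff σ x).mp h)

/-- On an inertia-stable subgroup of order three, inertia acts by signs. -/
theorem sign_on_line [Finite M] (h3 : ∀ x : M, (3 : ℕ) • x = 0) {N : AddSubgroup M}
    (hN : Nat.card N = 3) {I : Subgroup GQ} (hst : ∀ σ ∈ I, ∀ x ∈ N, act σ x ∈ N) {x : M}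
    (hx : x ∈ N) (hx0 : x ≠ 0) : ∀ σ ∈ I, act σ x = x ∨ act σ x = -x := fun σ hσ =>
  eq_or_eq_neg_of_card_three h3 hN hx hx0 (hst σ hσ x hx) (act_ne_zero hx0)

/-- Stability of a subgroup is insensitive to twisting. -/
theorem twAct_stable {χ : GQ →* ℤˣ} {N : AddSubgroup M} {σ : GQ}
    (h : ∀ x ∈ N, act σ x ∈ N) : ∀ x ∈ N, twAct χ act σ x ∈ N := fun x hx => by
  rw [twAct_apply]
  exact N.zsmul_mem (h x hx) _

theorem stable_of_twAct {χ : GQ →* ℤˣ} {N : AddSubgroup M} {σ : GQ}
    (h : ∀ x ∈ N, twAct χ act σ x ∈ N) : ∀ x ∈ N, act σ x ∈ N := fun x hx => by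
  have h1 := h x hx
  rw [twAct_apply] at h1
  rcases Int.units_eq_one_or (χ σ) with h2 | h2
  · rw [h2, Units.val_one, one_smul] at h1
    exact h1
  · rw [h2, Units.val_neg, Units.val_one, neg_smul, one_smul] at h1
    exact neg_mem_iff.mp h1

variable [Finite M] (hcard : Nat.card M = 9) (h3 : ∀ x : M, (3 : ℕ) • x = 0)
  (P : ValuationSubring Qbar) (hP : P.LiesOverPrime 3)

include hcard h3 hP

/-- If `M ⊗ ω` is flat and `M` has no inertia invariants, then no line in `M ⊗ ω` is stable, and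
`M ⊗ ω` is its own kernel of reduction. -/
theorem irreducible_of_flat_twist (F' : FlatModel 3 M (twAct om act))
    (hnofix : ∀ x : M, (∀ σ ∈ P.inertiaSubgroupIn ℚ, act σ x = x) → x = 0)
    {σ₀ : GQ} (hσ₀ : σ₀ ∈ P.inertiaSubgroupIn ℚ) (hom : om σ₀ = -1)
    (hneg : ∃ x : M, act σ₀ x ≠ -x) :
    F'.kerRed P hP = ⊤ ∧
      ∀ N : AddSubgroup M, (∀ σ ∈ P.inertiaSubgroupIn ℚ, ∀ x ∈ N, act σ x ∈ N) →
        N = ⊥ ∨ N = ⊤ := by
  have hom' : ∀ {σ : GQ} {x : M}, twAct om act σ x = ((om σ : ℤˣ) : ℤ) • x → act σ x = x := by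
    intro σ x h
    rw [twAct_apply] at h
    rcases om_cases σ with h1 | h1
    · rw [h1] at h
      simpa using h
    · rw [h1] at h
      simpa using h
  -- lines in the kernel of reduction
  have hline : ∀ N : AddSubgroup M, N ≤ F'.kerRed P hP →
      (∀ σ ∈ P.inertiaSubgroupIn ℚ, ∀ x ∈ N, twAct om act σ x ∈ N) → Nat.card N = 3 → False := by
    intro N hNle hNst hN3
    obtain ⟨x, hx, hx0⟩ : ∃ x ∈ N, x ≠ 0 := by
      by_contra hcon
      push Not at hcon
      have : N = ⊥ := (AddSubgroup.eq_bot_iff_forall N).mpr hcon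
      rw [this, AddSubgroup.card_bot] at hN3
      omega
    have hs := sign_on_line h3 hN3 hNst hx hx0
    rcases fixed_or_omega F' P hP (ne_neg_of_three (h3 x) hx0) hs with h | h
    · -- fixed: contradiction with the no-trivial-constituent lemma
      have h1 := F'.le_of_inertia_trivial Nat.prime_three (by norm_num) P hP N ⊥ hNle hNst
        (fun σ hσ y hy => by
          rw [AddSubgroup.mem_bot, sub_eq_zero]
          by_cases hy0 : y = 0
          · rw [hy0, map_zero]
          · rcases eq_or_eq_neg_of_card_three h3 hN3 hx hx0 hy hy0 with rfl | rfl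
            · exact h σ hσ
            · rw [map_neg, h σ hσ]) (fun y _ => ⟨1, by rw [pow_one]; exact h3 y⟩)
      exact hx0 ((AddSubgroup.mem_bot).mp (h1 hx))
    · exact hx0 (hnofix x fun σ hσ => hom' (h σ hσ))
  have hKst : ∀ σ ∈ P.inertiaSubgroupIn ℚ, ∀ x ∈ F'.kerRed P hP,
      twAct om act σ x ∈ F'.kerRed P hP := fun σ hσ x hx =>
    F'.act_mem_kerRed P hP hx (InertiaLift.mem_decompositionSubgroup_of_mem_inertia P hσ)
  have htop : F'.kerRed P hP = ⊤ := by
    by_contra hK
    by_cases hK0 : F'.kerRed P hP = ⊥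
    · obtain ⟨x, hx⟩ := hneg
      apply hx
      have h1 := F'.act_sub_mem_kerRed P hP x hσ₀
      rw [hK0, AddSubgroup.mem_bot, sub_eq_zero, twAct_apply, hom, Units.val_neg, Units.val_one,
        neg_smul, one_smul] at h1
      exact neg_eq_iff_eq_neg.mp h1
    · exact hline _ le_rfl hKst (card_of_proper hcard hK0 hK)
  refine ⟨htop, fun N hN => ?_⟩
  by_contra hcon
  push Not at hcon
  exact hline N (htop ▸ le_top) (fun σ hσ => twAct_stable (hN σ hσ))
    (card_of_proper hcard hcon.1 hcon.2)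

/-- **(B), flat case, abstract form.** -/
theorem false_of_flat_twist (F' : FlatModel 3 M (twAct om act))
    (hnofix : ∀ x : M, (∀ σ ∈ P.inertiaSubgroupIn ℚ, act σ x = x) → x = 0)
    (hW : Nonempty (FlatModel 3 M act) ∨ ∃ N : AddSubgroup M, N ≠ ⊥ ∧ N ≠ ⊤ ∧
      ∀ σ ∈ P.inertiaSubgroupIn ℚ, ∀ x ∈ N, act σ x ∈ N)
    (hCH : ∀ σ : GQ, om σ = -1 → ∃ t : ℤ, (∀ x : M, act σ (act σ x) = t • act σ x + x) ∧
      (∃ x : M, act σ x ≠ -x) ∧ (∃ x : M, act σ x ≠ x)) : False := by
  obtain ⟨π, ξ, σ₀, hπ, hξ, hσ₀, hσπ, hom⟩ := exists_sigma P hP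
  obtain ⟨t, hCH, hneg, hpos⟩ := hCH σ₀ hom
  obtain ⟨htop', hirr⟩ := irreducible_of_flat_twist hcard h3 P hP F' hnofix hσ₀ hom hneg
  rcases hW with ⟨⟨F⟩⟩ | ⟨N, hN1, hN2, hN⟩
  · -- the kernel of reduction for `M`
    have htop : F.kerRed P hP = ⊤ := by
      rcases hirr (F.kerRed P hP) (fun σ hσ x hx => F.act_mem_kerRed P hP hx
        (InertiaLift.mem_decompositionSubgroup_of_mem_inertia P hσ)) with h | h
      · exfalso
        obtain ⟨x, hx⟩ := hneg
        have hx0 : x = 0 := hnofix x fun σ hσ => by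
          have h1 := F.act_sub_mem_kerRed P hP x hσ
          rwa [h, AddSubgroup.mem_bot, sub_eq_zero] at h1
        apply hx
        rw [hx0, map_zero, neg_zero]
      · exact h
    have e1 := trace_eq F P hP hcard h3 htop hirr hπ hξ hσ₀ hσπ t hCH hneg
    have htw : ∀ x, twAct om act σ₀ x = -act σ₀ x := fun x => by
      rw [twAct_apply, hom, Units.val_neg, Units.val_one, neg_smul, one_smul]
    have e2 := trace_eq F' P hP hcard h3 htop' (fun N hN => hirr N fun σ hσ =>
        stable_of_twAct (hN σ hσ)) hπ hξ hσ₀ hσπ (-t) (fun x => by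
      rw [htw, htw, map_neg, neg_neg, hCH x, neg_smul, smul_neg, neg_neg]) (by
      obtain ⟨x, hx⟩ := hpos
      exact ⟨x, fun h => hx (by rw [htw] at h; exact neg_injective h)⟩)
    -- contradiction
    set ζ := rd P ξ with hζ
    have hξP : ξ ∈ P := by
      rw [← P.valuation_le_one_iff]
      by_contra hcon
      have h1 : 1 < P.valuation ξ ^ 4 := one_lt_pow₀ (not_le.mp hcon) (by norm_num)
      rw [← map_pow, hξ, Valuation.map_neg, map_one] at h1
      exact lt_irrefl _ h1
    have hζ4 : ζ ^ 4 = -1 := by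
      rw [hζ, ← rd_pow P hξP, hξ, ← rd_one P, eq_neg_iff_add_eq_zero, ← rd_add P
        (neg_mem (one_mem P)) (one_mem P), neg_add_cancel, rd_eq_zero_iff P (zero_mem P), map_zero]
      exact zero_lt_one
    have h30 : (3 : IsLocalRing.ResidueField P) = 0 := by
      have := natCast_eq_zero P hP
      exact_mod_cast this
    have hζ0 : ζ ≠ 0 := by
      intro h
      rw [h] at hζ4
      norm_num at hζ4
    push_cast at e2
    rw [e1] at e2
    -- `2 (ζ + ζ³) = 0`
    have h5 : ζ * (1 + ζ ^ 2) = 0 := by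
      linear_combination e2 + (ζ + ζ ^ 3) * h30
    have h6 : ζ ^ 2 = -1 := by
      have := (mul_eq_zero.mp h5).resolve_left hζ0
      linear_combination this
    have h7 : (1 : IsLocalRing.ResidueField P) = 0 := by
      have h8 : ζ ^ 4 = 1 := by
        have : ζ ^ 4 = (ζ ^ 2) ^ 2 := by ring
        rw [this, h6]; ring
      rw [h8] at hζ4
      linear_combination h30 - hζ4
    exact one_ne_zero h7
  · rcases hirr N hN with h | h
    · exact hN1 h
    · exact hN2 h

end Fermat.Agent.L9.LocalAbs
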