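import Fermat.Agent.L9.LocalW

/-!
# (B), ordinary case: if `W[3] ⊗ ω` has an inertia-stable line with trivial action on the quotient,
then `W[3]` has inertia invariants (L9)
-/

set_option autoImplicit false
set_option linter.unusedSectionVars false

open Pointwise TensorProduct
open WeierstrassCurve WeierstrassCurve.Affine WeierstrassCurve.Affine.Point
open scoped WeierstrassCurve.Affine

namespace Fermat.Agent.L9

open Fermat.Agent.FlatOrd Fermat.Agent.FlatOrd.Model Fermat.Agent.L9.FlatTame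
  Fermat.Agent.L9.Omega Fermat.Agent.L9.LocalAbs Fermat.Agent.Cyclotomic

local notation "Qbar" => AlgebraicClosure ℚ
local notation "GQ" => (AlgebraicClosure ℚ ≃ₐ[ℚ] AlgebraicClosure ℚ)

theorem zmod3_om_eq {u : ℤˣ} (h : (((u : ℤˣ) : ℤ) : ZMod 3) = 1) : u = 1 := by
  rcases Int.units_eq_one_or u with h1 | h1
  · exact h1
  · exfalso
    rw [h1] at h
    push_cast at h
    exact absurd h (by decide)

theorem zmod3_om_eq_neg {u : ℤˣ} (h : (((u : ℤˣ) : ℤ) : ZMod 3) = -1) : u = -1 := by
  rcases Int.units_eq_one_or u with h1 | h1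
  · exfalso
    rw [h1] at h
    push_cast at h
    exact absurd h (by decide)
  · exact h1

variable {W : WeierstrassCurve ℤ}

/-- the determinant of a triangular action -/
theorem om_eq_of_line (hΔ : W.Δ ≠ 0) {σ : GQ} {N : AddSubgroup (M3 W)} (hN : Nat.card N = 3)
    (hst : ∀ x ∈ N, twAct om (act3 W) σ x ∈ N) (hq : ∀ x, twAct om (act3 W) σ x - x ∈ N)
    {x : M3 W} (hx : x ∈ N) (hx0 : x ≠ 0) :
    twAct om (act3 W) σ x = ((om σ : ℤˣ) : ℤ) • x := by
  have := isElliptic_map hΔ
  have hfinM := finite_M3 hΔ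
  have hell' : WeierstrassCurve.IsElliptic ((W.map (Int.castRingHom ℚ))⁄Qbar) :=
    EllTorsion.isElliptic_baseChange (W.map (Int.castRingHom ℚ))
  have h30 : ((3 : ℕ) : Qbar) ≠ 0 := by norm_num
  have hfin : Module.Finite (ZMod 3) (M3 W) :=
    EllTorsion.moduleFinite_torsionBy (W' := W.map (Int.castRingHom ℚ)) (K := Qbar) h30
  have h2 : Module.finrank (ZMod 3) (M3 W) = 2 :=
    EllTorsion.finrank_torsionBy (W' := W.map (Int.castRingHom ℚ)) (K := Qbar) h30 (by norm_num)
  have : Fact (Nat.Prime 3) := ⟨Nat.prime_three⟩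
  set f : Module.End (ZMod 3) (M3 W) :=
    galoisRepModuleEnd ℚ (W.map (Int.castRingHom ℚ)) 3 σ with hf
  set c : ZMod 3 := (((om σ : ℤˣ) : ℤ) : ZMod 3) with hc
  set e : Module.End (ZMod 3) (M3 W) := c • f with he
  have hea : ∀ y, e y = twAct om (act3 W) σ y := fun y => by
    rw [he, LinearMap.smul_apply, hc, twAct_apply, Int.cast_smul_eq_zsmul]
    rfl
  have hcc : c * c = 1 := by
    rw [hc]
    exact_mod_cast congrArg (Int.cast : ℤ → ZMod 3) (om_mul_self σ)
  have hdet : LinearMap.det e = c := by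
    have h1 := EllRed.det_galoisRepModuleEnd W hΔ 3 σ
    rw [← om_spec, ← hc] at h1
    rw [he, LinearMap.det_smul, h2, hf, h1, pow_two, hcc, one_mul]
  let N' : Submodule (ZMod 3) (M3 W) := AddSubgroup.toZModSubmodule 3 N
  have hN' : ∀ y, y ∈ N' ↔ y ∈ N := fun y => Iff.rfl
  have hle : N' ≤ N'.comap e := fun y hy => by
    rw [Submodule.mem_comap, hN', hea]
    exact hst y hy
  have hcardN' : Nat.card N' = 3 := hN
  have hrank : Module.finrank (ZMod 3) N' = 1 := by
    have h1 := Module.natCard_eq_pow_finrank (K := ZMod 3) (V := N')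
    rw [hcardN', Nat.card_zmod] at h1
    have h4 : 3 ^ 1 = 3 ^ Module.finrank (ZMod 3) N' := by rw [pow_one]; exact h1
    exact (Nat.pow_right_injective (a := 3) (by norm_num) h4).symm
  have hmapQ : N'.mapQ N' e hle = LinearMap.id := by
    refine Submodule.linearMap_qext _ (LinearMap.ext fun y => ?_)
    show Submodule.Quotient.mk (e y) = Submodule.Quotient.mk y
    rw [Submodule.Quotient.eq, hN', hea]
    exact hq y
  have hdec := LinearMap.det_eq_det_mul_det N' e hle
  rw [hdet, hmapQ, LinearMap.det_id, mul_one] at hdec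
  -- the sign on the line
  have hall : ∀ y ∈ N, y = 0 ∨ y = x ∨ y = -x := fun y hy => by
    by_cases hy0 : y = 0
    · left; exact hy0
    · right; exact eq_or_eq_neg_of_card_three three_nsmul_M3 hN hx hx0 hy hy0
  rcases eq_or_eq_neg_of_card_three three_nsmul_M3 hN hx hx0 (hst x hx) (by
    rw [twAct_apply]
    intro h
    rcases om_cases σ with h1 | h1
    · rw [h1, Units.val_one, one_smul] at h
      exact act_ne_zero hx0 h
    · rw [h1, Units.val_neg, Units.val_one, neg_smul, one_smul, neg_eq_zero] at h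
      exact act_ne_zero hx0 h) with hs | hs
  · have hres : e.restrict hle = LinearMap.id := by
      refine LinearMap.ext fun y => Subtype.ext ?_
      show e y.1 = y.1
      rw [hea]
      rcases hall y.1 y.2 with h | h | h
      · rw [h, _root_.map_zero]
      · rw [h, hs]
      · rw [h, map_neg, hs]
    rw [hres, LinearMap.det_id] at hdec
    rw [zmod3_om_eq hdec, Units.val_one, one_smul, hs]
  · have hres : e.restrict hle = (-1 : ZMod 3) • LinearMap.id := by
      refine LinearMap.ext fun y => Subtype.ext ?_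
      show e y.1 = (-1 : ZMod 3) • y.1
      rw [hea, neg_smul, one_smul]
      rcases hall y.1 y.2 with h | h | h
      · rw [h, _root_.map_zero, _root_.neg_zero]
      · rw [h, hs]
      · rw [h, map_neg, hs]
    rw [hres, LinearMap.det_smul, hrank, LinearMap.det_id, mul_one, pow_one] at hdec
    rw [zmod3_om_eq_neg hdec, Units.val_neg, Units.val_one, neg_smul, one_smul, hs]

/-- **(B), ordinary case.** -/
theorem exists_fixed_of_ord_twist (hΔ : W.Δ ≠ 0) {I : Subgroup GQ} {N : AddSubgroup (M3 W)}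
    (hN1 : N ≠ ⊥) (hN2 : N ≠ ⊤)
    (hst : ∀ σ ∈ I, ∀ x ∈ N, twAct om (act3 W) σ x ∈ N)
    (hq : ∀ σ ∈ I, ∀ x, twAct om (act3 W) σ x - x ∈ N) :
    ∃ x : M3 W, x ≠ 0 ∧ ∀ σ ∈ I, σ • x = x := by
  have := finite_M3 hΔ
  have hN := card_of_proper (card_M3 hΔ) hN1 hN2
  obtain ⟨x, hx, hx0⟩ : ∃ x ∈ N, x ≠ 0 := by
    by_contra hcon
    push Not at hcon
    exact hN1 ((AddSubgroup.eq_bot_iff_forall N).mpr hcon)
  refine ⟨x, hx0, fun σ hσ => ?_⟩
  have h1 := om_eq_of_line hΔ hN (hst σ hσ) (hq σ hσ) hx hx0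
  rw [twAct_apply] at h1
  rcases om_cases σ with h | h
  · rw [h, Units.val_one, one_smul, one_smul] at h1
    exact h1
  · rw [h, Units.val_neg, Units.val_one, neg_smul, one_smul, neg_smul, one_smul] at h1
    exact neg_injective h1

end Fermat.Agent.L9
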