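import Fermat.Agent.L9.LocalAbs
import Fermat.Agent.LOC.TateArith
import Fermat.Agent.EllFlat.GoodFlat
import Fermat.Agent.FlatModel.Quot
import Fermat.Agent.BrauerNesbittGalois
import Fermat.Agent.EllTorsion.Frey

/-!
# (B): if `W[3] ⊗ ω` is flat or ordinary at `3`, then `W[3]` has inertia invariants at `3` (L9)
-/

set_option autoImplicit false
set_option linter.unusedSectionVars false

open Pointwise TensorProduct
open WeierstrassCurve WeierstrassCurve.Affine WeierstrassCurve.Affine.Point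
open scoped WeierstrassCurve.Affine
open Fermat.Agent.FrobExists

namespace Fermat.Agent.L9

open Fermat.Agent.FlatOrd Fermat.Agent.FlatOrd.Model Fermat.Agent.L9.FlatTame
  Fermat.Agent.L9.Omega Fermat.Agent.L9.LocalAbs Fermat.Agent.Cyclotomic

local notation "Qbar" => AlgebraicClosure ℚ
local notation "GQ" => (AlgebraicClosure ℚ ≃ₐ[ℚ] AlgebraicClosure ℚ)

theorem flatModel_of_hasFlatModel {p : ℕ} {M : Type} [AddCommGroup M] {act : GQ →* AddMonoid.End M}
    (h : Fermat.FlatModel.HasFlatModel p act) : Nonempty (FlatModel p M act) := by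
  obtain ⟨H, _, _, _, _, _, e, he, hσ⟩ := h
  exact ⟨⟨H, e, he, hσ⟩⟩

theorem flatModel_of_isFlatModel {p : ℕ} {M : Type} [AddCommGroup M]
    {act : GQ →* AddMonoid.End M} (h : Fermat.Agent.Flat.IsFlatModel p M (fun σ x => act σ x)) :
    Nonempty (FlatModel p M act) := by
  obtain ⟨H, _, _, _, _, _, e, he, hσ⟩ := h
  exact ⟨⟨H, e, he, hσ⟩⟩

variable (W : WeierstrassCurve ℤ)

/-- `W[3]` over `ℚ̄`. -/
abbrev M3 : Type := Submodule.torsionBy ℤ
  ((W.map (Int.castRingHom ℚ))⁄(AlgebraicClosure ℚ)).Point (3 : ℕ)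

/-- the Galois action on `W[3]` -/
noncomputable def act3 : GQ →* AddMonoid.End (M3 W) := DistribMulAction.toAddMonoidEnd GQ (M3 W)

theorem act3_apply (σ : GQ) (x : M3 W) : act3 W σ x = σ • x := rfl

variable {W}

theorem isElliptic_map (hΔ : W.Δ ≠ 0) : (W.map (Int.castRingHom ℚ)).IsElliptic := by
  refine ⟨?_⟩
  rw [WeierstrassCurve.map_Δ]
  simpa using hΔ

theorem card_M3 (hΔ : W.Δ ≠ 0) : Nat.card (M3 W) = 9 := by
  have := isElliptic_map hΔ
  have h := EllTorsion.card_torsionBy_rat (W := W.map (Int.castRingHom ℚ)) (n := 3) (by norm_num)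
  rw [h]; norm_num

theorem finite_M3 (hΔ : W.Δ ≠ 0) : Finite (M3 W) :=
  Nat.finite_of_card_ne_zero (by rw [card_M3 hΔ]; norm_num)

theorem three_nsmul_M3 (x : M3 W) : (3 : ℕ) • x = 0 := by
  have h := (Submodule.mem_torsionBy_iff _ _).mp x.2
  rw [Nat.cast_smul_eq_nsmul] at h
  exact Subtype.ext h

theorem zmod3_one_ne : (1 : ZMod 3) ≠ -1 := by decide

theorem zmod3_neg : (-1 : ZMod 3) * -1 = 1 := by decide

/-- Cayley–Hamilton for elements with `ω = -1`. -/
theorem cayley_om (hΔ : W.Δ ≠ 0) {σ : GQ} (hσ : om σ = -1) :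
    ∃ t : ℤ, (∀ x : M3 W, act3 W σ (act3 W σ x) = t • act3 W σ x + x) ∧
      (∃ x : M3 W, act3 W σ x ≠ -x) ∧ (∃ x : M3 W, act3 W σ x ≠ x) := by
  have := isElliptic_map hΔ
  have hell' : WeierstrassCurve.IsElliptic ((W.map (Int.castRingHom ℚ))⁄Qbar) :=
    EllTorsion.isElliptic_baseChange (W.map (Int.castRingHom ℚ))
  have h30 : ((3 : ℕ) : Qbar) ≠ 0 := by norm_num
  have hfin : Module.Finite (ZMod 3) (M3 W) :=
    EllTorsion.moduleFinite_torsionBy (W' := W.map (Int.castRingHom ℚ)) (K := Qbar) h30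
  have h2 : Module.finrank (ZMod 3) (M3 W) = 2 :=
    EllTorsion.finrank_torsionBy (W' := W.map (Int.castRingHom ℚ)) (K := Qbar) h30 (by norm_num)
  have : Fact (Nat.Prime 3) := ⟨Nat.prime_three⟩
  set f : Module.End (ZMod 3) (M3 W) :=
    galoisRepModuleEnd ℚ (W.map (Int.castRingHom ℚ)) 3 σ with hf
  have hfa : ∀ x, f x = act3 W σ x := fun x => rfl
  have hdet : LinearMap.det f = -1 := by
    have h1 := EllRed.det_galoisRepModuleEnd W hΔ 3 σ
    rw [← om_spec, hσ] at h1
    rw [hf, h1]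
    push_cast
    rfl
  have hne1 : ∀ c : ZMod 3, c * c = 1 → f ≠ c • LinearMap.id := by
    intro c hc h
    rw [h, LinearMap.det_smul, h2, LinearMap.det_id, mul_one, pow_two, hc] at hdet
    exact zmod3_one_ne hdet
  have hch := LinearMap.aeval_self_charpoly f
  rw [BN2.charpoly_eq_of_finrank_two h2, hdet] at hch
  refine ⟨((LinearMap.trace (ZMod 3) (M3 W) f).val : ℤ), fun x => ?_, ?_, ?_⟩
  · have h3 := LinearMap.congr_fun hch x
    simp only [map_add, map_sub, map_mul, Polynomial.aeval_X, Polynomial.aeval_C,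
      LinearMap.add_apply, LinearMap.sub_apply, Module.algebraMap_end_apply, LinearMap.zero_apply,
      Module.End.mul_apply, pow_two, map_neg, map_one, LinearMap.neg_apply,
      Module.End.one_apply] at h3
    rw [hfa, hfa] at h3
    have h4 : (LinearMap.trace (ZMod 3) (M3 W) f) • act3 W σ x =
        ((LinearMap.trace (ZMod 3) (M3 W) f).val : ℤ) • act3 W σ x := by
      rw [← Int.cast_smul_eq_zsmul (ZMod 3)]
      congr 1
      rw [Int.cast_natCast, ZMod.natCast_zmod_val]
    rw [h4] at h3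
    rw [← sub_eq_zero, ← h3]
    abel
  · by_contra hcon
    push Not at hcon
    refine hne1 (-1) zmod3_neg (LinearMap.ext fun x => ?_)
    rw [hfa, hcon, LinearMap.smul_apply, LinearMap.id_apply, neg_smul, one_smul]
  · by_contra hcon
    push Not at hcon
    refine hne1 1 (mul_one 1) (LinearMap.ext fun x => ?_)
    rw [hfa, hcon, LinearMap.smul_apply, LinearMap.id_apply, one_smul]

/-- `W[3]` at a semistable place: flat, or with an inertia-stable line. -/
theorem flat_or_line (hΔ : W.Δ ≠ 0) (hss : W.IsSemistableModel)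
    {P : ValuationSubring Qbar} (hP : P.LiesOverPrime 3) :
    Nonempty (FlatModel 3 (M3 W) (act3 W)) ∨ ∃ N : AddSubgroup (M3 W), N ≠ ⊥ ∧ N ≠ ⊤ ∧
      ∀ σ ∈ P.inertiaSubgroupIn ℚ, ∀ x ∈ N, act3 W σ x ∈ N := by
  by_cases h3 : ((3 : ℕ) : ℤ) ∣ W.Δ
  · right
    have hc4 := hss 3 Nat.prime_three h3
    have hcard := LOC.card_kerSub W hΔ Nat.prime_three hc4 h3 P hP 1
    rw [pow_one] at hcard
    let N : AddSubgroup (M3 W) := (LOC.kerSub W P).comap (Submodule.subtype _).toAddMonoidHom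
    have hmem : ∀ x : M3 W, x ∈ N ↔ (x : ((W.map (Int.castRingHom ℚ))⁄Qbar).Point) ∈
      LOC.kerSub W P := fun x => Iff.rfl
    have hN : Nat.card N = 3 := by
      refine Eq.trans ?_ hcard
      refine Nat.card_congr
        { toFun := fun x => ⟨x.1.1, x.2, ?_⟩
          invFun := fun y => ⟨⟨y.1, ?_⟩, y.2.1⟩
          left_inv := fun x => rfl
          right_inv := fun y => rfl }
      · have := congrArg Subtype.val (three_nsmul_M3 x.1)
        exact this
      · rw [Submodule.mem_torsionBy_iff, Nat.cast_smul_eq_nsmul]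
        exact y.2.2
    refine ⟨N, ?_, ?_, fun σ hσ x hx => ?_⟩
    · intro h
      rw [h, AddSubgroup.card_bot] at hN
      omega
    · intro h
      rw [h, AddSubgroup.card_top, card_M3 hΔ] at hN
      omega
    · rw [hmem] at hx ⊢
      exact LOC.smul_mem_kerSub W P (LOC.mem_decomposition_of_inertia P hσ) hx
  · left
    have h := EllFlat.isFlatModel_torsion_of_int Nat.prime_three W h3 1
    exact flatModel_of_isFlatModel (act := act3 W) h

/-- **(B), flat case.** -/
theorem exists_fixed_of_flat_twist (hΔ : W.Δ ≠ 0) (hss : W.IsSemistableModel)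
    {P : ValuationSubring Qbar} (hP : P.LiesOverPrime 3)
    (h : Fermat.FlatModel.HasFlatModel 3 (twAct om (act3 W))) :
    ∃ x : M3 W, x ≠ 0 ∧ ∀ σ ∈ P.inertiaSubgroupIn ℚ, σ • x = x := by
  by_contra hcon
  push Not at hcon
  obtain ⟨F'⟩ := flatModel_of_hasFlatModel h
  have := finite_M3 hΔ
  refine false_of_flat_twist (card_M3 hΔ) three_nsmul_M3 P hP F' (fun x hx => ?_)
    (flat_or_line hΔ hss hP) (fun σ hσ => cayley_om hΔ hσ)
  by_contra hx0
  obtain ⟨σ, hσ, hσx⟩ := hcon x hx0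
  exact hσx (hx σ hσ)

end Fermat.Agent.L9
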