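import Fermat.Agent.L9.Contra
import Fermat.Agent.L9.Descend
import Fermat.Agent.S60Wiring
import Fermat.Agent.S21
import Fermat.Agent.FrobExists

/-!
# Level lowering at `3` for mod `3` forms, from ordinarity of `3`-new points (L9)
-/

set_option autoImplicit false

open IsLocalRing CongruenceSubgroup

namespace Fermat.Agent.L9

local notation "Qbar" => AlgebraicClosure ℚ

theorem l9_of_newOrd (hno : Contra.NewOrd 3) : S60Wiring.L9Stmt := by
  intro W hΔ hss hirr M hM hmod hcube h9 hI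
  have h3 : Nat.Prime 3 := Nat.prime_three
  obtain ⟨e, m, h3m, hMe⟩ := Nat.exists_eq_pow_mul_and_not_dvd hM.ne' 3 (by norm_num)
  have hm : 0 < m := Nat.pos_of_ne_zero fun h => h3m (h ▸ dvd_zero 3)
  obtain ⟨k, rfl⟩ : ∃ k, e = k + 1 := by
    rcases e with _ | k
    · exfalso
      rw [pow_zero, one_mul] at hMe
      exact h3m (hMe ▸ (dvd_pow_self 3 (by norm_num)).trans h9)
    · exact ⟨k, rfl⟩
  obtain ⟨r, hrm, hr, hr3⟩ := exists_aux_prime m
  have h3r : ¬ 3 ∣ r := by omega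
  have h3mr : ¬ 3 ∣ m * r := fun h => (h3.dvd_mul.mp h).elim h3m h3r
  have hmr : 0 < m * r := Nat.mul_pos hm hr.pos
  subst hMe
  obtain ⟨i, hi, g, 𝔪', hg, h𝔪', h3𝔪', hcong⟩ := exists_eigenform_twist
    (fun M _ => (S21.result M).2) hΔ hirr hm hmod hr hr3
  have hi0 : i = 0 := by
    by_contra hne
    have hi1 : i = 1 := by omega
    subst hi1
    obtain ⟨P, hP⟩ := FrobExists.exists_liesOverPrime Qbar h3
    obtain ⟨x, hx0, hx⟩ := Contra.exists_fixed_of_eigenform hno hΔ hss hirr hmr h3mr hg 𝔪' h𝔪' h3𝔪'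
      (fun ℓ hℓ hgood hℓN => by
        obtain ⟨c, hc, hc'⟩ := hcong ℓ hℓ hgood hℓN
        exact ⟨c, hc, by rwa [pow_one] at hc'⟩) hP
    exact hx0 (hI P hP x hx)
  subst hi0
  refine ⟨3 * (m * r), by omega, ⟨g, 𝔪', hg, h𝔪', h3𝔪', ?_⟩, ?_, ?_⟩
  · intro ℓ hℓ hgood hℓN _
    obtain ⟨c, hc, hc'⟩ := hcong ℓ hℓ hgood hℓN
    refine ⟨c, hc, ?_⟩
    rwa [pow_zero, one_mul] at hc'
  · intro h
    rw [pow_two] at h
    exact h3mr (Nat.dvd_of_mul_dvd_mul_left (by norm_num) h)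
  · intro q hq hq3 hdvd
    have hcop : Nat.Coprime (q ^ 3) 3 :=
      Nat.Coprime.pow_left 3 ((Nat.coprime_primes hq h3).mpr hq3)
    have h1 : q ^ 3 ∣ m * r := hcop.dvd_of_dvd_mul_left hdvd
    by_cases hqr : q = r
    · subst hqr
      have h2 : q ^ 2 * q ∣ m * q := by rwa [← pow_succ]
      have h3 : q ^ 2 ∣ m := Nat.dvd_of_mul_dvd_mul_right hq.pos h2
      have h4 : q ∣ m := (dvd_pow_self q (by norm_num)).trans h3
      exact absurd (Nat.le_of_dvd hm h4) (not_le.mpr hrm)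
    · have hcop' : Nat.Coprime (q ^ 3) r :=
        Nat.Coprime.pow_left 3 ((Nat.coprime_primes hq hr).mpr hqr)
      have h2 : q ^ 3 ∣ m := hcop'.dvd_of_dvd_mul_right h1
      exact hcube q hq hq3 (dvd_mul_of_dvd_right h2 _)

end Fermat.Agent.L9
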