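import Fermat.Agent.L9.FlatTame
import Fermat.Agent.Lib.Cyclotomic

/-!
# The mod `3` cyclotomic character as a sign, and quadratic characters of inertia at `3` (L9)
-/

set_option autoImplicit false
set_option linter.unusedSectionVars false

open Pointwise TensorProduct
open Fermat.Agent.FrobExists

namespace Fermat.Agent.L9.Omega

open Fermat.Agent.FlatOrd Fermat.Agent.FlatOrd.Model Fermat.Agent.L9.FlatTame
  Fermat.Agent.Cyclotomic

local notation "Qbar" => AlgebraicClosure ℚ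
local notation "GQ" => (AlgebraicClosure ℚ ≃ₐ[ℚ] AlgebraicClosure ℚ)

/-- the isomorphism `(ℤ/3)ˣ → {±1}` -/
def sgn3 : (ZMod 3)ˣ →* ℤˣ := MonoidHom.mk' (fun u => if u = 1 then 1 else -1) (by decide)

theorem sgn3_spec (u : (ZMod 3)ˣ) : (((sgn3 u : ℤˣ) : ℤ) : ZMod 3) = u := by
  revert u; decide

/-- the mod `3` cyclotomic character with values `±1` -/
noncomputable def om : GQ →* ℤˣ := sgn3.comp (cyc 3)

theorem om_apply (σ : GQ) : om σ = sgn3 (cyc 3 σ) := rfl

theorem om_spec (σ : GQ) : (((om σ : ℤˣ) : ℤ) : ZMod 3) = (cyc 3 σ : ZMod 3) := sgn3_spec _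

theorem om_cases (σ : GQ) : om σ = 1 ∨ om σ = -1 := Int.units_eq_one_or (om σ)

theorem om_mul_self (σ : GQ) : ((om σ : ℤˣ) : ℤ) * ((om σ : ℤˣ) : ℤ) = 1 := by
  rcases om_cases σ with h | h <;> rw [h] <;> norm_num

theorem exists_sqrt : ∃ s : Qbar, s ^ 2 = -3 ∧ ∀ σ : GQ, σ s = ((om σ : ℤˣ) : ℤ) * s := by
  obtain ⟨ζ, hζ⟩ := exists_primitiveRoot 3
  have hζ3 : ζ ^ 3 = 1 := hζ.pow_eq_one
  have hζ1 : ζ - 1 ≠ 0 := sub_ne_zero.mpr (hζ.ne_one (by norm_num))
  have hq : ζ ^ 2 + ζ + 1 = 0 := by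
    apply mul_left_cancel₀ hζ1
    linear_combination hζ3
  refine ⟨2 * ζ + 1, by linear_combination 4 * hq, fun σ => ?_⟩
  have h1 := cyc_spec 3 σ hζ3
  have h2 : ∀ u : (ZMod 3)ˣ, (sgn3 u = 1 ∧ (u : ZMod 3).val = 1) ∨
      (sgn3 u = -1 ∧ (u : ZMod 3).val = 2) := by decide
  have h20 : σ (2 : Qbar) = 2 := map_ofNat σ 2
  rcases h2 (cyc 3 σ) with ⟨h3, h4⟩ | ⟨h3, h4⟩
  · rw [om_apply, h3, map_add, map_mul, map_one, h20, h1, h4]
    push_cast
    ring
  · rw [om_apply, h3, map_add, map_mul, map_one, h20, h1, h4]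
    push_cast
    linear_combination 2 * hq

section place

variable (P : ValuationSubring Qbar)

theorem valuation_two (hP : P.LiesOverPrime 3) : P.valuation (2 : Qbar) = 1 := by
  have h2P : (2 : Qbar) ∈ P := by
    have := natCast_mem P 2
    exact_mod_cast this
  refine le_antisymm ((P.valuation_le_one_iff _).mpr h2P) ?_
  by_contra hcon
  have h1 : P.valuation (2 : Qbar) < 1 := not_le.mp hcon
  have h2 : P.valuation ((3 : ℕ) : Qbar) < 1 := valuation_lt_one_of_liesOver P hP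
  have h3 : P.valuation (1 : Qbar) < 1 := by
    have : (1 : Qbar) = ((3 : ℕ) : Qbar) - 2 := by push_cast; norm_num
    rw [this]
    exact (P.valuation.map_sub _ _).trans_lt (max_lt h2 h1)
  rw [map_one] at h3
  exact lt_irrefl _ h3

/-- a unit whose image under inertia is `±` itself is fixed. -/
theorem fixed_of_sign (hP : P.LiesOverPrime 3) {σ : GQ} (hσ : σ ∈ P.inertiaSubgroupIn ℚ)
    {w : Qbar} (hw : P.valuation w = 1) (h : σ w = w ∨ σ w = -w) : σ w = w := by
  rcases h with h | h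
  · exact h
  · exfalso
    have h1 := valuation_sub_lt P hσ ((P.valuation_le_one_iff _).mp hw.le)
    rw [h] at h1
    have h2 : -w - w = -(2 * w) := by ring
    rw [h2, Valuation.map_neg, map_mul, valuation_two P hP, hw, one_mul] at h1
    exact lt_irrefl _ h1

theorem valuation_eq_one_of_sq {w : Qbar} {n : ℕ} (hn : n ≠ 0) (h : P.valuation w ^ n = 1) :
    P.valuation w = 1 := by
  rcases lt_trichotomy (P.valuation w) 1 with h' | h' | h'
  · exact absurd h (pow_lt_one₀ zero_le h' hn).ne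
  · exact h'
  · exact absurd h (one_lt_pow₀ h' hn).ne'

/-- An odd inertia-eigenvector is fixed, or transforms by `ω`. -/
theorem sign_of_sq_fixed (hP : P.LiesOverPrime 3) {z : Qbar} (hz0 : z ≠ 0)
    (hz : ∀ σ ∈ P.inertiaSubgroupIn ℚ, σ z = z ∨ σ z = -z) :
    (∀ σ ∈ P.inertiaSubgroupIn ℚ, σ z = z) ∨
      ∀ σ ∈ P.inertiaSubgroupIn ℚ, σ z = ((om σ : ℤˣ) : ℤ) * z := by
  obtain ⟨s, hs, hsσ⟩ := exists_sqrt
  have hs0 : s ≠ 0 := by
    rintro rfl
    norm_num at hs
  obtain ⟨k, hk⟩ := valuation_fixed P Nat.prime_three hP (t := z ^ 2) (pow_ne_zero 2 hz0)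
    (fun σ hσ => by
      rcases hz σ hσ with h | h
      · rw [map_pow, h]
      · rw [map_pow, h]; ring)
  have hs2 : P.valuation s ^ 2 = P.valuation ((3 : ℕ) : Qbar) := by
    rw [← map_pow, hs, Valuation.map_neg]
    norm_cast
  set w := z / s ^ k with hw
  have hw1 : P.valuation w = 1 := by
    apply valuation_eq_one_of_sq P two_ne_zero
    have hsv : P.valuation s ≠ 0 := (Valuation.ne_zero_iff _).mpr hs0
    rw [hw, map_div₀, map_zpow₀, div_pow, ← map_pow, hk, ← hs2, ← zpow_natCast, ← zpow_natCast,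
      ← zpow_mul, ← zpow_mul, mul_comm]
    exact div_self (zpow_ne_zero _ hsv)
  have hzw : z = s ^ k * w := by
    rw [hw]
    field_simp
  have hwσ : ∀ σ ∈ P.inertiaSubgroupIn ℚ, σ w = w := by
    intro σ hσ
    refine fixed_of_sign P hP hσ hw1 ?_
    have h1 : σ (s ^ k) = s ^ k ∨ σ (s ^ k) = -s ^ k := by
      rw [map_zpow₀, hsσ]
      rcases om_cases σ with h | h
      · left; rw [h]; push_cast; rw [one_mul]
      · rw [h]; push_cast
        rw [neg_one_mul]
        rcases Int.even_or_odd k with hk | hk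
        · left; exact hk.neg_zpow s
        · right; exact hk.neg_zpow s
    rw [hw, map_div₀]
    rcases hz σ hσ with h | h <;> rcases h1 with h' | h' <;> rw [h, h']
    · left; rfl
    · right; rw [div_neg]
    · right; rw [neg_div]
    · left; rw [neg_div_neg_eq]
  rcases Int.even_or_odd k with hk | hk
  · left
    intro σ hσ
    rw [hzw, map_mul, hwσ σ hσ, map_zpow₀, hsσ]
    congr 1
    rcases om_cases σ with h | h
    · rw [h]; push_cast; rw [one_mul]
    · rw [h]; push_cast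
      rw [neg_one_mul, hk.neg_zpow]
  · right
    intro σ hσ
    rw [hzw, map_mul, hwσ σ hσ, map_zpow₀, hsσ, ← mul_assoc]
    congr 1
    rcases om_cases σ with h | h
    · rw [h]; push_cast; rw [one_mul, one_mul]
    · rw [h]; push_cast
      rw [neg_one_mul, hk.neg_zpow, neg_one_mul]

/-- The inertia element `σ₀`. -/
theorem exists_sigma (hP : P.LiesOverPrime 3) : ∃ (π ξ : Qbar) (σ₀ : GQ), π ^ 8 = 3 ∧
    ξ ^ 4 = -1 ∧ σ₀ ∈ P.inertiaSubgroupIn ℚ ∧ σ₀ π = ξ * π ∧ om σ₀ = -1 := by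
  obtain ⟨π, hπ⟩ := IsAlgClosed.exists_pow_nat_eq (3 : Qbar) (n := 8) (by norm_num)
  have hπ0 : π ≠ 0 := by
    rintro rfl
    norm_num at hπ
  have h30 : ((3 : ℕ) : Qbar) ≠ 0 := by norm_num
  obtain ⟨σ₀, hσ₀, hne⟩ : ∃ σ ∈ P.inertiaSubgroupIn ℚ, σ (π ^ 4) ≠ π ^ 4 := by
    by_contra hcon
    push Not at hcon
    obtain ⟨k, hk⟩ := valuation_fixed P Nat.prime_three hP (pow_ne_zero 4 hπ0) hcon
    have h3lt : P.valuation ((3 : ℕ) : Qbar) < 1 := valuation_lt_one_of_liesOver P hP
    have h3pos : (0 : P.ValueGroup) < P.valuation ((3 : ℕ) : Qbar) :=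
      (Valuation.pos_iff _).mpr h30
    have h1 : P.valuation ((3 : ℕ) : Qbar) ^ (k * 2) = P.valuation ((3 : ℕ) : Qbar) ^ (1 : ℤ) := by
      rw [zpow_mul, ← hk, zpow_one]
      have h2 : P.valuation (π ^ 4) ^ (2 : ℤ) = P.valuation (π ^ 8) := by
        rw [← map_zpow₀]
        congr 1
        norm_cast
        rw [← pow_mul]
      rw [h2, hπ]
      norm_cast
    have h2 := zpow_right_injective₀ h3pos h3lt.ne h1
    omega
  refine ⟨π, σ₀ π / π, σ₀, hπ, ?_, hσ₀, by field_simp, ?_⟩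
  · have h1 : σ₀ (π ^ 4) = π ^ 4 ∨ σ₀ (π ^ 4) = -π ^ 4 := by
      apply sq_eq_sq_iff_eq_or_eq_neg.mp
      rw [← map_pow, ← pow_mul, hπ]
      exact map_ofNat σ₀ 3
    have h2 := h1.resolve_left hne
    rw [div_pow, ← map_pow, h2, neg_div, div_self (pow_ne_zero 4 hπ0)]
  · have h1 : σ₀ (π ^ 4) = π ^ 4 ∨ σ₀ (π ^ 4) = -π ^ 4 := by
      apply sq_eq_sq_iff_eq_or_eq_neg.mp
      rw [← map_pow, ← pow_mul, hπ]
      exact map_ofNat σ₀ 3
    have h2 := h1.resolve_left hne
    obtain ⟨s, hs, hsσ⟩ := exists_sqrt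
    have hs0 : s ≠ 0 := by
      rintro rfl
      norm_num at hs
    have hi : (s / π ^ 4) ^ 2 = -1 := by
      rw [div_pow, hs, ← pow_mul, hπ]
      norm_num
    have hi1 : P.valuation (s / π ^ 4) = 1 := by
      apply valuation_eq_one_of_sq P two_ne_zero
      rw [← map_pow, hi, Valuation.map_neg, map_one]
    have hi2 : σ₀ (s / π ^ 4) = s / π ^ 4 := by
      refine fixed_of_sign P hP hσ₀ hi1 (sq_eq_sq_iff_eq_or_eq_neg.mp ?_)
      rw [← map_pow, hi, map_neg, map_one]
    rw [map_div₀, h2, hsσ] at hi2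
    rcases om_cases σ₀ with h | h
    · exfalso
      rw [h] at hi2
      push_cast at hi2
      rw [one_mul, div_neg] at hi2
      have h3 : s / π ^ 4 = 0 := by
        have : (2 : Qbar) * (s / π ^ 4) = 0 := by linear_combination -hi2
        exact (mul_eq_zero.mp this).resolve_left (by norm_num)
      rw [div_eq_zero_iff] at h3
      rcases h3 with h3 | h3
      · exact hs0 h3
      · exact pow_ne_zero 4 hπ0 h3
    · exact h

end place

section twist

variable {M : Type} [AddCommGroup M]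

/-- The twist of an action by a sign character. -/
noncomputable def twAct (χ : GQ →* ℤˣ) (act : GQ →* AddMonoid.End M) : GQ →* AddMonoid.End M where
  toFun σ := ((χ σ : ℤˣ) : ℤ) • act σ
  map_one' := by rw [map_one, map_one, Units.val_one, one_smul]
  map_mul' σ τ := by
    rw [map_mul, map_mul, Units.val_mul]
    ext x
    show (((χ σ : ℤˣ) : ℤ) * ((χ τ : ℤˣ) : ℤ)) • act σ (act τ x) =
      ((χ σ : ℤˣ) : ℤ) • act σ (((χ τ : ℤˣ) : ℤ) • act τ x)
    rw [map_zsmul, mul_smul]

theorem twAct_apply (χ : GQ →* ℤˣ) (act : GQ →* AddMonoid.End M) (σ : GQ) (x : M) :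
    twAct χ act σ x = ((χ σ : ℤˣ) : ℤ) • act σ x := rfl

end twist

section line

variable {p : ℕ} {M : Type} [AddCommGroup M] {act : GQ →* AddMonoid.End M}

/-- **Lemma Q**: if inertia acts on `x` (`x ≠ -x`) by signs, it acts trivially or by `ω`. -/
theorem fixed_or_omega (F : FlatModel 3 M act) (P : ValuationSubring Qbar)
    (hP : P.LiesOverPrime 3) {x : M} (hx : x ≠ -x)
    (h : ∀ σ ∈ P.inertiaSubgroupIn ℚ, act σ x = x ∨ act σ x = -x) :
    (∀ σ ∈ P.inertiaSubgroupIn ℚ, act σ x = x) ∨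
      ∀ σ ∈ P.inertiaSubgroupIn ℚ, act σ x = ((om σ : ℤˣ) : ℤ) • x := by
  obtain ⟨g, hg⟩ : ∃ g, F.pt x g ≠ F.pt (-x) g := by
    by_contra hcon
    push Not at hcon
    exact hx (F.pt_injective (AlgHom.ext hcon))
  set z := F.pt x g - F.pt (-x) g with hz
  have hz0 : z ≠ 0 := sub_ne_zero.mpr hg
  have key : ∀ σ, (act σ x = x → σ z = z) ∧ (act σ x = -x → σ z = -z) := by
    intro σ
    refine ⟨fun h => ?_, fun h => ?_⟩
    · rw [hz, map_sub, ← F.pt_act, ← F.pt_act, map_neg, h]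
    · rw [hz, map_sub, ← F.pt_act, ← F.pt_act, map_neg, h, neg_neg]
      ring
  rcases sign_of_sq_fixed P hP hz0 (fun σ hσ => (h σ hσ).imp (key σ).1 (key σ).2) with h1 | h1
  · left
    intro σ hσ
    rcases h σ hσ with h2 | h2
    · exact h2
    · exfalso
      have h3 := (key σ).2 h2
      rw [h1 σ hσ] at h3
      have : (2 : Qbar) * z = 0 := by linear_combination h3
      exact hz0 ((mul_eq_zero.mp this).resolve_left (by norm_num))
  · right
    intro σ hσ
    have h4 := h1 σ hσ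
    rcases om_cases σ with ho | ho
    · rw [ho] at h4 ⊢
      push_cast at h4 ⊢
      rw [one_mul] at h4
      rw [one_smul]
      rcases h σ hσ with h2 | h2
      · exact h2
      · exfalso
        have h3 := (key σ).2 h2
        rw [h4] at h3
        have : (2 : Qbar) * z = 0 := by linear_combination h3
        exact hz0 ((mul_eq_zero.mp this).resolve_left (by norm_num))
    · rw [ho] at h4 ⊢
      push_cast at h4 ⊢
      rw [neg_one_mul] at h4
      rw [neg_smul, one_smul]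
      rcases h σ hσ with h2 | h2
      · exfalso
        have h3 := (key σ).1 h2
        rw [h4] at h3
        have : (2 : Qbar) * z = 0 := by linear_combination -h3
        exact hz0 ((mul_eq_zero.mp this).resolve_left (by norm_num))
      · exact h2

end line

end Fermat.Agent.L9.Omega
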