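import Fermat.Agent.L9.LocalOrd
import Fermat.Agent.DR.ResidualCompare

/-!
# The twist of `W[3]` by the mod `3` cyclotomic character, and comparison with residual
representations whose Frobenius traces are `ℓ a_ℓ(W)` (L9)
-/

set_option autoImplicit false
set_option linter.unusedSectionVars false

open Polynomial TensorProduct

namespace Fermat.Agent.L9.Twist

open Fermat.Agent.L9.Omega Fermat.Agent.Cyclotomic

local notation "Qbar" => AlgebraicClosure ℚ
local notation "GQ" => (AlgebraicClosure ℚ ≃ₐ[ℚ] AlgebraicClosure ℚ)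

/-- `om` is trivial on an open subgroup. -/
theorem om_finite_level : ∃ L : IntermediateField ℚ Qbar, FiniteDimensional ℚ L ∧
    ∀ σ : GQ, (∀ x ∈ L, σ x = x) → om σ = 1 := by
  obtain ⟨L, hL, h⟩ := cyc_finite_level 3
  refine ⟨L, hL, fun σ hσ => ?_⟩
  rw [om_apply, h σ hσ, map_one]

/-- the twist of a residual representation by the mod `3` cyclotomic character (as a sign) -/
noncomputable def twist {k : Type} [Field k] (ρ : ResidualGaloisRep k) : ResidualGaloisRep k where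
  V := ρ.V
  finrank_eq := ρ.finrank_eq
  ρ :=
    { toFun := fun σ => ((om σ : ℤˣ) : ℤ) • ρ.ρ σ
      map_one' := by rw [map_one, map_one, Units.val_one, one_smul]
      map_mul' := fun σ τ => by
        rw [map_mul, map_mul, Units.val_mul, smul_mul_smul_comm] }
  factorsThroughFiniteLevel := by
    obtain ⟨L₁, h₁, h₁'⟩ := ρ.factorsThroughFiniteLevel
    obtain ⟨L₂, h₂, h₂'⟩ := om_finite_level
    refine ⟨L₁ ⊔ L₂, inferInstance, fun σ hσ => ?_⟩
    have e1 := h₁' σ fun x hx => hσ x ((le_sup_left : L₁ ≤ L₁ ⊔ L₂) hx)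
    have e2 := h₂' σ fun x hx => hσ x ((le_sup_right : L₂ ≤ L₁ ⊔ L₂) hx)
    change ((om σ : ℤˣ) : ℤ) • ρ.ρ σ = 1
    rw [e1, e2, Units.val_one, one_smul]

theorem twist_apply {k : Type} [Field k] (ρ : ResidualGaloisRep k) (σ : GQ) :
    (twist ρ).ρ σ = ((om σ : ℤˣ) : ℤ) • ρ.ρ σ := rfl

theorem charpoly_twist {k : Type} [Field k] (ρ : ResidualGaloisRep k) (σ : GQ) :
    LinearMap.charpoly ((twist ρ).ρ σ) = X ^ 2 -
      C ((((om σ : ℤˣ) : ℤ) : k) * LinearMap.trace k ρ.V (ρ.ρ σ)) * X +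
      C (LinearMap.det (ρ.ρ σ)) := by
  rw [BN2.charpoly_eq_of_finrank_two (twist ρ).finrank_eq]
  change X ^ 2 - C (LinearMap.trace k ρ.V (((om σ : ℤˣ) : ℤ) • ρ.ρ σ)) * X +
    C (LinearMap.det (((om σ : ℤˣ) : ℤ) • ρ.ρ σ)) = _
  have h1 : (((om σ : ℤˣ) : ℤ) • ρ.ρ σ : Module.End k ρ.V) =
      ((((om σ : ℤˣ) : ℤ) : k)) • ρ.ρ σ := by
    rw [Int.cast_smul_eq_zsmul]
  have h2 : ((((om σ : ℤˣ) : ℤ) : k)) ^ 2 = 1 := by
    rcases om_cases σ with h | h <;> rw [h] <;> norm_num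
  rw [h1, map_smul, LinearMap.det_smul, ρ.finrank_eq, h2, one_mul, smul_eq_mul]

theorem span_twist {k V : Type*} [Field k] [AddCommGroup V] [Module k V] (f : GQ → Module.End k V)
    (h : Submodule.span k (Set.range f) = ⊤) :
    Submodule.span k (Set.range fun σ => ((om σ : ℤˣ) : ℤ) • f σ) = ⊤ := by
  have hle : Submodule.span k (Set.range f) ≤
      Submodule.span k (Set.range fun σ => ((om σ : ℤˣ) : ℤ) • f σ) := by
    rw [Submodule.span_le]
    rintro _ ⟨σ, rfl⟩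
    have h1 : f σ = ((om σ : ℤˣ) : ℤ) • (((om σ : ℤˣ) : ℤ) • f σ) := by
      rw [smul_smul, om_mul_self, one_smul]
    have h2 : ((om σ : ℤˣ) : ℤ) • f σ ∈
        Submodule.span k (Set.range fun σ => ((om σ : ℤˣ) : ℤ) • f σ) :=
      Submodule.subset_span (Set.mem_range_self σ)
    rw [h1]
    exact zsmul_mem h2 _
  rw [h] at hle
  exact top_le_iff.mp hle

theorem isAbsolutelyIrreducible_twist {k : Type} [Field k] {ρ : ResidualGaloisRep k}
    (h : ρ.IsAbsolutelyIrreducible) : (twist ρ).IsAbsolutelyIrreducible := by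
  rw [BN2.isAbsolutelyIrreducible_iff_span] at h ⊢
  exact span_twist (fun σ => ρ.ρ σ) h

/-! ## The residual representation of `W` -/

section W

open WeierstrassCurve WeierstrassCurve.Affine WeierstrassCurve.Affine.Point

variable {W : WeierstrassCurve ℤ}

theorem card3 (hΔ : W.Δ ≠ 0) : Nat.card (Submodule.torsionBy ℤ
    ((W.map (Int.castRingHom ℚ))⁄(AlgebraicClosure ℚ)).Point (3 : ℕ)) = 3 ^ 2 := by
  have := isElliptic_map hΔ
  exact EllTorsion.card_torsionBy_rat (W.map (Int.castRingHom ℚ)) (by norm_num)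

theorem ker3 (hΔ : W.Δ ≠ 0) : GaloisFactorsThroughFiniteLevel
    (galoisRepModuleEnd (K := AlgebraicClosure ℚ) ℚ (W.map (Int.castRingHom ℚ)) 3) := by
  have := isElliptic_map hΔ
  exact EllTorsion.galoisRepModuleEnd_factorsThroughFiniteLevel
    (W.map (Int.castRingHom ℚ)) (by norm_num)

/-- the residual representation of `W` -/
noncomputable def rhoW (hΔ : W.Δ ≠ 0) : ResidualGaloisRep (ZMod 3) :=
  (W.map (Int.castRingHom ℚ)).residualGaloisRepOf 3 (card3 hΔ) (ker3 hΔ)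

theorem rhoW_irr (hΔ : W.Δ ≠ 0) (hirr : W.ModRepIsIrreducible 3) :
    (rhoW hΔ).IsAbsolutelyIrreducible :=
  DR.ResidualCompare.isAbsolutelyIrreducible_of_modRepIsIrreducible (by norm_num) W hΔ
    (card3 hΔ) (ker3 hΔ) hirr

theorem charpoly_twist_rhoW (hΔ : W.Δ ≠ 0) {ℓ : ℕ} (hℓ : ℓ.Prime) (hℓ3 : ℓ ≠ 3)
    (hW : W.IsGoodPrimeFor ℓ) (A : ValuationSubring Qbar) (hA : A.LiesOverPrime ℓ) {σ : GQ}
    (hσ : A.IsFrobeniusAt σ ℓ) :
    LinearMap.charpoly ((twist (rhoW hΔ)).ρ σ) =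
      X ^ 2 - C (((ℓ : ℤ) * W.apOfModel ℓ : ℤ) : ZMod 3) * X + C ((ℓ : ℕ) : ZMod 3) := by
  have h1 : LinearMap.charpoly ((rhoW hΔ).ρ σ) =
      X ^ 2 - C ((W.apOfModel ℓ : ℤ) : ZMod 3) * X + C ((ℓ : ℕ) : ZMod 3) :=
    EllRed.residualGaloisRepOf_charpoly_frobenius EllRed.frobCharpolyInputAll (card3 hΔ) (ker3 hΔ)
      hℓ hℓ3 hW A hA hσ
  rw [BN2.charpoly_eq_of_finrank_two (rhoW hΔ).finrank_eq] at h1
  have ht : LinearMap.trace (ZMod 3) (rhoW hΔ).V ((rhoW hΔ).ρ σ) =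
      ((W.apOfModel ℓ : ℤ) : ZMod 3) := by
    have := congrArg (fun p => p.coeff 1) h1
    simpa [Polynomial.coeff_X, Polynomial.coeff_C] using this
  have hd : LinearMap.det ((rhoW hΔ).ρ σ) = ((ℓ : ℕ) : ZMod 3) := by
    have := congrArg (fun p => p.coeff 0) h1
    simpa [Polynomial.coeff_X, Polynomial.coeff_C] using this
  have hℓ3' : ¬ ℓ ∣ 3 := fun h => hℓ3 ((Nat.prime_dvd_prime_iff_eq hℓ Nat.prime_three).mp h)
  have ho : (((om σ : ℤˣ) : ℤ) : ZMod 3) = (ℓ : ZMod 3) := by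
    rw [om_spec, cyc_frobenius hℓ hℓ3' A hA hσ]
  rw [charpoly_twist, ht, hd, ho]
  push_cast
  rfl

/-- **Comparison**: a residual representation with Frobenius polynomials
`X² - ℓ a_ℓ(W) X + ℓ` is isomorphic to `W[3] ⊗ ω`, which embeds into it. -/
theorem exists_embedding (hΔ : W.Δ ≠ 0) (hirr : W.ModRepIsIrreducible 3) {k : Type} [Field k]
    [CharP k 3] (ρ : ResidualGaloisRep k) (S : Finset ℕ)
    (hcp : ∀ ℓ : ℕ, ℓ.Prime → ℓ ∉ S → ∀ A : ValuationSubring (AlgebraicClosure ℚ),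
      A.LiesOverPrime ℓ → ∀ σ : GQ, A.IsFrobeniusAt σ ℓ →
        LinearMap.charpoly (ρ.ρ σ) =
          X ^ 2 - C (((ℓ : ℤ) * W.apOfModel ℓ : ℤ) : k) * X + C ((ℓ : ℕ) : k)) :
    ρ.IsAbsolutelyIrreducible ∧ ∃ j : M3 W →+ ρ.V, Function.Injective j ∧
      Submodule.span k (Set.range j) = ⊤ ∧
      ∀ (σ : GQ) (x : M3 W), j (twAct om (act3 W) σ x) = ρ.ρ σ (j x) := by
  let ψ : ZMod 3 →+* k := ZMod.castHom (dvd_refl 3) k
  have habs := isAbsolutelyIrreducible_twist (rhoW_irr hΔ hirr)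
  have hcp' : ∀ σ : GQ, (LinearMap.charpoly (ρ.ρ σ)).map (RingHom.id k) =
      (LinearMap.charpoly ((twist (rhoW hΔ)).ρ σ)).map ψ := by
    refine FrobCompare.residual_charpoly_map_eq EllRed.frobDensity (RingHom.id k) ψ ρ _
      (S ∪ (W.Δ.natAbs.primeFactors ∪ {3})) ?_
    intro ℓ hℓ hℓS A hA σ hσ
    simp only [Finset.mem_union, Finset.mem_singleton, Nat.mem_primeFactors, not_or, hℓ, true_and,
      not_and, Ne, not_not] at hℓS
    obtain ⟨h0, h1, h3⟩ := hℓS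
    have hgood : W.IsGoodPrimeFor ℓ := fun h => hΔ (Int.natAbs_eq_zero.mp (h1 (Int.natCast_dvd.mp h)))
    rw [Polynomial.map_id, hcp ℓ hℓ h0 A hA σ hσ, charpoly_twist_rhoW hΔ hℓ h3 hgood A hA hσ]
    simp
  have h2 : ((twist (rhoW hΔ)).baseChangeAlong ψ).IsAbsolutelyIrreducible :=
    BN2.isAbsolutelyIrreducible_of_charpoly_eq (RingHom.id k) ψ _ _ (fun σ => by
      rw [DR.ResidualCompare.charpoly_baseChangeAlong, Polynomial.map_id]) habs
  have hirrρ : ρ.IsAbsolutelyIrreducible :=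
    BN2.isAbsolutelyIrreducible_of_charpoly_eq (RingHom.id k) ψ _ _ hcp' habs
  obtain ⟨e⟩ := BN2.isEquiv_of_charpoly_eq ((twist (rhoW hΔ)).baseChangeAlong ψ) ρ (fun σ => by
    rw [DR.ResidualCompare.charpoly_baseChangeAlong, ← hcp' σ, Polynomial.map_id]) hirrρ
  refine ⟨hirrρ, ?_⟩
  let _ : Algebra (ZMod 3) k := ψ.toAlgebra
  let j0 : (twist (rhoW hΔ)).V →+ k ⊗[ZMod 3] (twist (rhoW hΔ)).V :=
    (TensorProduct.mk (ZMod 3) k (twist (rhoW hΔ)).V 1).toAddMonoidHom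
  have hj0 : Function.Injective j0 :=
    Module.FaithfullyFlat.tensorProduct_mk_injective (A := ZMod 3) (B := k) (twist (rhoW hΔ)).V
  let j : M3 W →+ ρ.V := e.toLinearEquiv.toLinearMap.toAddMonoidHom.comp j0
  refine ⟨j, fun x y hxy => hj0 (e.toLinearEquiv.injective hxy), ?_, fun σ x => ?_⟩
  · rw [eq_top_iff]
    rintro v -
    obtain ⟨z, rfl⟩ := e.toLinearEquiv.surjective v
    change k ⊗[ZMod 3] (twist (rhoW hΔ)).V at z
    induction z using TensorProduct.induction_on with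
    | zero =>
      have h6 : e.toLinearEquiv 0 = 0 := _root_.map_zero e.toLinearEquiv
      exact h6.symm ▸ zero_mem _
    | tmul c m =>
      have h6 : (c ⊗ₜ[ZMod 3] m : k ⊗[ZMod 3] (twist (rhoW hΔ)).V) = c • ((1 : k) ⊗ₜ[ZMod 3] m) := by
        rw [TensorProduct.smul_tmul', smul_eq_mul, mul_one]
      rw [h6]
      have h7 : e.toLinearEquiv (c • ((1 : k) ⊗ₜ[ZMod 3] m : k ⊗[ZMod 3] (twist (rhoW hΔ)).V)) =
          c • e.toLinearEquiv ((1 : k) ⊗ₜ[ZMod 3] m) := map_smul e.toLinearEquiv c _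
      rw [h7]
      exact Submodule.smul_mem _ c (Submodule.subset_span ⟨m, rfl⟩)
    | add x y hx hy =>
      have h8 : e.toLinearEquiv (x + y) = e.toLinearEquiv x + e.toLinearEquiv y :=
        map_add e.toLinearEquiv x y
      rw [h8]
      exact add_mem hx hy
  · have h5 := e.map_apply σ (j0 x)
    refine Eq.trans ?_ h5
    rfl

end W

end Fermat.Agent.L9.Twist
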